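/-
M2F (free-module route to S20): basic definitions.

`Mk N k`, `Sk N k`, `Rk k` are the spaces of modular forms / cusp forms of weight `k` on `Γ₀(N)`,
resp. level-one modular forms, as `ℂ`-subspaces of `ℍ → ℂ`, with function-level membership
criteria.  `cF Γ k f` is the family of translates `f ∣[k] γ⁻¹` indexed by `SL(2,ℤ) ⧸ Γ`.
(helper3)
-/
import Mathlib

set_option autoImplicit false

open UpperHalfPlane ModularForm MatrixGroups CongruenceSubgroup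
open scoped Manifold Topology

namespace Fermat.Agent.M2F

/-- Function-level predicate: `f` is a modular form of weight `k` for the finite-index subgroup
`Γ ≤ SL(2,ℤ)`. -/
structure IsMF (Γ : Subgroup SL(2, ℤ)) (k : ℤ) (f : ℍ → ℂ) : Prop where
  holo : MDiff f
  inv : ∀ γ ∈ Γ, f ∣[k] γ = f
  bdd : ∀ γ : SL(2, ℤ), IsBoundedAtImInfty (f ∣[k] γ)

/-- Function-level predicate: `f` is a cusp form of weight `k` for `Γ ≤ SL(2,ℤ)`. -/
structure IsCF (Γ : Subgroup SL(2, ℤ)) (k : ℤ) (f : ℍ → ℂ) : Prop where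
  holo : MDiff f
  inv : ∀ γ ∈ Γ, f ∣[k] γ = f
  zero : ∀ γ : SL(2, ℤ), IsZeroAtImInfty (f ∣[k] γ)

lemma IsCF.isMF {Γ : Subgroup SL(2, ℤ)} {k : ℤ} {f : ℍ → ℂ} (h : IsCF Γ k f) : IsMF Γ k f :=
  ⟨h.holo, h.inv, fun γ => (h.zero γ).isBoundedAtImInfty⟩

section mk

variable (Γ : Subgroup SL(2, ℤ)) [Γ.FiniteIndex] (k : ℤ)

/-- Bundle a function satisfying `IsMF` into a Mathlib `ModularForm`. -/
noncomputable def IsMF.toModularForm {f : ℍ → ℂ} (h : IsMF Γ k f) : ModularForm Γ k where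
  toFun := f
  slash_action_eq' := fun _ ⟨γ, hγ, hγ'⟩ ↦ hγ' ▸ h.inv γ hγ
  holo' := h.holo
  bdd_at_cusps' {c} hc := by
    rw [Subgroup.IsArithmetic.isCusp_iff_isCusp_SL2Z] at hc
    rw [OnePoint.isBoundedAt_iff_forall_SL2Z hc]
    exact fun γ _ => h.bdd γ

@[simp] lemma IsMF.coe_toModularForm {f : ℍ → ℂ} (h : IsMF Γ k f) :
    ⇑(h.toModularForm Γ k) = f := rfl

/-- Bundle a function satisfying `IsCF` into a Mathlib `CuspForm`. -/
noncomputable def IsCF.toCuspForm {f : ℍ → ℂ} (h : IsCF Γ k f) : CuspForm Γ k where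
  toFun := f
  slash_action_eq' := fun _ ⟨γ, hγ, hγ'⟩ ↦ hγ' ▸ h.inv γ hγ
  holo' := h.holo
  zero_at_cusps' {c} hc := by
    rw [Subgroup.IsArithmetic.isCusp_iff_isCusp_SL2Z] at hc
    rw [OnePoint.isZeroAt_iff_forall_SL2Z hc]
    exact fun γ _ => h.zero γ

@[simp] lemma IsCF.coe_toCuspForm {f : ℍ → ℂ} (h : IsCF Γ k f) :
    ⇑(h.toCuspForm Γ k) = f := rfl

variable {Γ k}

lemma isMF_coe (F : ModularForm Γ k) : IsMF Γ k ⇑F where
  holo := F.holo'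
  inv := fun γ hγ => SlashInvariantFormClass.slash_action_eq F _ ⟨γ, hγ, rfl⟩
  bdd := fun γ => ModularFormClass.bdd_at_infty_slash F γ

lemma isCF_coe (F : CuspForm Γ k) : IsCF Γ k ⇑F where
  holo := F.holo'
  inv := fun γ hγ => SlashInvariantFormClass.slash_action_eq F _ ⟨γ, hγ, rfl⟩
  zero := fun γ => CuspFormClass.zero_at_infty_slash F γ

end mk

section algebra

variable {Γ Γ' : Subgroup SL(2, ℤ)} {k l : ℤ} {f g : ℍ → ℂ}

lemma IsMF.mono (hΓ : Γ' ≤ Γ) (h : IsMF Γ k f) : IsMF Γ' k f :=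
  ⟨h.holo, fun γ hγ => h.inv γ (hΓ hγ), h.bdd⟩

lemma IsCF.mono (hΓ : Γ' ≤ Γ) (h : IsCF Γ k f) : IsCF Γ' k f :=
  ⟨h.holo, fun γ hγ => h.inv γ (hΓ hγ), h.zero⟩

lemma isMF_zero : IsMF Γ k (0 : ℍ → ℂ) where
  holo := mdifferentiable_const
  inv := fun γ _ => SlashAction.zero_slash _ _
  bdd := fun γ => by
    rw [SlashAction.zero_slash]
    exact Filter.const_boundedAtFilter _ (0 : ℂ)

lemma isCF_zero : IsCF Γ k (0 : ℍ → ℂ) where
  holo := mdifferentiable_const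
  inv := fun γ _ => SlashAction.zero_slash _ _
  zero := fun γ => by
    rw [SlashAction.zero_slash]
    exact Filter.zero_zeroAtFilter _

lemma IsMF.add (hf : IsMF Γ k f) (hg : IsMF Γ k g) : IsMF Γ k (f + g) where
  holo := hf.holo.add hg.holo
  inv := fun γ hγ => by rw [SlashAction.add_slash, hf.inv γ hγ, hg.inv γ hγ]
  bdd := fun γ => by
    rw [SlashAction.add_slash]
    exact (hf.bdd γ).add (hg.bdd γ)

lemma IsCF.add (hf : IsCF Γ k f) (hg : IsCF Γ k g) : IsCF Γ k (f + g) where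
  holo := hf.holo.add hg.holo
  inv := fun γ hγ => by rw [SlashAction.add_slash, hf.inv γ hγ, hg.inv γ hγ]
  zero := fun γ => by
    rw [SlashAction.add_slash]
    exact (hf.zero γ).add (hg.zero γ)

lemma IsMF.smul (c : ℂ) (hf : IsMF Γ k f) : IsMF Γ k (c • f) where
  holo := hf.holo.const_smul c
  inv := fun γ hγ => by rw [ModularForm.SL_smul_slash, hf.inv γ hγ]
  bdd := fun γ => by
    rw [ModularForm.SL_smul_slash]
    exact (hf.bdd γ).const_smul_left c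

lemma IsCF.smul (c : ℂ) (hf : IsCF Γ k f) : IsCF Γ k (c • f) where
  holo := hf.holo.const_smul c
  inv := fun γ hγ => by rw [ModularForm.SL_smul_slash, hf.inv γ hγ]
  zero := fun γ => by
    rw [ModularForm.SL_smul_slash]
    exact (hf.zero γ).smul c

lemma IsMF.mul (hf : IsMF Γ k f) (hg : IsMF Γ l g) : IsMF Γ (k + l) (f * g) where
  holo := hf.holo.mul hg.holo
  inv := fun γ hγ => by rw [ModularForm.mul_slash_SL2, hf.inv γ hγ, hg.inv γ hγ]
  bdd := fun γ => by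
    rw [ModularForm.mul_slash_SL2]
    exact (hf.bdd γ).mul (hg.bdd γ)

lemma IsMF.mul_isCF (hf : IsMF Γ k f) (hg : IsCF Γ l g) : IsCF Γ (k + l) (f * g) where
  holo := hf.holo.mul hg.holo
  inv := fun γ hγ => by rw [ModularForm.mul_slash_SL2, hf.inv γ hγ, hg.inv γ hγ]
  zero := fun γ => by
    rw [ModularForm.mul_slash_SL2]
    exact (hf.bdd γ).mul_zeroAtFilter (hg.zero γ)

/-- Every `SL(2,ℤ)`-translate of a modular form for `Γ` is holomorphic. -/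
lemma IsMF.slash_holo (hf : IsMF Γ k f) (γ : SL(2, ℤ)) : MDiff (f ∣[k] γ) :=
  hf.holo.slash k _

end algebra

/-- Weight-`k` modular forms for `Γ`, as a subspace of `ℍ → ℂ`. -/
def Mk (Γ : Subgroup SL(2, ℤ)) (k : ℤ) : Submodule ℂ (ℍ → ℂ) where
  carrier := {f | IsMF Γ k f}
  add_mem' := fun hf hg => hf.add hg
  zero_mem' := isMF_zero
  smul_mem' := fun c _ hf => hf.smul c

/-- Weight-`k` cusp forms for `Γ`, as a subspace of `ℍ → ℂ`. -/
def Sk (Γ : Subgroup SL(2, ℤ)) (k : ℤ) : Submodule ℂ (ℍ → ℂ) where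
  carrier := {f | IsCF Γ k f}
  add_mem' := fun hf hg => hf.add hg
  zero_mem' := isCF_zero
  smul_mem' := fun c _ hf => hf.smul c

/-- Level-one modular forms of weight `k`, as a subspace of `ℍ → ℂ`. -/
abbrev Rk (k : ℤ) : Submodule ℂ (ℍ → ℂ) := Mk ⊤ k

@[simp] lemma mem_Mk {Γ : Subgroup SL(2, ℤ)} {k : ℤ} {f : ℍ → ℂ} : f ∈ Mk Γ k ↔ IsMF Γ k f :=
  Iff.rfl

@[simp] lemma mem_Sk {Γ : Subgroup SL(2, ℤ)} {k : ℤ} {f : ℍ → ℂ} : f ∈ Sk Γ k ↔ IsCF Γ k f :=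
  Iff.rfl

lemma Sk_le_Mk (Γ : Subgroup SL(2, ℤ)) (k : ℤ) : Sk Γ k ≤ Mk Γ k := fun _ h => IsCF.isMF h

lemma Rk_le_Mk (Γ : Subgroup SL(2, ℤ)) (k : ℤ) : Rk k ≤ Mk Γ k := fun _ h => IsMF.mono le_top h

section equiv

variable (Γ : Subgroup SL(2, ℤ)) [Γ.FiniteIndex] (k : ℤ)

/-- `Mk Γ k` is linearly equivalent to Mathlib's `ModularForm Γ k`. -/
noncomputable def MkEquiv : Mk Γ k ≃ₗ[ℂ] ModularForm Γ k where
  toFun f := (mem_Mk.mp f.2).toModularForm Γ k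
  invFun F := ⟨⇑F, isMF_coe F⟩
  map_add' _ _ := rfl
  map_smul' _ _ := rfl
  left_inv _ := rfl
  right_inv _ := rfl

/-- `Sk Γ k` is linearly equivalent to Mathlib's `CuspForm Γ k`. -/
noncomputable def SkEquiv : Sk Γ k ≃ₗ[ℂ] CuspForm Γ k where
  toFun f := (mem_Sk.mp f.2).toCuspForm Γ k
  invFun F := ⟨⇑F, isCF_coe F⟩
  map_add' _ _ := rfl
  map_smul' _ _ := rfl
  left_inv _ := rfl
  right_inv _ := rfl

lemma finrank_Sk : Module.finrank ℂ (Sk Γ k) = Module.finrank ℂ (CuspForm Γ k) :=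
  (SkEquiv Γ k).finrank_eq

lemma finrank_Mk : Module.finrank ℂ (Mk Γ k) = Module.finrank ℂ (ModularForm Γ k) :=
  (MkEquiv Γ k).finrank_eq

end equiv

section coset

variable (Γ : Subgroup SL(2, ℤ)) (k : ℤ)

/-- The translates `f ∣[k] γ⁻¹`, indexed by the left cosets `q = γΓ` (well defined when `f` is
`Γ`-invariant of weight `k`; defined via a choice of representative in general). -/
noncomputable def cF (f : ℍ → ℂ) (q : SL(2, ℤ) ⧸ Γ) : ℍ → ℂ := f ∣[k] (q.out)⁻¹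

variable {Γ k} {f : ℍ → ℂ}

lemma cF_mk (hinv : ∀ γ ∈ Γ, f ∣[k] γ = f) (γ : SL(2, ℤ)) :
    cF Γ k f (γ : SL(2, ℤ) ⧸ Γ) = f ∣[k] γ⁻¹ := by
  obtain ⟨h, hh⟩ := QuotientGroup.mk_out_eq_mul Γ γ
  unfold cF
  rw [hh, mul_inv_rev, SlashAction.slash_mul, hinv _ (Γ.inv_mem h.2)]

lemma cF_one (hinv : ∀ γ ∈ Γ, f ∣[k] γ = f) :
    cF Γ k f ((1 : SL(2, ℤ)) : SL(2, ℤ) ⧸ Γ) = f := by
  rw [cF_mk hinv, inv_one, SlashAction.slash_one]

lemma cF_slash (hinv : ∀ γ ∈ Γ, f ∣[k] γ = f) (q : SL(2, ℤ) ⧸ Γ) (δ : SL(2, ℤ)) :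
    cF Γ k f q ∣[k] δ = cF Γ k f (δ⁻¹ • q) := by
  induction q using QuotientGroup.induction_on with
  | H γ =>
    rw [cF_mk hinv, MulAction.Quotient.smul_mk, cF_mk hinv, ← SlashAction.slash_mul]
    congr 1
    simp [mul_inv_rev]

/-- Equivariance of the coset family: `F(δz)(q) = (cz+d)^k F(z)(δ⁻¹q)`. -/
lemma cF_smul_apply (hinv : ∀ γ ∈ Γ, f ∣[k] γ = f) (q : SL(2, ℤ) ⧸ Γ) (δ : SL(2, ℤ)) (z : ℍ) :
    cF Γ k f q (δ • z) = denom δ z ^ k * cF Γ k f (δ⁻¹ • q) z := by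
  rw [← cF_slash hinv, ModularForm.SL_slash_apply]
  have hd : denom δ z ≠ 0 := denom_ne_zero δ z
  rw [mul_comm, mul_assoc, ← zpow_add₀ hd]
  simp

lemma cF_add (f g : ℍ → ℂ) (q : SL(2, ℤ) ⧸ Γ) : cF Γ k (f + g) q = cF Γ k f q + cF Γ k g q := by
  unfold cF; rw [SlashAction.add_slash]

lemma cF_smul (c : ℂ) (f : ℍ → ℂ) (q : SL(2, ℤ) ⧸ Γ) : cF Γ k (c • f) q = c • cF Γ k f q := by
  unfold cF; rw [ModularForm.SL_smul_slash]

lemma cF_zero (q : SL(2, ℤ) ⧸ Γ) : cF Γ k (0 : ℍ → ℂ) q = 0 := by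
  unfold cF; rw [SlashAction.zero_slash]

/-- Multiplying by a level-one form `a` commutes with taking translates. -/
lemma cF_mul {l : ℤ} {a : ℍ → ℂ} (ha : ∀ γ : SL(2, ℤ), a ∣[l] γ = a) (f : ℍ → ℂ)
    (q : SL(2, ℤ) ⧸ Γ) : cF Γ (l + k) (a * f) q = a * cF Γ k f q := by
  unfold cF; rw [ModularForm.mul_slash_SL2, ha]

lemma IsMF.cF_holo (hf : IsMF Γ k f) (q : SL(2, ℤ) ⧸ Γ) : MDiff (cF Γ k f q) :=
  hf.slash_holo _

lemma IsMF.cF_bdd (hf : IsMF Γ k f) (q : SL(2, ℤ) ⧸ Γ) : IsBoundedAtImInfty (cF Γ k f q) :=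
  hf.bdd _

lemma IsCF.cF_zero (hf : IsCF Γ k f) (q : SL(2, ℤ) ⧸ Γ) : IsZeroAtImInfty (cF Γ k f q) :=
  hf.zero _

/-- A `Γ`-invariant function vanishes identically iff all its translates do. -/
lemma cF_eq_zero_iff (hinv : ∀ γ ∈ Γ, f ∣[k] γ = f) : (∀ q, cF Γ k f q = 0) ↔ f = 0 := by
  constructor
  · intro h
    rw [← cF_one hinv]; exact h _
  · rintro rfl q
    exact cF_zero q

end coset

section levelOne

/-- Level-one membership: invariance under all of `SL(2,ℤ)` and boundedness at `i∞` suffice. -/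
lemma isMF_top_iff {k : ℤ} {f : ℍ → ℂ} :
    IsMF ⊤ k f ↔ MDiff f ∧ (∀ γ : SL(2, ℤ), f ∣[k] γ = f) ∧ IsBoundedAtImInfty f := by
  constructor
  · intro h
    refine ⟨h.holo, fun γ => h.inv γ (Subgroup.mem_top γ), ?_⟩
    simpa [SlashAction.slash_one] using h.bdd 1
  · rintro ⟨h1, h2, h3⟩
    exact ⟨h1, fun γ _ => h2 γ, fun γ => by rw [h2 γ]; exact h3⟩

/-- Bundle an element of `Rk k` as a Mathlib level-one modular form. -/
noncomputable def toLevelOne {k : ℤ} {f : ℍ → ℂ} (h : IsMF ⊤ k f) : ModularForm 𝒮ℒ k where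
  toFun := f
  slash_action_eq' := fun _ ⟨γ, hγ⟩ ↦ hγ ▸ h.inv γ (Subgroup.mem_top γ)
  holo' := h.holo
  bdd_at_cusps' {c} hc := by
    rw [Subgroup.IsArithmetic.isCusp_iff_isCusp_SL2Z] at hc
    rw [OnePoint.isBoundedAt_iff_forall_SL2Z hc]
    exact fun γ _ => h.bdd γ

@[simp] lemma coe_toLevelOne {k : ℤ} {f : ℍ → ℂ} (h : IsMF ⊤ k f) : ⇑(toLevelOne h) = f := rfl

lemma isMF_top_coe {k : ℤ} (F : ModularForm 𝒮ℒ k) : IsMF ⊤ k ⇑F :=
  isMF_top_iff.mpr ⟨F.holo', fun γ => SlashInvariantFormClass.slash_action_eq F _ ⟨γ, rfl⟩,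
    ModularFormClass.bdd_at_infty F⟩

lemma isMF_E₄ : IsMF ⊤ 4 (E₄ : ℍ → ℂ) := isMF_top_coe E₄
lemma isMF_E₆ : IsMF ⊤ 6 (E₆ : ℍ → ℂ) := isMF_top_coe E₆

lemma discriminant_slash (γ : SL(2, ℤ)) :
    (ModularForm.discriminant : ℍ → ℂ) ∣[(12 : ℤ)] γ = ModularForm.discriminant :=
  SlashInvariantForm.slash_action_generators_SL2Z discriminant_S_invariant discriminant_T_invariant γ

lemma isCF_discriminant : IsCF ⊤ 12 (ModularForm.discriminant : ℍ → ℂ) where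
  holo := CuspForm.discriminant.holo'
  inv := fun γ _ => discriminant_slash γ
  zero := fun γ => by
    rw [discriminant_slash γ]
    exact discriminant_isZeroAtImInfty

end levelOne

section cosetSpace

/-- The coset space `SL(2,ℤ) ⧸ Γ₀(N)`. -/
abbrev X (N : ℕ) := SL(2, ℤ) ⧸ Gamma0 N

noncomputable instance instFintypeX (N : ℕ) [NeZero N] : Fintype (X N) := Fintype.ofFinite _

/-- A finite homogeneous basis of `M_*(Γ₀(N))` over the ring of level-one forms: every form of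
weight `k` is uniquely `∑ a_j m_j` with `a_j` level-one of weight `k - κ_j`. -/
structure IsHomBasis (N : ℕ) {ι : Type} [Fintype ι] (κ : ι → ℤ) (m : ι → ℍ → ℂ) : Prop where
  mem : ∀ j, IsMF (Gamma0 N) (κ j) (m j)
  gen : ∀ k f, IsMF (Gamma0 N) k f →
    ∃ a : ι → ℍ → ℂ, (∀ j, IsMF ⊤ (k - κ j) (a j)) ∧ f = ∑ j, a j * m j
  free : ∀ k (a : ι → ℍ → ℂ), (∀ j, IsMF ⊤ (k - κ j) (a j)) → ∑ j, a j * m j = 0 → ∀ j, a j = 0

/-- The matrix `Φ(z) = [(m_j ∣[κ_j] γ⁻¹)(z)]`, rows indexed by the cosets `γΓ₀(N)`. -/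
noncomputable def Phi (N : ℕ) {ι : Type} (κ : ι → ℤ) (m : ι → ℍ → ℂ) (z : ℍ) :
    Matrix (X N) ι ℂ := fun q j => cF (Gamma0 N) (κ j) (m j) q z

end cosetSpace

section more

variable {Γ : Subgroup SL(2, ℤ)} {k l : ℤ} {f g : ℍ → ℂ}

lemma IsMF.neg (hf : IsMF Γ k f) : IsMF Γ k (-f) := by
  have := hf.smul (-1 : ℂ)
  simpa using this

lemma IsMF.sub (hf : IsMF Γ k f) (hg : IsMF Γ k g) : IsMF Γ k (f - g) := by
  rw [sub_eq_add_neg]
  exact hf.add hg.neg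

lemma IsMF.of_weight_eq (hf : IsMF Γ k f) (h : k = l) : IsMF Γ l f := h ▸ hf

lemma IsCF.of_weight_eq (hf : IsCF Γ k f) (h : k = l) : IsCF Γ l f := h ▸ hf

lemma isMF_one : IsMF Γ 0 (1 : ℍ → ℂ) where
  holo := mdifferentiable_const
  inv := fun γ _ => ModularForm.is_invariant_one γ
  bdd := fun γ => by
    rw [ModularForm.is_invariant_one γ]
    exact Filter.const_boundedAtFilter _ (1 : ℂ)

lemma isMF_const (c : ℂ) : IsMF Γ 0 (fun _ => c) := by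
  have := (isMF_one (Γ := Γ)).smul c
  convert this using 1
  ext z
  simp

lemma IsMF.pow (hf : IsMF Γ k f) (n : ℕ) : IsMF Γ (n * k) (f ^ n) := by
  induction n with
  | zero =>
    simp only [Nat.cast_zero, zero_mul, pow_zero]
    exact isMF_one
  | succ n ih =>
    rw [pow_succ]
    exact (ih.mul hf).of_weight_eq (by push_cast; ring)

lemma IsMF.sum {ι : Type*} (s : Finset ι) {F : ι → ℍ → ℂ} (h : ∀ i ∈ s, IsMF Γ k (F i)) :
    IsMF Γ k (∑ i ∈ s, F i) := by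
  classical
  induction s using Finset.induction_on with
  | empty => simpa using isMF_zero
  | insert a s ha ih =>
    rw [Finset.sum_insert ha]
    exact (h a (Finset.mem_insert_self a s)).add
      (ih fun i hi => h i (Finset.mem_insert_of_mem hi))

lemma cF_sum {ι : Type*} (s : Finset ι) (F : ι → ℍ → ℂ) (q : SL(2, ℤ) ⧸ Γ) :
    cF Γ k (∑ i ∈ s, F i) q = ∑ i ∈ s, cF Γ k (F i) q := by
  classical
  induction s using Finset.induction_on with
  | empty => simpa using cF_zero q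
  | insert a s ha ih => rw [Finset.sum_insert ha, Finset.sum_insert ha, cF_add, ih]

end more

end Fermat.Agent.M2F
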