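/-
M2F, task F9 (duality): from the invertibility of `Φ(z)` for every `z` and the decay of `Δ·Φ⁻¹`
at `i∞` we get the dual family `g_j := Δ·(Φ⁻¹)_{j,⟦1⟧} ∈ S_{12-κ_j}(Γ₀(N))`, the weight bounds
`0 ≤ κ_j ≤ 10`, `κ_j` even, exactly one `κ_j = 0`, and `dim S₂(Γ₀(N)) = #{j | κ_j = 10}`.
(helper26)
-/
import Fermat.Agent.M2F.Defs

set_option autoImplicit false
set_option linter.unusedSectionVars false

open UpperHalfPlane ModularForm MatrixGroups CongruenceSubgroup
open scoped Manifold Topology Classical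

namespace Fermat.Agent.M2F.Duality

open Fermat.Agent.M2F

/-! ### Holomorphy of determinants and of the entries of the inverse -/

section holo

variable {n : Type} [Fintype n] [DecidableEq n]

lemma mdiff_det (A : ℍ → Matrix n n ℂ) (hA : ∀ i j, MDiff (fun z => A z i j)) :
    MDiff (fun z => (A z).det) := by
  have h : (fun z => (A z).det) =
      ∑ σ : Equiv.Perm n, (fun _ : ℍ => ((Equiv.Perm.sign σ : ℤ) : ℂ)) *
        ∏ i, (fun z => A z (σ i) i) := by
    funext z
    simp [Matrix.det_apply', Finset.sum_apply, Finset.prod_apply]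
  rw [h]
  exact MDifferentiable.sum fun σ _ =>
    mdifferentiable_const.mul (MDifferentiable.prod fun i _ => hA _ _)

lemma mdiff_inv_apply (A : ℍ → Matrix n n ℂ) (hA : ∀ i j, MDiff (fun z => A z i j))
    (hdet : ∀ z, (A z).det ≠ 0) (i j : n) : MDiff (fun z => (A z)⁻¹ i j) := by
  have h : (fun z => (A z)⁻¹ i j) =
      (fun z => (A z).det)⁻¹ * (fun z => ((A z).updateRow j (Pi.single i 1)).det) := by
    funext z
    simp [Matrix.inv_def, Ring.inverse_eq_inv', Matrix.adjugate_apply]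
  rw [h]
  refine ((mdiff_det A hA).inv hdet).mul (mdiff_det _ fun i' j' => ?_)
  by_cases hij : i' = j
  · subst hij
    simp only [Matrix.updateRow_self]
    exact mdifferentiable_const
  · simp only [Matrix.updateRow_ne hij]
    exact hA _ _

end holo


/-! ### Equivariance of `Φ` and of its inverse -/

section equivariance

variable {N : ℕ} [NeZero N] {κ : X N → ℤ} {m : X N → ℍ → ℂ}

lemma Phi_smul (hb : IsHomBasis N κ m) (δ : SL(2, ℤ)) (z : ℍ) (q j : X N) :
    Phi N κ m (δ • z) q j = denom δ z ^ κ j * Phi N κ m z (δ⁻¹ • q) j :=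
  cF_smul_apply (hb.mem j).inv q δ z

lemma Phi_inv_smul (hb : IsHomBasis N κ m) (hdet : ∀ z, (Phi N κ m z).det ≠ 0)
    (δ : SL(2, ℤ)) (z : ℍ) (j q : X N) :
    (Phi N κ m (δ • z))⁻¹ j q = denom δ z ^ (-κ j) * (Phi N κ m z)⁻¹ j (δ⁻¹ • q) := by
  have hd : denom δ z ≠ 0 := denom_ne_zero δ z
  set B : Matrix (X N) (X N) ℂ :=
    fun j q => denom δ z ^ (-κ j) * (Phi N κ m z)⁻¹ j (δ⁻¹ • q) with hB
  have hBA : B * Phi N κ m (δ • z) = 1 := by
    ext j j'
    rw [Matrix.mul_apply]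
    have h1 : ∀ q, B j q * Phi N κ m (δ • z) q j' =
        (denom δ z ^ (-κ j) * denom δ z ^ κ j') *
          ((Phi N κ m z)⁻¹ j (δ⁻¹ • q) * Phi N κ m z (δ⁻¹ • q) j') := by
      intro q
      rw [Phi_smul hb, hB]
      ring
    simp_rw [h1]
    rw [← Finset.mul_sum]
    have h2 : ∑ q : X N, (Phi N κ m z)⁻¹ j (δ⁻¹ • q) * Phi N κ m z (δ⁻¹ • q) j' =
        ((Phi N κ m z)⁻¹ * Phi N κ m z) j j' := by
      rw [Matrix.mul_apply]
      exact Equiv.sum_comp (MulAction.toPerm δ⁻¹)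
        (fun q' => (Phi N κ m z)⁻¹ j q' * Phi N κ m z q' j')
    rw [h2, Matrix.nonsing_inv_mul _ (isUnit_iff_ne_zero.mpr (hdet z))]
    by_cases hjj : j = j'
    · subst hjj
      rw [Matrix.one_apply_eq, mul_one, ← zpow_add₀ hd, neg_add_cancel, zpow_zero]
    · rw [Matrix.one_apply_ne hjj, mul_zero]
  rw [Matrix.inv_eq_left_inv hBA]

lemma discriminant_smul (δ : SL(2, ℤ)) (z : ℍ) :
    ModularForm.discriminant (δ • z) = denom δ z ^ (12 : ℤ) * ModularForm.discriminant z := by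
  have h := congrFun (discriminant_slash δ) z
  rw [ModularForm.SL_slash_apply] at h
  have hd : denom δ z ≠ 0 := denom_ne_zero δ z
  rw [← h, mul_comm (denom δ z ^ (12 : ℤ)), mul_assoc, ← zpow_add₀ hd]
  simp

end equivariance


/-! ### The dual family -/

section dual

variable {N : ℕ} [NeZero N] {κ : X N → ℤ} {m : X N → ℍ → ℂ}

/-- The dual family `G j q = Δ · (Φ⁻¹)_{j,q}`; `G j ⟦1⟧` is a cusp form of weight `12 - κ j` and
`G j q` are its translates. -/
noncomputable def G (N : ℕ) [NeZero N] (κ : X N → ℤ) (m : X N → ℍ → ℂ) (j q : X N) : ℍ → ℂ :=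
  fun z => ModularForm.discriminant z * (Phi N κ m z)⁻¹ j q

lemma G_apply (j q : X N) (z : ℍ) :
    G N κ m j q z = ModularForm.discriminant z * (Phi N κ m z)⁻¹ j q := rfl

lemma G_smul (hb : IsHomBasis N κ m) (hdet : ∀ z, (Phi N κ m z).det ≠ 0)
    (δ : SL(2, ℤ)) (z : ℍ) (j q : X N) :
    G N κ m j q (δ • z) = denom δ z ^ (12 - κ j) * G N κ m j (δ⁻¹ • q) z := by
  have hd : denom δ z ≠ 0 := denom_ne_zero δ z
  rw [G_apply, G_apply, Phi_inv_smul hb hdet, discriminant_smul, sub_eq_add_neg, zpow_add₀ hd]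
  ring

lemma G_slash (hb : IsHomBasis N κ m) (hdet : ∀ z, (Phi N κ m z).det ≠ 0)
    (δ : SL(2, ℤ)) (j q : X N) :
    G N κ m j q ∣[12 - κ j] δ = G N κ m j (δ⁻¹ • q) := by
  funext z
  have hd : denom δ z ≠ 0 := denom_ne_zero δ z
  rw [ModularForm.SL_slash_apply, G_smul hb hdet, mul_comm, ← mul_assoc, ← zpow_add₀ hd,
    neg_add_cancel, zpow_zero, one_mul]

lemma G_mdiff (hb : IsHomBasis N κ m) (hdet : ∀ z, (Phi N κ m z).det ≠ 0) (j q : X N) :
    MDiff (G N κ m j q) := by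
  have h1 : MDiff (fun z => (Phi N κ m z)⁻¹ j q) :=
    mdiff_inv_apply (Phi N κ m) (fun q' j' => (hb.mem j').cF_holo q') hdet j q
  exact (isCF_discriminant.holo).mul h1

/-- The dual forms are cusp forms of weight `12 - κ j`. -/
lemma isCF_G (hb : IsHomBasis N κ m) (hdet : ∀ z, (Phi N κ m z).det ≠ 0)
    (hcusp : ∀ q j : X N,
      IsZeroAtImInfty (fun z => ModularForm.discriminant z * (Phi N κ m z)⁻¹ j q))
    (j : X N) :
    IsCF (Gamma0 N) (12 - κ j) (G N κ m j ((1 : SL(2, ℤ)) : X N)) where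
  holo := G_mdiff hb hdet j _
  inv := fun γ hγ => by
    rw [G_slash hb hdet, MulAction.Quotient.smul_mk, smul_eq_mul, mul_one]
    congr 1
    rw [QuotientGroup.eq]
    simpa using hγ
  zero := fun γ => by
    rw [G_slash hb hdet]
    exact hcusp _ j

lemma cF_G (hb : IsHomBasis N κ m) (hdet : ∀ z, (Phi N κ m z).det ≠ 0) (j q : X N) :
    cF (Gamma0 N) (12 - κ j) (G N κ m j ((1 : SL(2, ℤ)) : X N)) q = G N κ m j q := by
  unfold cF
  rw [G_slash hb hdet, inv_inv, MulAction.Quotient.smul_mk, smul_eq_mul, mul_one,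
    QuotientGroup.out_eq']

end dual


/-! ### Level-one helpers -/

section levelOne

/-- Bundle an element of `Sk ⊤ k` as a Mathlib level-one cusp form. -/
noncomputable def toLevelOneCusp {k : ℤ} {f : ℍ → ℂ} (h : IsCF ⊤ k f) : CuspForm 𝒮ℒ k where
  toFun := f
  slash_action_eq' := fun _ ⟨γ, hγ⟩ ↦ hγ ▸ h.inv γ (Subgroup.mem_top γ)
  holo' := h.holo
  zero_at_cusps' {c} hc := by
    rw [Subgroup.IsArithmetic.isCusp_iff_isCusp_SL2Z] at hc
    rw [OnePoint.isZeroAt_iff_forall_SL2Z hc]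
    exact fun γ _ => h.zero γ

@[simp] lemma coe_toLevelOneCusp {k : ℤ} {f : ℍ → ℂ} (h : IsCF ⊤ k f) :
    ⇑(toLevelOneCusp h) = f := rfl

lemma isCF_top_eq_zero_of_lt {k : ℤ} {f : ℍ → ℂ} (h : IsCF ⊤ k f) (hk : k < 12) : f = 0 := by
  have h0 : toLevelOneCusp h = 0 :=
    rank_zero_iff_forall_zero.mp (CuspForm.rank_eq_zero_of_weight_lt_twelve hk) _
  have := congrArg (fun F : CuspForm 𝒮ℒ k => (⇑F : ℍ → ℂ)) h0
  simpa using this

lemma isCF_top_twelve {f : ℍ → ℂ} (h : IsCF ⊤ 12 f) :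
    ∃ c : ℂ, f = c • (ModularForm.discriminant : ℍ → ℂ) := by
  obtain ⟨c, hc⟩ := CuspForm.exists_smul_discriminant_of_weight_eq_twelve (toLevelOneCusp h)
  refine ⟨c, ?_⟩
  have := congrArg (fun F : CuspForm 𝒮ℒ 12 => (⇑F : ℍ → ℂ)) hc
  simpa using this.symm

lemma isMF_top_eq_zero_of_neg {k : ℤ} {f : ℍ → ℂ} (h : IsMF ⊤ k f) (hk : k < 0) : f = 0 := by
  have := ModularFormClass.levelOne_neg_weight_eq_zero hk (toLevelOne h)
  simpa using this

lemma isMF_top_const (c : ℂ) : IsMF ⊤ 0 (fun _ : ℍ => c) := by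
  have := isMF_top_coe (ModularForm.const c : ModularForm 𝒮ℒ 0)
  rwa [ModularForm.coe_const] at this

end levelOne


/-! ### Facts about forms on `Γ₀(N)` -/

section gamma0

variable {N : ℕ} [NeZero N]

lemma isMF_eq_zero_of_neg {k : ℤ} {f : ℍ → ℂ} (h : IsMF (Gamma0 N) k f) (hk : k < 0) :
    f = 0 := by
  have h0 := ModularForm.isZero_of_neg_weight hk (h.toModularForm (Gamma0 N) k)
  have := congrArg (fun F : ModularForm (Gamma0 N) k => (⇑F : ℍ → ℂ)) h0
  simpa using this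

lemma isMF_weight_zero_const {f : ℍ → ℂ} (h : IsMF (Gamma0 N) 0 f) :
    ∃ c : ℂ, f = fun _ => c := by
  obtain ⟨c, hc⟩ := ModularForm.eq_const_of_weight_zero (h.toModularForm (Gamma0 N) 0)
  refine ⟨c, ?_⟩
  have h1 : f = Function.const ℍ c := by simpa using hc
  rw [h1]; rfl

omit [NeZero N] in
lemma neg_one_mem_Gamma0 : (-1 : SL(2, ℤ)) ∈ Gamma0 N := by
  rw [Gamma0_mem]
  simp

lemma isMF_eq_zero_of_odd {k : ℤ} {f : ℍ → ℂ} (h : IsMF (Gamma0 N) k f) (hk : Odd k) :
    f = 0 := by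
  funext z
  have h1 := congrFun (h.inv (-1) neg_one_mem_Gamma0) z
  rw [ModularForm.SL_slash_apply] at h1
  have h2 : ((-1 : SL(2, ℤ)) • z) = z := by
    simp
  have h3 : denom (-1 : SL(2, ℤ)) z = -1 := by
    simp [denom]
  rw [h2, h3, Odd.neg_one_zpow (by simpa using hk.neg)] at h1
  have h4 : (2 : ℂ) * f z = 0 := by linear_combination -h1
  simpa using h4

end gamma0


/-! ### Coefficients of a form with respect to the dual family -/

section coeff

variable {N : ℕ} [NeZero N] {κ : X N → ℤ} {m : X N → ℍ → ℂ}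

/-- `bco l s j = ∑_q (s∣γ_q⁻¹)·(m_j∣γ_q⁻¹)`: a level-one form of weight `l + κ j`. -/
noncomputable def bco (N : ℕ) [NeZero N] (κ : X N → ℤ) (m : X N → ℍ → ℂ) (l : ℤ) (s : ℍ → ℂ)
    (j : X N) : ℍ → ℂ :=
  ∑ q : X N, cF (Gamma0 N) l s q * cF (Gamma0 N) (κ j) (m j) q

lemma bco_apply (l : ℤ) (s : ℍ → ℂ) (j : X N) (z : ℍ) :
    bco N κ m l s j z = ∑ q : X N, cF (Gamma0 N) l s q z * Phi N κ m z q j := by
  simp [bco, Finset.sum_apply, Phi]

lemma bco_smul_apply (hb : IsHomBasis N κ m) {l : ℤ} {s : ℍ → ℂ}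
    (hs : ∀ γ ∈ Gamma0 N, s ∣[l] γ = s) (j : X N) (δ : SL(2, ℤ)) (z : ℍ) :
    bco N κ m l s j (δ • z) = denom δ z ^ (l + κ j) * bco N κ m l s j z := by
  have hd : denom δ z ≠ 0 := denom_ne_zero δ z
  rw [bco_apply, bco_apply, Finset.mul_sum]
  have h1 : ∀ q, cF (Gamma0 N) l s q (δ • z) * Phi N κ m (δ • z) q j =
      denom δ z ^ (l + κ j) *
        (cF (Gamma0 N) l s (δ⁻¹ • q) z * Phi N κ m z (δ⁻¹ • q) j) := by
    intro q
    rw [cF_smul_apply hs, Phi_smul hb, zpow_add₀ hd]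
    ring
  simp_rw [h1]
  exact Equiv.sum_comp (MulAction.toPerm δ⁻¹)
    (fun q' => denom δ z ^ (l + κ j) * (cF (Gamma0 N) l s q' z * Phi N κ m z q' j))

lemma bco_slash (hb : IsHomBasis N κ m) {l : ℤ} {s : ℍ → ℂ}
    (hs : ∀ γ ∈ Gamma0 N, s ∣[l] γ = s) (j : X N) (δ : SL(2, ℤ)) :
    bco N κ m l s j ∣[l + κ j] δ = bco N κ m l s j := by
  funext z
  have hd : denom δ z ≠ 0 := denom_ne_zero δ z
  rw [ModularForm.SL_slash_apply, bco_smul_apply hb hs, mul_comm, ← mul_assoc, ← zpow_add₀ hd,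
    neg_add_cancel, zpow_zero, one_mul]

lemma isCF_bco (hb : IsHomBasis N κ m) {l : ℤ} {s : ℍ → ℂ} (hs : IsCF (Gamma0 N) l s)
    (j : X N) : IsCF ⊤ (l + κ j) (bco N κ m l s j) where
  holo := MDifferentiable.sum fun q _ => (hs.isMF.cF_holo q).mul ((hb.mem j).cF_holo q)
  inv := fun γ _ => bco_slash hb hs.inv j γ
  zero := fun γ => by
    rw [bco_slash hb hs.inv j γ]
    unfold bco
    have h : ∀ q ∈ (Finset.univ : Finset (X N)),
        IsZeroAtImInfty (cF (Gamma0 N) l s q * cF (Gamma0 N) (κ j) (m j) q) := fun q _ => by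
      rw [mul_comm]
      exact ((hb.mem j).cF_bdd q).mul_zeroAtFilter (hs.cF_zero q)
    have h2 : Filter.Tendsto (fun z => ∑ q : X N,
        (cF (Gamma0 N) l s q * cF (Gamma0 N) (κ j) (m j) q) z) atImInfty (𝓝 0) := by
      have := tendsto_finsetSum (Finset.univ : Finset (X N)) (fun q hq => h q hq)
      simpa using this
    unfold IsZeroAtImInfty Filter.ZeroAtFilter
    convert h2 using 1
    funext z
    rw [Finset.sum_apply]

/-- Expansion of a `Γ₀(N)`-invariant function along the dual family. -/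
lemma eq_sum_bco_mul (hdet : ∀ z, (Phi N κ m z).det ≠ 0) {l : ℤ} {s : ℍ → ℂ}
    (hs : ∀ γ ∈ Gamma0 N, s ∣[l] γ = s) (z : ℍ) :
    s z = ∑ j : X N, bco N κ m l s j z * (Phi N κ m z)⁻¹ j ((1 : SL(2, ℤ)) : X N) := by
  set v : X N → ℂ := fun q => cF (Gamma0 N) l s q z with hv
  have h1 : ∀ j, bco N κ m l s j z = Matrix.vecMul v (Phi N κ m z) j := by
    intro j
    rw [bco_apply]
    rfl
  simp_rw [h1]
  have h2 : ∑ j : X N, Matrix.vecMul v (Phi N κ m z) j *
      (Phi N κ m z)⁻¹ j ((1 : SL(2, ℤ)) : X N) =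
      Matrix.vecMul (Matrix.vecMul v (Phi N κ m z)) (Phi N κ m z)⁻¹ ((1 : SL(2, ℤ)) : X N) := rfl
  rw [h2, Matrix.vecMul_vecMul, Matrix.mul_nonsing_inv _ (isUnit_iff_ne_zero.mpr (hdet z)),
    Matrix.vecMul_one, hv]
  exact (congrFun (cF_one hs) z).symm

end coeff


/-! ### Main results -/

section main

variable {N : ℕ} [NeZero N] {κ : X N → ℤ} {m : X N → ℍ → ℂ}

lemma basis_ne_zero (hb : IsHomBasis N κ m) (j : X N) : m j ≠ 0 := by
  intro h0
  have h1 := hb.free (κ j) (fun i => if i = j then (fun _ => (1 : ℂ)) else 0)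
    (fun i => by
      by_cases hij : i = j
      · subst hij
        simp only [if_true, sub_self]
        exact isMF_top_const 1
      · simp only [if_neg hij]
        exact isMF_zero)
    (by
      rw [Finset.sum_eq_single j]
      · simp [h0]
      · intro i _ hij
        simp [if_neg hij]
      · intro h; exact absurd (Finset.mem_univ j) h) j
  simp only [if_true] at h1
  have := congrFun h1 I
  simp at this

lemma G_ne_zero (hb : IsHomBasis N κ m) (hdet : ∀ z, (Phi N κ m z).det ≠ 0) (j : X N) :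
    G N κ m j ((1 : SL(2, ℤ)) : X N) ≠ 0 := by
  intro h0
  have h1 : ∀ q, G N κ m j q = 0 := by
    intro q
    rw [← cF_G hb hdet j q, h0]
    exact cF_zero q
  have h2 : ∀ q, (Phi N κ m I)⁻¹ j q = 0 := by
    intro q
    have := congrFun (h1 q) I
    rw [G_apply, Pi.zero_apply, mul_eq_zero] at this
    exact this.resolve_left (discriminant_ne_zero I)
  have h3 : ((Phi N κ m I)⁻¹).det = 0 := Matrix.det_eq_zero_of_row_eq_zero j h2
  have h4 : (Phi N κ m I).det * ((Phi N κ m I)⁻¹).det = 1 := by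
    rw [← Matrix.det_mul, Matrix.mul_nonsing_inv _ (isUnit_iff_ne_zero.mpr (hdet I)),
      Matrix.det_one]
  rw [h3, mul_zero] at h4
  exact zero_ne_one h4

/-- **F9a**: the weights of a homogeneous basis are even and lie in `[0, 10]`. -/
theorem weight_bounds' (hb : IsHomBasis N κ m) (hdet : ∀ z, (Phi N κ m z).det ≠ 0)
    (hcusp : ∀ q j : X N,
      IsZeroAtImInfty (fun z => ModularForm.discriminant z * (Phi N κ m z)⁻¹ j q))
    (j : X N) : Even (κ j) ∧ 0 ≤ κ j ∧ κ j ≤ 10 := by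
  have hm := basis_ne_zero hb j
  have heven : Even (κ j) := by
    by_contra hodd
    exact hm (isMF_eq_zero_of_odd (hb.mem j) (Int.not_even_iff_odd.mp hodd))
  have h0 : 0 ≤ κ j := by
    by_contra hneg
    exact hm (isMF_eq_zero_of_neg (hb.mem j) (not_le.mp hneg))
  refine ⟨heven, h0, ?_⟩
  have hg := isCF_G hb hdet hcusp j
  have hgne := G_ne_zero hb hdet j
  have h1 : ¬ (12 - κ j < 0) := fun hlt => hgne (isMF_eq_zero_of_neg hg.isMF hlt)
  have h2 : 12 - κ j ≠ 0 := by
    intro h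
    rw [h] at hg
    obtain ⟨c, hc⟩ := isMF_weight_zero_const hg.isMF
    have hz := hg.zero 1
    rw [SlashAction.slash_one, hc] at hz
    have hc0 : c = 0 := by
      have := tendsto_nhds_unique hz tendsto_const_nhds
      exact this.symm
    rw [hc0] at hc
    exact hgne hc
  obtain ⟨r, hr⟩ := heven
  omega

/-- **F9a**: exactly one weight is `0`. -/
theorem card_weight_zero' (hb : IsHomBasis N κ m) (hdet : ∀ z, (Phi N κ m z).det ≠ 0)
    (hcusp : ∀ q j : X N,
      IsZeroAtImInfty (fun z => ModularForm.discriminant z * (Phi N κ m z)⁻¹ j q)) :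
    (Finset.univ.filter fun j => κ j = 0).card = 1 := by
  have hge : ∀ j, 0 ≤ κ j := fun j => (weight_bounds' hb hdet hcusp j).2.1
  apply le_antisymm
  · -- at most one
    rw [Finset.card_le_one]
    intro i hi j hj
    rw [Finset.mem_filter] at hi hj
    by_contra hij
    have hmi := hb.mem i
    have hmj := hb.mem j
    rw [hi.2] at hmi
    rw [hj.2] at hmj
    obtain ⟨ci, hci⟩ := isMF_weight_zero_const hmi
    obtain ⟨cj, hcj⟩ := isMF_weight_zero_const hmj
    have h1 := hb.free 0 (fun l => if l = i then (fun _ => cj) else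
        if l = j then (fun _ => -ci) else 0)
      (fun l => by
        by_cases hli : l = i
        · subst hli
          simp only [if_true, hi.2, sub_zero]
          exact isMF_top_const cj
        · by_cases hlj : l = j
          · subst hlj
            simp only [if_neg hli, if_true, hj.2, sub_zero]
            exact isMF_top_const (-ci)
          · simp only [if_neg hli, if_neg hlj]
            exact isMF_zero)
      (by
        rw [Finset.sum_eq_add_of_mem i j (Finset.mem_univ i) (Finset.mem_univ j) hij]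
        · funext z
          simp only [if_true, if_neg (Ne.symm hij), Pi.add_apply, Pi.mul_apply, hci, hcj,
            Pi.zero_apply]
          ring
        · intro l _ hl
          simp [if_neg hl.1, if_neg hl.2]) i
    simp only [if_true] at h1
    have hcj0 : cj = 0 := congrFun h1 I
    rw [hcj0] at hcj
    exact basis_ne_zero hb j hcj
  · -- at least one
    rw [Nat.one_le_iff_ne_zero, Ne, Finset.card_eq_zero, Finset.filter_eq_empty_iff]
    intro hall
    have hone : IsMF (Gamma0 N) 0 (fun _ : ℍ => (1 : ℂ)) := (isMF_top_const 1).mono le_top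
    obtain ⟨a, ha, hsum⟩ := hb.gen 0 _ hone
    have ha0 : ∀ l, a l = 0 := by
      intro l
      refine isMF_top_eq_zero_of_neg (ha l) ?_
      have := hall (Finset.mem_univ l)
      have := hge l
      omega
    have := congrFun hsum I
    simp [ha0] at this

end main


/-! ### `dim S₂(Γ₀(N)) = #{j | κ j = 10}` -/

section finrank

variable {N : ℕ} [NeZero N] {κ : X N → ℤ} {m : X N → ℍ → ℂ}

lemma isCF_G_two (hb : IsHomBasis N κ m) (hdet : ∀ z, (Phi N κ m z).det ≠ 0)
    (hcusp : ∀ q j : X N,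
      IsZeroAtImInfty (fun z => ModularForm.discriminant z * (Phi N κ m z)⁻¹ j q))
    {j : X N} (hj : κ j = 10) : IsCF (Gamma0 N) 2 (G N κ m j ((1 : SL(2, ℤ)) : X N)) := by
  have := isCF_G hb hdet hcusp j
  rw [hj] at this
  norm_num at this
  exact this

/-- The map `c ↦ ∑_{κ j = 10} c j • g_j` into `S₂(Γ₀(N))`. -/
noncomputable def dualMap (hb : IsHomBasis N κ m) (hdet : ∀ z, (Phi N κ m z).det ≠ 0)
    (hcusp : ∀ q j : X N,
      IsZeroAtImInfty (fun z => ModularForm.discriminant z * (Phi N κ m z)⁻¹ j q)) :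
    ({j : X N // κ j = 10} → ℂ) →ₗ[ℂ] Sk (Gamma0 N) 2 where
  toFun c := ∑ j : {j : X N // κ j = 10},
    c j • (⟨G N κ m j.1 ((1 : SL(2, ℤ)) : X N), isCF_G_two hb hdet hcusp j.2⟩ : Sk (Gamma0 N) 2)
  map_add' c d := by
    simp only [Pi.add_apply, add_smul, Finset.sum_add_distrib]
  map_smul' r c := by
    simp only [Pi.smul_apply, smul_eq_mul, mul_smul, Finset.smul_sum, RingHom.id_apply]

lemma dualMap_apply (hb : IsHomBasis N κ m) (hdet : ∀ z, (Phi N κ m z).det ≠ 0)
    (hcusp : ∀ q j : X N,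
      IsZeroAtImInfty (fun z => ModularForm.discriminant z * (Phi N κ m z)⁻¹ j q))
    (c : {j : X N // κ j = 10} → ℂ) (z : ℍ) :
    (dualMap hb hdet hcusp c : ℍ → ℂ) z =
      ∑ j : {j : X N // κ j = 10}, c j * G N κ m j.1 ((1 : SL(2, ℤ)) : X N) z := by
  simp [dualMap, Finset.sum_apply]

lemma dualMap_injective (hb : IsHomBasis N κ m) (hdet : ∀ z, (Phi N κ m z).det ≠ 0)
    (hcusp : ∀ q j : X N,
      IsZeroAtImInfty (fun z => ModularForm.discriminant z * (Phi N κ m z)⁻¹ j q)) :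
    Function.Injective (dualMap hb hdet hcusp) := by
  rw [← LinearMap.ker_eq_bot, LinearMap.ker_eq_bot']
  intro c hc
  -- extend `c` by zero
  obtain ⟨c', hc'pos, hc'neg⟩ : ∃ c' : X N → ℂ, (∀ j (h : κ j = 10), c' j = c ⟨j, h⟩) ∧
      (∀ j, κ j ≠ 10 → c' j = 0) :=
    ⟨fun j => if h : κ j = 10 then c ⟨j, h⟩ else 0, fun j h => dif_pos h, fun j h => dif_neg h⟩
  have hsum : ∀ (q : X N) (z : ℍ), ∑ j : X N, c' j * (Phi N κ m z)⁻¹ j q = 0 := by
    intro q z
    -- write `q = δ⁻¹ • ⟦1⟧`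
    obtain ⟨δ, rfl⟩ : ∃ δ : SL(2, ℤ), q = δ⁻¹ • ((1 : SL(2, ℤ)) : X N) := by
      induction q using QuotientGroup.induction_on with
      | H γ => exact ⟨γ⁻¹, by rw [inv_inv, MulAction.Quotient.smul_mk, smul_eq_mul, mul_one]⟩
    have h1 : (dualMap hb hdet hcusp c : ℍ → ℂ) (δ • z) = 0 := by rw [hc]; rfl
    rw [dualMap_apply] at h1
    have hd : denom δ z ≠ 0 := denom_ne_zero δ z
    have h2 : ∀ j : {j : X N // κ j = 10},
        c j * G N κ m j.1 ((1 : SL(2, ℤ)) : X N) (δ • z) =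
        (denom δ z ^ (2 : ℤ) * ModularForm.discriminant z) *
          (c' j.1 * (Phi N κ m z)⁻¹ j.1 (δ⁻¹ • ((1 : SL(2, ℤ)) : X N))) := by
      intro j
      rw [G_smul hb hdet, G_apply, j.2, hc'pos j.1 j.2]
      norm_num
      ring
    simp_rw [h2] at h1
    rw [← Finset.mul_sum, mul_eq_zero] at h1
    have h3 := h1.resolve_left (mul_ne_zero (zpow_ne_zero _ hd) (discriminant_ne_zero z))
    rw [← h3]
    symm
    rw [← Finset.sum_subtype (Finset.univ.filter fun j => κ j = 10) (by simp)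
      (fun j => c' j * (Phi N κ m z)⁻¹ j (δ⁻¹ • ((1 : SL(2, ℤ)) : X N))), Finset.sum_filter]
    refine Finset.sum_congr rfl fun j _ => ?_
    by_cases hj : κ j = 10
    · rw [if_pos hj]
    · rw [if_neg hj, hc'neg j hj, zero_mul]
  have hvec : Matrix.vecMul c' (Phi N κ m I)⁻¹ = 0 := by
    funext q
    exact hsum q I
  have hc0 : c' = 0 := by
    have := congrArg (fun v => Matrix.vecMul v (Phi N κ m I)) hvec
    simp only [Matrix.vecMul_vecMul, Matrix.zero_vecMul] at this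
    rwa [Matrix.nonsing_inv_mul _ (isUnit_iff_ne_zero.mpr (hdet I)), Matrix.vecMul_one] at this
  funext j
  have := congrFun hc0 j.1
  rw [hc'pos j.1 j.2] at this
  exact this

lemma dualMap_surjective (hb : IsHomBasis N κ m) (hdet : ∀ z, (Phi N κ m z).det ≠ 0)
    (hcusp : ∀ q j : X N,
      IsZeroAtImInfty (fun z => ModularForm.discriminant z * (Phi N κ m z)⁻¹ j q)) :
    Function.Surjective (dualMap hb hdet hcusp) := by
  intro s
  have hs : IsCF (Gamma0 N) 2 (s : ℍ → ℂ) := s.2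
  -- coefficients
  have hco : ∀ j : X N, ∃ c : ℂ, bco N κ m 2 s j = c • (ModularForm.discriminant : ℍ → ℂ) ∧
      (κ j ≠ 10 → c = 0) := by
    intro j
    have hcf := isCF_bco hb hs j
    have hle := (weight_bounds' hb hdet hcusp j).2.2
    by_cases hj : κ j = 10
    · rw [hj] at hcf
      norm_num at hcf
      obtain ⟨c, hc⟩ := isCF_top_twelve hcf
      exact ⟨c, hc, fun h => absurd hj h⟩
    · have hlt : 2 + κ j < 12 := by omega
      exact ⟨0, by rw [isCF_top_eq_zero_of_lt hcf hlt, zero_smul], fun _ => rfl⟩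
  choose c hc hc0 using hco
  refine ⟨fun j => c j.1, ?_⟩
  apply Subtype.ext
  funext z
  rw [dualMap_apply, eq_sum_bco_mul hdet hs.inv z]
  rw [← Finset.sum_subtype (Finset.univ.filter fun j => κ j = 10) (by simp)
      (fun j => c j * G N κ m j ((1 : SL(2, ℤ)) : X N) z), Finset.sum_filter]
  refine Finset.sum_congr rfl fun j _ => ?_
  rw [hc j, G_apply]
  by_cases hj : κ j = 10
  · rw [if_pos hj]
    simp only [Pi.smul_apply, smul_eq_mul]
    ring
  · rw [if_neg hj, hc0 j hj, zero_smul, Pi.zero_apply, zero_mul]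

/-- **F9b**: `dim S₂(Γ₀(N))` is the number of basis elements of weight `10`. -/
theorem finrank_Sk_two' (hb : IsHomBasis N κ m) (hdet : ∀ z, (Phi N κ m z).det ≠ 0)
    (hcusp : ∀ q j : X N,
      IsZeroAtImInfty (fun z => ModularForm.discriminant z * (Phi N κ m z)⁻¹ j q)) :
    Module.finrank ℂ (Sk (Gamma0 N) 2) = (Finset.univ.filter fun j => κ j = 10).card := by
  have e : ({j : X N // κ j = 10} → ℂ) ≃ₗ[ℂ] Sk (Gamma0 N) 2 :=
    LinearEquiv.ofBijective (dualMap hb hdet hcusp)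
      ⟨dualMap_injective hb hdet hcusp, dualMap_surjective hb hdet hcusp⟩
  rw [← e.finrank_eq, Module.finrank_fintype_fun_eq_card, Fintype.card_subtype]

end finrank

end Fermat.Agent.M2F.Duality
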