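/-
M2F / F10 (part 1): the final linear system.  Pure finite arithmetic, Mathlib only.
(helper3)
-/
import Mathlib

set_option autoImplicit false

namespace Fermat.Agent.M2F.Arith

open Finset

variable {ι : Type} [Fintype ι] (κ : ι → ℤ)

/-- The admissible weights. -/
def W : Finset ℤ := {0, 2, 4, 6, 8, 10}

/-- Number of basis elements of weight `w`. -/
def cnt (w : ℤ) : ℕ := (univ.filter fun j => κ j = w).card

variable {κ}

omit [Fintype ι] in
lemma mem_W (hb : ∀ j, Even (κ j) ∧ 0 ≤ κ j ∧ κ j ≤ 10) (j : ι) : κ j ∈ W := by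
  obtain ⟨⟨r, hr⟩, h0, h10⟩ := hb j
  have : r = 0 ∨ r = 1 ∨ r = 2 ∨ r = 3 ∨ r = 4 ∨ r = 5 := by omega
  simp only [W, mem_insert, mem_singleton]
  omega

lemma sum_comp_W (hb : ∀ j, Even (κ j) ∧ 0 ≤ κ j ∧ κ j ≤ 10) (g : ℤ → ℤ) :
    ∑ j, g (κ j) = ∑ w ∈ W, (cnt κ w : ℤ) * g w := by
  rw [← Finset.sum_fiberwise_of_maps_to (s := univ) (t := W) (g := κ) (fun j _ => mem_W hb j)]
  refine Finset.sum_congr rfl fun w _ => ?_
  rw [cnt, ← nsmul_eq_mul, ← Finset.sum_const]
  refine Finset.sum_congr rfl fun j hj => ?_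
  rw [(Finset.mem_filter.mp hj).2]

lemma card_filter_eq (hb : ∀ j, Even (κ j) ∧ 0 ≤ κ j ∧ κ j ≤ 10) (p : ℤ → Prop) [DecidablePred p] :
    ((univ.filter fun j => p (κ j)).card : ℤ) = ∑ w ∈ W, (cnt κ w : ℤ) * (if p w then 1 else 0) := by
  rw [← sum_comp_W hb (fun w => if p w then 1 else 0), Finset.card_filter]
  push_cast
  rfl

/-- **The linear system.** -/
theorem solve (hb : ∀ j, Even (κ j) ∧ 0 ≤ κ j ∧ κ j ≤ 10) {ψ ν2 ν3 c : ℕ}
    (hcard : Fintype.card ι = ψ)
    (h0 : (univ.filter fun j => κ j = 0).card = 1)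
    (hI : (ν2 : ℤ) = (univ.filter fun j => κ j % 4 = 0).card -
      (univ.filter fun j => κ j % 4 = 2).card)
    (hρ1 : (univ.filter fun j => κ j % 6 = 2).card = (univ.filter fun j => κ j % 6 = 4).card)
    (hρ2 : (ν3 : ℤ) = (univ.filter fun j => κ j % 6 = 0).card -
      (univ.filter fun j => κ j % 6 = 4).card)
    (hsum : ∑ j, κ j = 6 * ((ψ : ℤ) - c)) :
    (((univ.filter fun j => κ j = 10).card : ℕ) : ℚ) =
      1 + (ψ : ℚ) / 12 - (ν2 : ℚ) / 4 - (ν3 : ℚ) / 3 - (c : ℚ) / 2 := by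
  have e0 := card_filter_eq hb (fun w => w = 0)
  have e10 := card_filter_eq hb (fun w => w = 10)
  have e40 := card_filter_eq hb (fun w => w % 4 = 0)
  have e42 := card_filter_eq hb (fun w => w % 4 = 2)
  have e60 := card_filter_eq hb (fun w => w % 6 = 0)
  have e62 := card_filter_eq hb (fun w => w % 6 = 2)
  have e64 := card_filter_eq hb (fun w => w % 6 = 4)
  have eS := sum_comp_W hb (fun w => w)
  have eC : (Fintype.card ι : ℤ) = ∑ w ∈ W, (cnt κ w : ℤ) * 1 := by
    have := sum_comp_W hb (fun _ => (1 : ℤ))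
    simpa using this
  have hρ1' : ((univ.filter fun j => κ j % 6 = 2).card : ℤ) =
      (univ.filter fun j => κ j % 6 = 4).card := by exact_mod_cast hρ1
  have h0' : ((univ.filter fun j => κ j = 0).card : ℤ) = 1 := by exact_mod_cast h0
  have hcard' : (Fintype.card ι : ℤ) = ψ := by exact_mod_cast hcard
  generalize (univ.filter fun j => κ j = 0).card = A0 at *
  generalize (univ.filter fun j => κ j = 10).card = A10 at *
  generalize (univ.filter fun j => κ j % 4 = 0).card = A40 at *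
  generalize (univ.filter fun j => κ j % 4 = 2).card = A42 at *
  generalize (univ.filter fun j => κ j % 6 = 0).card = A60 at *
  generalize (univ.filter fun j => κ j % 6 = 2).card = A62 at *
  generalize (univ.filter fun j => κ j % 6 = 4).card = A64 at *
  generalize (∑ j, κ j) = S at *
  simp only [W] at e0 e10 e40 e42 e60 e62 e64 eS eC
  norm_num [Finset.sum_insert, Finset.sum_singleton] at e0 e10 e40 e42 e60 e62 e64 eS eC
  -- solve the linear system over ℤ
  have key : 12 * (A10 : ℤ) = 12 + (ψ : ℤ) - 3 * ν2 - 4 * ν3 - 6 * c := by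
    have e0' : (A0 : ℤ) = cnt κ 0 := by exact_mod_cast e0
    have e10' : (A10 : ℤ) = cnt κ 10 := by exact_mod_cast e10
    linarith
  have keyQ : (12 : ℚ) * (A10 : ℚ) = 12 + (ψ : ℚ) - 3 * ν2 - 4 * ν3 - 6 * c := by
    exact_mod_cast key
  linarith

end Fermat.Agent.M2F.Arith
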