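/-
M2F / F10 (part 2): assembly of S20 from the interface theorems of the free-module route
(taken as hypotheses, bundled in `Inputs`) and the Part II counts.
(helper3)
-/
import Fermat.Agent.M2F.Defs
import Fermat.Agent.M2F.Arith
import Fermat.Agent.M2.P1Gamma0
import Fermat.Prelude.Def_ModularCurve_GenusNumerics

set_option autoImplicit false

open UpperHalfPlane ModularForm MatrixGroups CongruenceSubgroup
open scoped Manifold Topology Classical

namespace Fermat.Agent.M2F.Final

open Fermat.Agent.M2F Finset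

/-- The interface theorems F5–F9 of the free-module route, for a fixed level. -/
structure Inputs (N : ℕ) [NeZero N] : Prop where
  basis : ∃ (κ : X N → ℤ) (m : X N → ℍ → ℂ), IsHomBasis N κ m
  bounds : ∀ {κ : X N → ℤ} {m : X N → ℍ → ℂ}, IsHomBasis N κ m →
    ∀ j, Even (κ j) ∧ 0 ≤ κ j ∧ κ j ≤ 10
  zero : ∀ {κ : X N → ℤ} {m : X N → ℍ → ℂ}, IsHomBasis N κ m →
    (univ.filter fun j => κ j = 0).card = 1
  traceI : ∀ {κ : X N → ℤ} {m : X N → ℍ → ℂ}, IsHomBasis N κ m →
    (Nat.card (MulAction.fixedBy (X N) ModularGroup.S) : ℤ) =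
      (univ.filter fun j => κ j % 4 = 0).card - (univ.filter fun j => κ j % 4 = 2).card
  traceRho : ∀ {κ : X N → ℤ} {m : X N → ℍ → ℂ}, IsHomBasis N κ m →
    (univ.filter fun j => κ j % 6 = 2).card = (univ.filter fun j => κ j % 6 = 4).card ∧
    (Nat.card (MulAction.fixedBy (X N) (ModularGroup.S * ModularGroup.T)) : ℤ) =
      (univ.filter fun j => κ j % 6 = 0).card - (univ.filter fun j => κ j % 6 = 4).card
  sumWeights : ∀ {κ : X N → ℤ} {m : X N → ℍ → ℂ}, IsHomBasis N κ m →
    ∑ j, κ j = 6 * ((Nat.card (X N) : ℤ) -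
      Nat.card (MulAction.orbitRel.Quotient (Subgroup.zpowers ModularGroup.T) (X N)))
  finrankS2 : ∀ {κ : X N → ℤ} {m : X N → ℍ → ℂ}, IsHomBasis N κ m →
    Module.finrank ℂ (Sk (Gamma0 N) 2) = (univ.filter fun j => κ j = 10).card

/-- **S20 from the interface theorems.** -/
theorem finrank_cuspForm_two (N : ℕ) [NeZero N] (inp : Inputs N) :
    (Module.finrank ℂ (CuspForm (Gamma0 N) 2) : ℚ) = ModularCurve.genusFormula N := by
  obtain ⟨κ, m, hb⟩ := inp.basis
  have hN : N ≠ 0 := NeZero.ne N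
  have hψ : Fintype.card (X N) = ModularCurve.dedekindPsi N := by
    rw [← Nat.card_eq_fintype_card]
    exact Fermat.Agent.M2.P1.card_coset_Gamma0 N hN
  have h2 := Fermat.Agent.M2.P1.card_fixedBy_S_coset (N := N)
  have h3 := Fermat.Agent.M2.P1.card_fixedBy_ST_coset (N := N)
  have hc := Fermat.Agent.M2.P1.card_orbits_T_coset (N := N)
  have hI := inp.traceI hb
  obtain ⟨hρ1, hρ2⟩ := inp.traceRho hb
  have hsum := inp.sumWeights hb
  rw [h2] at hI
  rw [h3] at hρ2
  rw [hc, Nat.card_eq_fintype_card, hψ] at hsum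
  have := Arith.solve (inp.bounds hb) hψ (inp.zero hb) hI hρ1 hρ2 hsum
  rw [← finrank_Sk, inp.finrankS2 hb, this, ModularCurve.genusFormula]

end Fermat.Agent.M2F.Final
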