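/-
M2F task F1 (helper23): abstract graded freeness (pure algebra).

`R k`, `M k` (`k : ℤ`) are `𝕜`-subspaces of a commutative `𝕜`-algebra `𝒜` ("forms of weight `k`"),
`A ∈ R 4`, `B ∈ R 6` generate `R` over `R 0 = 𝕜`, and `A, B` is a regular sequence on `M`.
Then `M` is free over `R` on finitely many homogeneous generators in each degree.
-/
import Mathlib

set_option autoImplicit false

namespace Fermat.Agent.M2F.GradedFree

variable {𝕜 𝒜 : Type*} [Field 𝕜] [CommRing 𝒜] [Algebra 𝕜 𝒜]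

section general

variable {ι : Type*} (R M : ℤ → Submodule 𝕜 𝒜) (κ : ι → ℤ) (m : ι → 𝒜)

/-- graded coefficient families of degree `k` -/
def IsCoeff (k : ℤ) (a : ι →₀ 𝒜) : Prop := ∀ j, a j ∈ R (k - κ j)

/-- the `𝒜`-linear evaluation `a ↦ ∑ a_j m_j` -/
noncomputable def ev : (ι →₀ 𝒜) →ₗ[𝒜] 𝒜 := Finsupp.linearCombination 𝒜 m

lemma ev_eq_sum (a : ι →₀ 𝒜) : ev m a = a.sum (fun j c => c * m j) := by
  simp [ev, Finsupp.linearCombination_apply]

variable {R M κ m}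

lemma mem_of_eq {N : ℤ → Submodule 𝕜 𝒜} {x : 𝒜} {k l : ℤ} (hx : x ∈ N k) (h : k = l) : x ∈ N l :=
  h ▸ hx

lemma ev_mem (hRM : ∀ k l, ∀ a ∈ R k, ∀ f ∈ M l, a * f ∈ M (k + l)) (hm : ∀ j, m j ∈ M (κ j))
    {k : ℤ} {a : ι →₀ 𝒜} (ha : IsCoeff R κ k a) : ev m a ∈ M k := by
  rw [ev_eq_sum, Finsupp.sum]
  refine Submodule.sum_mem _ (fun j _ => ?_)
  exact mem_of_eq (hRM (k - κ j) (κ j) (a j) (ha j) (m j) (hm j)) (sub_add_cancel _ _)

lemma IsCoeff.zero (k : ℤ) : IsCoeff R κ k (0 : ι →₀ 𝒜) := fun _ => Submodule.zero_mem _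

lemma IsCoeff.add {k : ℤ} {a b : ι →₀ 𝒜} (ha : IsCoeff R κ k a) (hb : IsCoeff R κ k b) :
    IsCoeff R κ k (a + b) := fun j => by
  rw [Finsupp.add_apply]; exact Submodule.add_mem _ (ha j) (hb j)

lemma IsCoeff.neg {k : ℤ} {a : ι →₀ 𝒜} (ha : IsCoeff R κ k a) :
    IsCoeff R κ k (-a) := fun j => by
  rw [Finsupp.neg_apply]; exact Submodule.neg_mem _ (ha j)

lemma IsCoeff.sub {k : ℤ} {a b : ι →₀ 𝒜} (ha : IsCoeff R κ k a) (hb : IsCoeff R κ k b) :
    IsCoeff R κ k (a - b) := fun j => by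
  rw [Finsupp.sub_apply]; exact Submodule.sub_mem _ (ha j) (hb j)

lemma IsCoeff.smul (hRR : ∀ k l, ∀ a ∈ R k, ∀ b ∈ R l, a * b ∈ R (k + l)) {d k l : ℤ} {X : 𝒜}
    (hX : X ∈ R d) {a : ι →₀ 𝒜} (ha : IsCoeff R κ k a) (h : d + k = l) :
    IsCoeff R κ l (X • a) := fun j => by
  rw [Finsupp.smul_apply, smul_eq_mul]
  exact mem_of_eq (hRR d (k - κ j) X hX (a j) (ha j)) (by omega)

/-- pointwise choices with value `0` at `0` assemble to finitely supported families -/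
lemma exists_finsupp_pair (a : ι →₀ 𝒜) (P : ι → 𝒜 → 𝒜 → 𝒜 → Prop) (h0 : ∀ j, P j 0 0 0)
    (h : ∀ j, ∃ b c, P j (a j) b c) : ∃ b c : ι →₀ 𝒜, ∀ j, P j (a j) (b j) (c j) := by
  classical
  choose fb fc hf using h
  refine ⟨Finsupp.onFinset a.support (fun j => if a j = 0 then 0 else fb j) ?_,
    Finsupp.onFinset a.support (fun j => if a j = 0 then 0 else fc j) ?_, fun j => ?_⟩
  · intro j hj
    rw [Finsupp.mem_support_iff]
    intro h0; simp [h0] at hj
  · intro j hj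
    rw [Finsupp.mem_support_iff]
    intro h0; simp [h0] at hj
  · simp only [Finsupp.onFinset_apply]
    by_cases hj : a j = 0
    · simp only [hj, if_true]; exact h0 j
    · simp only [hj, if_false]; exact hf j

lemma ev_single (j : ι) (x : 𝒜) : ev m (Finsupp.single j x) = x * m j := by
  simp [ev]

lemma IsCoeff.single {k : ℤ} {j : ι} {x : 𝒜} (hx : x ∈ R (k - κ j)) :
    IsCoeff R κ k (Finsupp.single j x) := fun j' => by
  classical
  rw [Finsupp.single_apply]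
  split_ifs with h
  · subst h; exact hx
  · exact Submodule.zero_mem _

lemma IsCoeff.sum {k : ℤ} {α : Type*} (s : Finset α) (f : α → ι →₀ 𝒜)
    (hf : ∀ i ∈ s, IsCoeff R κ k (f i)) : IsCoeff R κ k (∑ i ∈ s, f i) := fun j => by
  rw [Finsupp.finsetSum_apply]
  exact Submodule.sum_mem _ (fun i hi => hf i hi j)

end general

section main

variable (M : ℤ → Submodule 𝕜 𝒜) (A B : 𝒜)

/-- `A · M (k-4) + B · M (k-6)` -/
def Nsub (k : ℤ) : Submodule 𝕜 𝒜 :=
  (M (k - 4)).map (LinearMap.mulLeft 𝕜 A) ⊔ (M (k - 6)).map (LinearMap.mulLeft 𝕜 B)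

lemma mem_Nsub {k : ℤ} {x : 𝒜} :
    x ∈ Nsub M A B k ↔ ∃ f ∈ M (k - 4), ∃ g ∈ M (k - 6), x = A * f + B * g := by
  simp only [Nsub, Submodule.mem_sup, Submodule.mem_map, LinearMap.mulLeft_apply]
  constructor
  · rintro ⟨_, ⟨f, hf, rfl⟩, _, ⟨g, hg, rfl⟩, rfl⟩
    exact ⟨f, hf, g, hg, rfl⟩
  · rintro ⟨f, hf, g, hg, rfl⟩
    exact ⟨_, ⟨f, hf, rfl⟩, _, ⟨g, hg, rfl⟩, rfl⟩

/-- a complement of `Nsub k` inside `M k` -/
noncomputable def Csub (k : ℤ) : Submodule 𝕜 𝒜 :=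
  Classical.choose (Submodule.exists_isCompl (Nsub M A B k)) ⊓ M k

lemma Csub_le (k : ℤ) : Csub M A B k ≤ M k := inf_le_right

lemma Nsub_inf_Csub (k : ℤ) : Nsub M A B k ⊓ Csub M A B k = ⊥ := by
  have h := Classical.choose_spec (Submodule.exists_isCompl (Nsub M A B k))
  rw [Csub, ← inf_assoc, h.inf_eq_bot, bot_inf_eq]

lemma Nsub_sup_Csub {k : ℤ} (hle : Nsub M A B k ≤ M k) :
    Nsub M A B k ⊔ Csub M A B k = M k := by
  have h := Classical.choose_spec (Submodule.exists_isCompl (Nsub M A B k))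
  rw [Csub, ← sup_inf_assoc_of_le _ hle, h.sup_eq_top, top_inf_eq]

end main

section construction

variable (R M : ℤ → Submodule 𝕜 𝒜) (A B : 𝒜)

/-- the hypotheses of the graded freeness theorem -/
structure Hyp : Prop where
  hA : A ∈ R 4
  hB : B ∈ R 6
  hRM : ∀ k l, ∀ a ∈ R k, ∀ f ∈ M l, a * f ∈ M (k + l)
  hRR : ∀ k l, ∀ a ∈ R k, ∀ b ∈ R l, a * b ∈ R (k + l)
  hR0 : ∀ a ∈ R 0, ∃ c : 𝕜, a = algebraMap 𝕜 𝒜 c
  hR1 : (1 : 𝒜) ∈ R 0
  hRpos : ∀ k, 0 < k → ∀ a ∈ R k, ∃ b ∈ R (k - 4), ∃ c ∈ R (k - 6), a = A * b + B * c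
  hRneg : ∀ k, k < 0 → R k = ⊥
  hMneg : ∀ k, k < 0 → M k = ⊥
  hregA : ∀ k, ∀ f ∈ M k, A * f = 0 → f = 0
  hregB : ∀ k, ∀ f ∈ M k, ∀ g ∈ M (k + 2), B * f = A * g → ∃ h ∈ M (k - 4), f = A * h

variable [hfin : ∀ k, FiniteDimensional 𝕜 (M k)]

instance instFinCsub (k : ℤ) : FiniteDimensional 𝕜 (Csub M A B k) :=
  Submodule.finiteDimensional_of_le (Csub_le M A B k)

/-- the index type of the generators -/
abbrev Idx : Type := Σ k : ℤ, Fin (Module.finrank 𝕜 (Csub M A B k))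

/-- the weights of the generators -/
def kap : Idx M A B → ℤ := fun j => j.1

/-- the generators -/
noncomputable def gen : Idx M A B → 𝒜 :=
  fun j => ((Module.finBasis 𝕜 (Csub M A B j.1) j.2 : Csub M A B j.1) : 𝒜)

lemma gen_mem_Csub (j : Idx M A B) : gen M A B j ∈ Csub M A B j.1 :=
  (Module.finBasis 𝕜 (Csub M A B j.1) j.2).2

lemma gen_mem (j : Idx M A B) : gen M A B j ∈ M (kap M A B j) :=
  Csub_le M A B j.1 (gen_mem_Csub M A B j)

omit hfin in
lemma finite_fiber (k : ℤ) : {j : Idx M A B | kap M A B j = k}.Finite := by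
  refine (Set.finite_range (fun i : Fin (Module.finrank 𝕜 (Csub M A B k)) =>
    (⟨k, i⟩ : Idx M A B))).subset ?_
  rintro ⟨k', i⟩ hj
  simp only [kap, Set.mem_ofPred_eq] at hj
  subst hj
  exact ⟨i, rfl⟩

variable {R M A B}

omit hfin in
lemma Hyp.Nsub_le (H : Hyp R M A B) (k : ℤ) : Nsub M A B k ≤ M k := by
  intro x hx
  obtain ⟨f, hf, g, hg, rfl⟩ := (mem_Nsub M A B).1 hx
  refine Submodule.add_mem _ ?_ ?_
  · exact mem_of_eq (H.hRM 4 (k - 4) A H.hA f hf) (by omega)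
  · exact mem_of_eq (H.hRM 6 (k - 6) B H.hB g hg) (by omega)

omit hfin in
lemma Hyp.algebraMap_mem (H : Hyp R M A B) (c : 𝕜) : algebraMap 𝕜 𝒜 c ∈ R 0 := by
  rw [Algebra.algebraMap_eq_smul_one]
  exact Submodule.smul_mem _ _ H.hR1

omit hfin in
lemma Hyp.kap_nonneg (H : Hyp R M A B) (j : Idx M A B) : 0 ≤ kap M A B j := by
  by_contra hneg
  rw [not_le] at hneg
  obtain ⟨k, i⟩ := j
  simp only [kap] at hneg
  have h0 : Csub M A B k = ⊥ := by
    have := Csub_le M A B k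
    rw [H.hMneg k hneg] at this
    exact le_bot_iff.1 this
  have hr : Module.finrank 𝕜 (Csub M A B k) = 0 := by
    rw [h0]; exact finrank_bot 𝕜 𝒜
  exact (Fin.cast hr i).elim0

/-- every element of `Csub k` is a combination, with constant coefficients, of the generators of
weight `k`. -/
lemma Hyp.exists_coeff_of_mem_Csub (H : Hyp R M A B) {k : ℤ} {c : 𝒜} (hc : c ∈ Csub M A B k) :
    ∃ a : Idx M A B →₀ 𝒜, IsCoeff R (kap M A B) k a ∧ ev (gen M A B) a = c := by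
  classical
  let bas := Module.finBasis 𝕜 (Csub M A B k)
  refine ⟨∑ i, Finsupp.single (⟨k, i⟩ : Idx M A B) (algebraMap 𝕜 𝒜 (bas.repr ⟨c, hc⟩ i)), ?_, ?_⟩
  · refine IsCoeff.sum _ _ (fun i _ => IsCoeff.single ?_)
    exact mem_of_eq (H.algebraMap_mem _) (by simp [kap])
  · rw [map_sum]
    simp only [ev_single]
    have h1 := bas.sum_repr ⟨c, hc⟩
    have h2 := congrArg (Subtype.val) h1
    simp only [Submodule.coe_sum, Submodule.coe_smul] at h2
    refine Eq.trans (Finset.sum_congr rfl (fun i _ => ?_)) h2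
    rw [Algebra.smul_def]
    rfl

/-- generation, by induction on the weight -/
lemma Hyp.generation (H : Hyp R M A B) : ∀ n : ℕ, ∀ k : ℤ, k < n → ∀ f ∈ M k,
    ∃ a : Idx M A B →₀ 𝒜, IsCoeff R (kap M A B) k a ∧ ev (gen M A B) a = f := by
  intro n
  induction n with
  | zero =>
    intro k hk f hf
    rw [H.hMneg k (by simpa using hk)] at hf
    rw [(Submodule.mem_bot 𝕜).1 hf]
    exact ⟨0, IsCoeff.zero k, map_zero _⟩
  | succ n ih =>
    intro k hk f hf
    rw [← Nsub_sup_Csub M A B (H.Nsub_le k), Submodule.mem_sup] at hf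
    obtain ⟨x, hx, c, hc, rfl⟩ := hf
    obtain ⟨f₁, hf₁, f₂, hf₂, rfl⟩ := (mem_Nsub M A B).1 hx
    have hk' : k < (n : ℤ) + 1 := by exact_mod_cast hk
    obtain ⟨a₁, ha₁, e₁⟩ := ih (k - 4) (by omega) f₁ hf₁
    obtain ⟨a₂, ha₂, e₂⟩ := ih (k - 6) (by omega) f₂ hf₂
    obtain ⟨a₀, ha₀, e₀⟩ := H.exists_coeff_of_mem_Csub hc
    refine ⟨A • a₁ + B • a₂ + a₀, ?_, ?_⟩
    · exact ((IsCoeff.smul H.hRR H.hA ha₁ (by omega)).add
        (IsCoeff.smul H.hRR H.hB ha₂ (by omega))).add ha₀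
    · rw [map_add, map_add, map_smul, map_smul, e₁, e₂, e₀, smul_eq_mul, smul_eq_mul]

lemma Hyp.generation' (H : Hyp R M A B) (k : ℤ) (f : 𝒜) (hf : f ∈ M k) :
    ∃ a : Idx M A B →₀ 𝒜, IsCoeff R (kap M A B) k a ∧ ev (gen M A B) a = f :=
  H.generation (k.toNat + 1) k (by have := Int.self_le_toNat k; push_cast; omega) f hf

variable (M A B) in
/-- the part of a coefficient family in weight exactly `k` -/
noncomputable def top (k : ℤ) (a : Idx M A B →₀ 𝒜) : Idx M A B →₀ 𝒜 :=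
  ∑ i : Fin (Module.finrank 𝕜 (Csub M A B k)), Finsupp.single (⟨k, i⟩ : Idx M A B) (a ⟨k, i⟩)

omit hfin in
lemma top_apply (k : ℤ) (a : Idx M A B →₀ 𝒜) (j : Idx M A B) :
    top M A B k a j = if kap M A B j = k then a j else 0 := by
  classical
  obtain ⟨k', i'⟩ := j
  simp only [top, Finsupp.finsetSum_apply, Finsupp.single_apply]
  by_cases hk : k' = k
  · subst hk
    rw [if_pos (show kap M A B ⟨k', i'⟩ = k' from rfl)]
    simp only [Sigma.mk.injEq, heq_eq_eq, true_and, Finset.sum_ite_eq', Finset.mem_univ, if_true]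
  · rw [if_neg (show ¬ kap M A B ⟨k', i'⟩ = k from hk)]
    refine Finset.sum_eq_zero (fun i _ => ?_)
    rw [if_neg]
    rintro h
    exact hk (Sigma.mk.inj h).1.symm

lemma ev_top (k : ℤ) (a : Idx M A B →₀ 𝒜) :
    ev (gen M A B) (top M A B k a) = ∑ i, a ⟨k, i⟩ * gen M A B ⟨k, i⟩ := by
  rw [top, map_sum]
  simp only [ev_single]

/-- freeness, by induction on the weight -/
lemma Hyp.freeness (H : Hyp R M A B) : ∀ n : ℕ, ∀ k : ℤ, k < n → ∀ a : Idx M A B →₀ 𝒜,
    IsCoeff R (kap M A B) k a → ev (gen M A B) a = 0 → a = 0 := by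
  intro n
  induction n with
  | zero =>
    intro k hk a ha _
    ext j
    have h1 := ha j
    have hj := H.kap_nonneg j
    rw [H.hRneg _ (by simp at hk; omega)] at h1
    simpa using h1
  | succ n ih =>
    intro k hk a ha hev
    have hk' : k < (n : ℤ) + 1 := by exact_mod_cast hk
    classical
    -- the constants
    have hconst : ∀ i, ∃ c : 𝕜, a ⟨k, i⟩ = algebraMap 𝕜 𝒜 c :=
      fun i => H.hR0 _ (mem_of_eq (ha ⟨k, i⟩) (by simp [kap]))
    choose lam hlam using hconst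
    -- decomposition of the rest
    have ha'coeff : ∀ j, ∃ b c, (b ∈ R (k - 4 - kap M A B j) ∧ c ∈ R (k - 6 - kap M A B j) ∧
        (a - top M A B k a) j = A * b + B * c) := by
      intro j
      rw [Finsupp.sub_apply, top_apply]
      by_cases hj : kap M A B j = k
      · rw [if_pos hj, sub_self]
        exact ⟨0, 0, Submodule.zero_mem _, Submodule.zero_mem _, by simp⟩
      · rw [if_neg hj, sub_zero]
        rcases lt_or_gt_of_ne hj with hlt | hgt
        · obtain ⟨b, hb, c, hc, e⟩ := H.hRpos (k - kap M A B j) (by omega) (a j) (ha j)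
          exact ⟨b, c, mem_of_eq hb (by omega), mem_of_eq hc (by omega), e⟩
        · have h1 := ha j
          rw [H.hRneg _ (by omega)] at h1
          rw [(Submodule.mem_bot 𝕜).1 h1]
          exact ⟨0, 0, Submodule.zero_mem _, Submodule.zero_mem _, by simp⟩
    obtain ⟨b, c, hbc⟩ := exists_finsupp_pair (a - top M A B k a)
      (fun j x b c => b ∈ R (k - 4 - kap M A B j) ∧ c ∈ R (k - 6 - kap M A B j) ∧
        x = A * b + B * c)
      (fun j => ⟨Submodule.zero_mem _, Submodule.zero_mem _, by simp⟩) ha'coeff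
    have hb : IsCoeff R (kap M A B) (k - 4) b := fun j => (hbc j).1
    have hc : IsCoeff R (kap M A B) (k - 6) c := fun j => (hbc j).2.1
    have hdecomp : a = top M A B k a + A • b + B • c := by
      ext j
      have := (hbc j).2.2
      simp only [Finsupp.sub_apply] at this
      simp only [Finsupp.add_apply, Finsupp.smul_apply, smul_eq_mul]
      linear_combination this
    have hF₁mem : ev (gen M A B) b ∈ M (k - 4) := ev_mem H.hRM (gen_mem M A B) hb
    have hF₂mem : ev (gen M A B) c ∈ M (k - 6) := ev_mem H.hRM (gen_mem M A B) hc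
    generalize hF₁ : ev (gen M A B) b = F₁ at hF₁mem
    generalize hF₂ : ev (gen M A B) c = F₂ at hF₂mem
    have hsum : ev (gen M A B) (top M A B k a) + A * F₁ + B * F₂ = 0 := by
      rw [← hev, ← hF₁, ← hF₂]
      conv_rhs => rw [hdecomp]
      rw [map_add, map_add, map_smul, map_smul, smul_eq_mul, smul_eq_mul]
    -- the weight `k` part vanishes
    have htopN : ev (gen M A B) (top M A B k a) ∈ Nsub M A B k := by
      rw [mem_Nsub]
      exact ⟨-F₁, Submodule.neg_mem _ hF₁mem, -F₂, Submodule.neg_mem _ hF₂mem,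
        by linear_combination hsum⟩
    have htopC : ev (gen M A B) (top M A B k a) ∈ Csub M A B k := by
      rw [ev_top]
      refine Submodule.sum_mem _ (fun i _ => ?_)
      rw [hlam i, ← Algebra.smul_def]
      exact Submodule.smul_mem _ _ (gen_mem_Csub M A B ⟨k, i⟩)
    have htop0 : ev (gen M A B) (top M A B k a) = 0 := by
      have hmem : ev (gen M A B) (top M A B k a) ∈ Nsub M A B k ⊓ Csub M A B k := ⟨htopN, htopC⟩
      rw [Nsub_inf_Csub] at hmem
      exact (Submodule.mem_bot 𝕜).1 hmem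
    have hlam0 : ∀ i, lam i = 0 := by
      have hli := (Module.finBasis 𝕜 (Csub M A B k)).linearIndependent
      rw [Fintype.linearIndependent_iff] at hli
      apply hli lam
      apply Subtype.ext
      rw [Submodule.coe_sum, Submodule.coe_zero, ← htop0, ev_top]
      refine Finset.sum_congr rfl (fun i _ => ?_)
      rw [hlam i, Submodule.coe_smul, Algebra.smul_def]
      rfl
    have htopa : top M A B k a = 0 := by
      ext j
      rw [top_apply]
      split_ifs with hj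
      · obtain ⟨k', i⟩ := j
        simp only [kap] at hj
        subst hj
        rw [hlam i, hlam0 i, map_zero]
        rfl
      · rfl
    have hAB : A * F₁ + B * F₂ = 0 := by
      rw [htop0, zero_add] at hsum
      exact hsum
    -- second regularity condition
    obtain ⟨h, hh, hF₂h⟩ := H.hregB (k - 6) F₂ hF₂mem (-F₁)
      (mem_of_eq (Submodule.neg_mem _ hF₁mem) (by omega)) (by linear_combination hAB)
    obtain ⟨d, hd, hde⟩ := H.generation' (k - 6 - 4) h hh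
    have hcd : c - A • d = 0 := by
      refine ih (k - 6) (by omega) _ (hc.sub (IsCoeff.smul H.hRR H.hA hd (by omega))) ?_
      rw [map_sub, map_smul, hde, smul_eq_mul, hF₂, hF₂h, sub_self]
    have hF₁h : F₁ + B * h = 0 := by
      refine H.hregA (k - 4) _ (Submodule.add_mem _ hF₁mem
        (mem_of_eq (H.hRM 6 (k - 6 - 4) B H.hB h hh) (by omega))) ?_
      rw [hF₂h] at hAB
      linear_combination hAB
    have hbd : b + B • d = 0 := by
      refine ih (k - 4) (by omega) _ (hb.add (IsCoeff.smul H.hRR H.hB hd (by omega))) ?_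
      rw [map_add, map_smul, hde, smul_eq_mul, hF₁]
      exact hF₁h
    have hc' : c = A • d := sub_eq_zero.1 hcd
    have hb' : b = -(B • d) := eq_neg_of_add_eq_zero_left hbd
    rw [hdecomp, htopa, zero_add, hc', hb', smul_neg, smul_smul, smul_smul, mul_comm A B,
      neg_add_cancel]

lemma Hyp.freeness' (H : Hyp R M A B) (k : ℤ) (a : Idx M A B →₀ 𝒜)
    (ha : IsCoeff R (kap M A B) k a) (h0 : ev (gen M A B) a = 0) : a = 0 :=
  H.freeness (k.toNat + 1) k (by have := Int.self_le_toNat k; push_cast; omega) a ha h0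

end construction

end Fermat.Agent.M2F.GradedFree

namespace Fermat.Agent.M2F

open GradedFree in
/-- **Graded freeness** (task F1; statement of `m2f_docs` Skeleton.lean). -/
theorem exists_homogeneous_basis {𝕜 𝒜 : Type*} [Field 𝕜] [CommRing 𝒜] [Algebra 𝕜 𝒜]
    (R M : ℤ → Submodule 𝕜 𝒜) (A B : 𝒜)
    (hA : A ∈ R 4) (hB : B ∈ R 6)
    (hRM : ∀ k l, ∀ a ∈ R k, ∀ f ∈ M l, a * f ∈ M (k + l))
    (hRR : ∀ k l, ∀ a ∈ R k, ∀ b ∈ R l, a * b ∈ R (k + l))
    (hR0 : ∀ a ∈ R 0, ∃ c : 𝕜, a = algebraMap 𝕜 𝒜 c) (hR1 : (1 : 𝒜) ∈ R 0)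
    (hRpos : ∀ k, 0 < k → ∀ a ∈ R k, ∃ b ∈ R (k - 4), ∃ c ∈ R (k - 6), a = A * b + B * c)
    (hRneg : ∀ k, k < 0 → R k = ⊥)
    (hMneg : ∀ k, k < 0 → M k = ⊥)
    (hMfin : ∀ k, FiniteDimensional 𝕜 (M k))
    (hregA : ∀ k, ∀ f ∈ M k, A * f = 0 → f = 0)
    (hregB : ∀ k, ∀ f ∈ M k, ∀ g ∈ M (k + 2), B * f = A * g → ∃ h ∈ M (k - 4), f = A * h) :
    ∃ (ι : Type) (κ : ι → ℤ) (m : ι → 𝒜), (∀ j, m j ∈ M (κ j)) ∧ (∀ k, {j | κ j = k}.Finite) ∧
      (∀ k, ∀ f ∈ M k, ∃ a : ι →₀ 𝒜, (∀ j, a j ∈ R (k - κ j)) ∧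
        f = a.sum (fun j c => c * m j)) ∧
      (∀ k, ∀ a : ι →₀ 𝒜, (∀ j, a j ∈ R (k - κ j)) → a.sum (fun j c => c * m j) = 0 → a = 0) := by
  have H : Hyp R M A B := ⟨hA, hB, hRM, hRR, hR0, hR1, hRpos, hRneg, hMneg, hregA, hregB⟩
  refine ⟨Idx M A B, kap M A B, gen M A B, gen_mem M A B, finite_fiber M A B, ?_, ?_⟩
  · intro k f hf
    obtain ⟨a, ha, e⟩ := H.generation' k f hf
    exact ⟨a, ha, by rw [← e, ev_eq_sum]⟩
  · intro k a ha h0
    exact H.freeness' k a ha (by rw [ev_eq_sum]; exact h0)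

end Fermat.Agent.M2F
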