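/-
M2F task F2 (helper14): the hypotheses of the abstract graded-freeness theorem (F1) for
`R = Rk` (level-one forms), `M = Mk (Gamma0 N)`, `A = E₄`, `B = E₆`, plus the division lemmas
`div_mem`, `div_discriminant`, and the output `exists_graded_basis`.
-/
import Mathlib
import Fermat.Agent.M2F.Defs
import Fermat.Agent.M2F.GradedFree
import Fermat.Prelude.Thm_ModularForm_sturm_bound_Gamma0

set_option autoImplicit false

open UpperHalfPlane ModularForm MatrixGroups CongruenceSubgroup Filter Asymptotics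
open scoped Manifold Topology

namespace Fermat.Agent.M2F.Regular

open Fermat.Agent.M2F

local notation "Δ" => ModularForm.discriminant

/-! ## Basic algebra of `IsMF` -/

section algebra

variable {Γ : Subgroup SL(2, ℤ)} {k l : ℤ} {f g : ℍ → ℂ}

lemma isMF_congr_weight (h : k = l) (hf : IsMF Γ k f) : IsMF Γ l f := h ▸ hf

lemma isCF_congr_weight (h : k = l) (hf : IsCF Γ k f) : IsCF Γ l f := h ▸ hf

lemma isMF_neg (hf : IsMF Γ k f) : IsMF Γ k (-f) := by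
  have := hf.smul (-1 : ℂ)
  simpa using this

lemma isMF_sub (hf : IsMF Γ k f) (hg : IsMF Γ k g) : IsMF Γ k (f - g) := by
  rw [sub_eq_add_neg]
  exact hf.add (isMF_neg hg)

lemma isMF_one : IsMF Γ 0 (1 : ℍ → ℂ) := by
  have h : IsMF Γ 0 ⇑(1 : ModularForm 𝒮ℒ 0) := (isMF_top_coe (1 : ModularForm 𝒮ℒ 0)).mono le_top
  simpa using h

lemma isMF_const (c : ℂ) : IsMF Γ 0 (fun _ => c) := by
  have := (isMF_one (Γ := Γ)).smul c
  convert this using 1
  funext z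
  simp

lemma isMF_pow (hf : IsMF Γ k f) (n : ℕ) : IsMF Γ (n * k) (f ^ n) := by
  induction n with
  | zero => simpa using isMF_one (Γ := Γ)
  | succ n ih =>
    rw [pow_succ]
    exact isMF_congr_weight (by push_cast; ring) (ih.mul hf)

/-- Level-one forms act on `M_*(Γ)`. -/
lemma isMF_levelOne_mul (hf : IsMF ⊤ k f) (hg : IsMF Γ l g) : IsMF Γ (k + l) (f * g) :=
  (hf.mono le_top).mul hg

lemma mdiff_discriminant : MDiff (Δ : ℍ → ℂ) := CuspForm.discriminant.holo'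

end algebra

/-! ## Vanishing in negative weight, constants in weight zero -/

lemma Rk_eq_bot_of_neg {k : ℤ} (hk : k < 0) : Rk k = ⊥ := by
  rw [eq_bot_iff]
  intro a ha
  have h := ModularFormClass.levelOne_neg_weight_eq_zero hk (toLevelOne (mem_Mk.mp ha))
  simpa using h

lemma Mk_eq_bot_of_neg (Γ : Subgroup SL(2, ℤ)) [Γ.FiniteIndex] {k : ℤ} (hk : k < 0) :
    Mk Γ k = ⊥ := by
  rw [eq_bot_iff]
  intro a ha
  have h := ModularForm.isZero_of_neg_weight hk ((mem_Mk.mp ha).toModularForm Γ k)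
  have h2 := congrArg (fun F : ModularForm _ k => (F : ℍ → ℂ)) h
  simpa using h2

lemma exists_const_of_mem_Rk_zero {a : ℍ → ℂ} (ha : a ∈ Rk 0) :
    ∃ c : ℂ, a = algebraMap ℂ (ℍ → ℂ) c := by
  obtain ⟨c, hc⟩ := ModularFormClass.levelOne_weight_zero_const (toLevelOne (mem_Mk.mp ha))
  refine ⟨c, ?_⟩
  funext z
  have := congrFun hc z
  simpa using this

lemma eq_zero_of_odd {k : ℤ} (hk : Odd k) {a : ℍ → ℂ} (ha : IsMF ⊤ k a) : a = 0 := by
  have h := ModularForm.levelOne_odd_weight_eq_zero hk (toLevelOne ha)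
  have h2 := congrArg (fun F : ModularForm 𝒮ℒ k => (F : ℍ → ℂ)) h
  simpa using h2

lemma eq_zero_of_weight_two {a : ℍ → ℂ} (ha : IsMF ⊤ 2 a) : a = 0 := by
  have h := rank_zero_iff_forall_zero.mp ModularForm.levelOne_weight_two_rank_zero (toLevelOne ha)
  have h2 := congrArg (fun F : ModularForm 𝒮ℒ 2 => (F : ℍ → ℂ)) h
  simpa using h2

/-! ## Limits at `i∞` -/

lemma tendsto_exp_neg_im_atImInfty {c : ℝ} (hc : 0 < c) :
    Tendsto (fun τ : ℍ => Real.exp (-c * τ.im)) atImInfty (𝓝 0) := by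
  have h1 : Tendsto (fun τ : ℍ => τ.im) atImInfty atTop := tendsto_comap
  have h2 : Tendsto (fun τ : ℍ => c * τ.im) atImInfty atTop := h1.const_mul_atTop hc
  have h3 := Real.tendsto_exp_neg_atTop_nhds_zero.comp h2
  refine h3.congr fun τ => ?_
  simp [Function.comp_apply]

lemma periodic_of_isMF_top {k : ℤ} {a : ℍ → ℂ} (ha : IsMF ⊤ k a) :
    Function.Periodic (a ∘ ofComplex) (1 : ℝ) := by
  have := SlashInvariantFormClass.periodic_comp_ofComplex (toLevelOne ha)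
    one_mem_strictPeriods_SL
  simpa using this

lemma isBoundedAtImInfty_of_isMF_top {k : ℤ} {a : ℍ → ℂ} (ha : IsMF ⊤ k a) :
    IsBoundedAtImInfty a := (isMF_top_iff.mp ha).2.2

/-- A level-one modular form has a limit at `i∞`, namely `valueAtInfty`. -/
lemma tendsto_valueAtInfty {k : ℤ} {a : ℍ → ℂ} (ha : IsMF ⊤ k a) :
    Tendsto a atImInfty (𝓝 (valueAtInfty a)) := by
  have hO := UpperHalfPlane.exp_decay_sub_atImInfty one_pos (periodic_of_isMF_top ha) ha.holo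
    (isBoundedAtImInfty_of_isMF_top ha)
  have h0 : Tendsto (fun τ : ℍ => Real.exp (-2 * Real.pi * τ.im / 1)) atImInfty (𝓝 0) := by
    have := tendsto_exp_neg_im_atImInfty (c := 2 * Real.pi) (by positivity)
    refine this.congr fun τ => ?_
    congr 1; ring
  have h1 : Tendsto (fun τ => a τ - valueAtInfty a) atImInfty (𝓝 0) := hO.trans_tendsto h0
  have h2 := h1.add_const (valueAtInfty a)
  simpa using h2

lemma valueAtInfty_levelOne {k : ℤ} (F : ModularForm 𝒮ℒ k) :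
    valueAtInfty (F : ℍ → ℂ) = (qExpansion 1 F).coeff 0 := by
  rw [qExpansion_coeff_zero one_pos
      (ModularFormClass.analyticAt_cuspFunction_zero F one_pos one_mem_strictPeriods_SL)
      (SlashInvariantFormClass.periodic_comp_ofComplex F one_mem_strictPeriods_SL)]

lemma valueAtInfty_E₄ : valueAtInfty (E₄ : ℍ → ℂ) = 1 := by
  rw [valueAtInfty_levelOne]
  exact EisensteinSeries.E_qExpansion_coeff_zero _ ⟨2, rfl⟩

lemma valueAtInfty_E₆ : valueAtInfty (E₆ : ℍ → ℂ) = 1 := by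
  rw [valueAtInfty_levelOne]
  exact EisensteinSeries.E_qExpansion_coeff_zero _ ⟨3, rfl⟩

lemma tendsto_E₄ : Tendsto (E₄ : ℍ → ℂ) atImInfty (𝓝 1) := by
  have := tendsto_valueAtInfty isMF_E₄
  rwa [valueAtInfty_E₄] at this

lemma tendsto_E₆ : Tendsto (E₆ : ℍ → ℂ) atImInfty (𝓝 1) := by
  have := tendsto_valueAtInfty isMF_E₆
  rwa [valueAtInfty_E₆] at this

lemma ne_zero_of_tendsto {g : ℍ → ℂ} {c : ℂ} (hc : c ≠ 0)
    (hgc : Tendsto g atImInfty (𝓝 c)) : g ≠ 0 := by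
  rintro rfl
  obtain ⟨z, hz⟩ := (hgc.eventually_ne hc).exists
  exact hz rfl

lemma E₄_ne_zero : (E₄ : ℍ → ℂ) ≠ 0 := ne_zero_of_tendsto one_ne_zero tendsto_E₄
lemma E₆_ne_zero : (E₆ : ℍ → ℂ) ≠ 0 := ne_zero_of_tendsto one_ne_zero tendsto_E₆

/-- If `g → c ≠ 0` at `i∞` and `g * u` is bounded at `i∞`, so is `u`. -/
lemma isBoundedAtImInfty_of_mul {g u : ℍ → ℂ} {c : ℂ} (hc : c ≠ 0)
    (hgc : Tendsto g atImInfty (𝓝 c)) (hgu : IsBoundedAtImInfty (g * u)) :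
    IsBoundedAtImInfty u := by
  have h1 : BoundedAtFilter atImInfty (fun z => (g z)⁻¹) := (hgc.inv₀ hc).isBigO_one ℝ
  have h2 : BoundedAtFilter atImInfty ((fun z => (g z)⁻¹) * (g * u)) := h1.mul hgu
  have hne : ∀ᶠ z in atImInfty, g z ≠ 0 := hgc.eventually_ne hc
  refine h2.congr' ?_ (EventuallyEq.refl _ _)
  filter_upwards [hne] with z hz
  simp [hz]

/-- If `g → c ≠ 0` at `i∞` and `g * u → 0` at `i∞`, then `u → 0`. -/
lemma isZeroAtImInfty_of_mul {g u : ℍ → ℂ} {c : ℂ} (hc : c ≠ 0)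
    (hgc : Tendsto g atImInfty (𝓝 c)) (hgu : IsZeroAtImInfty (g * u)) :
    IsZeroAtImInfty u := by
  have h1 : Tendsto (fun z => (g z)⁻¹) atImInfty (𝓝 c⁻¹) := hgc.inv₀ hc
  have h2 : Tendsto (fun z => (g z)⁻¹ * (g * u) z) atImInfty (𝓝 (c⁻¹ * 0)) := h1.mul hgu
  have hne : ∀ᶠ z in atImInfty, g z ≠ 0 := hgc.eventually_ne hc
  rw [mul_zero] at h2
  refine h2.congr' ?_
  filter_upwards [hne] with z hz
  simp [hz]

/-! ## Division lemmas -/

/-- Division lemma: if `f = g * h` with `f` modular of weight `k` for `Γ`, `g` level-one of weight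
`l` with nonzero limit at `i∞`, and `h` holomorphic, then `h` is modular of weight `k - l`. -/
theorem div_mem {Γ : Subgroup SL(2, ℤ)} {k l : ℤ} {f g h : ℍ → ℂ} (hf : IsMF Γ k f)
    (hg : IsMF ⊤ l g) {c : ℂ} (hc : c ≠ 0) (hgc : Tendsto g atImInfty (𝓝 c)) (hh : MDiff h)
    (hfgh : f = g * h) : IsMF Γ (k - l) h := by
  have hg0 : g ≠ 0 := ne_zero_of_tendsto hc hgc
  have hslash : ∀ γ : SL(2, ℤ), f ∣[k] γ = g * (h ∣[k - l] γ) := by
    intro γ
    have hk : k = l + (k - l) := by ring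
    conv_lhs => rw [hfgh, hk]
    rw [ModularForm.mul_slash_SL2, hg.inv γ (Subgroup.mem_top γ)]
  refine ⟨hh, fun γ hγ => ?_, fun γ => ?_⟩
  · have h1 : g * (h ∣[k - l] γ) = g * h := by rw [← hslash γ, hf.inv γ hγ, hfgh]
    have h2 : g * (h ∣[k - l] γ - h) = 0 := by rw [mul_sub, h1, sub_self]
    have hd : MDiff (h ∣[k - l] γ - h) := (hh.slash (k - l) _).sub hh
    rcases (UpperHalfPlane.mul_eq_zero_iff hg.holo hd).mp h2 with h3 | h3
    · exact absurd h3 hg0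
    · exact sub_eq_zero.mp h3
  · apply isBoundedAtImInfty_of_mul hc hgc
    rw [← hslash γ]
    exact hf.bdd γ

/-- Cusp-form version of `div_mem`. -/
theorem div_mem_cusp {Γ : Subgroup SL(2, ℤ)} {k l : ℤ} {f g h : ℍ → ℂ} (hf : IsCF Γ k f)
    (hg : IsMF ⊤ l g) {c : ℂ} (hc : c ≠ 0) (hgc : Tendsto g atImInfty (𝓝 c)) (hh : MDiff h)
    (hfgh : f = g * h) : IsCF Γ (k - l) h := by
  have hM := div_mem hf.isMF hg hc hgc hh hfgh
  refine ⟨hM.holo, hM.inv, fun γ => ?_⟩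
  have hslash : f ∣[k] γ = g * (h ∣[k - l] γ) := by
    have hk : k = l + (k - l) := by ring
    conv_lhs => rw [hfgh, hk]
    rw [ModularForm.mul_slash_SL2, hg.inv γ (Subgroup.mem_top γ)]
  apply isZeroAtImInfty_of_mul hc hgc
  rw [← hslash]
  exact hf.zero γ

/-- Division by `Δ`: a modular form all of whose translates decay like `exp (-2π im z)` at `i∞`
is `Δ` times a modular form of weight `k - 12`. -/
theorem div_discriminant {Γ : Subgroup SL(2, ℤ)} {k : ℤ} {f : ℍ → ℂ} (hf : IsMF Γ k f)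
    (hdec : ∀ γ : SL(2, ℤ),
      (f ∣[k] γ) =O[atImInfty] (fun z : ℍ => Real.exp (-2 * Real.pi * z.im))) :
    ∃ h : ℍ → ℂ, IsMF Γ (k - 12) h ∧ f = Δ * h := by
  have hfh : f = Δ * (fun z => f z / Δ z) := by
    funext z
    simp only [Pi.mul_apply]
    rw [mul_div_cancel₀ _ (discriminant_ne_zero z)]
  refine ⟨fun z => f z / Δ z, ?_, hfh⟩
  have hh : MDiff (fun z => f z / Δ z) := hf.holo.div mdiff_discriminant discriminant_ne_zero
  have hslash : ∀ γ : SL(2, ℤ), f ∣[k] γ = Δ * ((fun z => f z / Δ z) ∣[k - 12] γ) := by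
    intro γ
    have hk : k = 12 + (k - 12) := by ring
    conv_lhs => rw [hfh, hk]
    rw [ModularForm.mul_slash_SL2, discriminant_slash γ]
  refine ⟨hh, fun γ hγ => ?_, fun γ => ?_⟩
  · have h1 : Δ * ((fun z => f z / Δ z) ∣[k - 12] γ) = Δ * (fun z => f z / Δ z) := by
      rw [← hslash γ, hf.inv γ hγ, ← hfh]
    funext z
    have h2 := congrFun h1 z
    simp only [Pi.mul_apply] at h2
    exact mul_left_cancel₀ (discriminant_ne_zero z) h2
  · have h1 : (f ∣[k] γ) =O[atImInfty] (Δ : ℍ → ℂ) := (hdec γ).trans exp_isBigO_discriminant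
    have h2 : ((fun z => f z / Δ z) ∣[k - 12] γ) = fun z => (f ∣[k] γ) z / Δ z := by
      funext z
      rw [hslash γ]
      simp only [Pi.mul_apply]
      rw [mul_div_cancel_left₀ _ (discriminant_ne_zero z)]
    rw [h2]
    exact (div_isBoundedUnder_of_isBigO h1).isBigO_one ℝ

/-- A level-one form vanishing at `i∞` is `Δ` times a level-one form of weight `k - 12`. -/
theorem exists_eq_discriminant_mul {k : ℤ} {f : ℍ → ℂ} (hf : IsMF ⊤ k f)
    (h0 : IsZeroAtImInfty f) : ∃ h : ℍ → ℂ, IsMF ⊤ (k - 12) h ∧ f = Δ * h := by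
  apply div_discriminant hf
  intro γ
  rw [hf.inv γ (Subgroup.mem_top γ)]
  have := h0.exp_decay_atImInfty one_pos (periodic_of_isMF_top hf) hf.holo
    (isBoundedAtImInfty_of_isMF_top hf)
  simpa using this

/-! ## `E₄, E₆` generate the ideal of positive-weight level-one forms -/

/-- A monomial in `E₄, E₆` of every even weight `≥ 4`, split as `E₄ * b + E₆ * c`. -/
lemma exists_monomial {k : ℤ} (hk : 0 < k) (hk2 : Even k) (hk' : k ≠ 2) :
    ∃ b c : ℍ → ℂ, IsMF ⊤ (k - 4) b ∧ IsMF ⊤ (k - 6) c ∧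
      Tendsto ((E₄ : ℍ → ℂ) * b + (E₆ : ℍ → ℂ) * c) atImInfty (𝓝 1) := by
  obtain ⟨n, rfl⟩ := Int.eq_ofNat_of_zero_le hk.le
  have hn2 : Even n := by exact_mod_cast hk2
  obtain ⟨m, hm⟩ := hn2
  have hcases : (∃ x : ℕ, n = 4 * (x + 1)) ∨ (∃ x : ℕ, n = 4 * x + 6) := by
    have hm1 : m ≠ 1 := by
      rintro rfl
      apply hk'
      simp [hm]
    have hm0 : m ≠ 0 := by
      rintro rfl
      simp [hm] at hk
    rcases Nat.even_or_odd' m with ⟨t, ht | ht⟩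
    · left; exact ⟨t - 1, by omega⟩
    · right; exact ⟨t - 1, by omega⟩
  rcases hcases with ⟨x, rfl⟩ | ⟨x, rfl⟩
  · refine ⟨(E₄ : ℍ → ℂ) ^ x, 0, ?_, isMF_zero, ?_⟩
    · exact isMF_congr_weight (by push_cast; ring) (isMF_pow isMF_E₄ x)
    · have h1 : Tendsto ((E₄ : ℍ → ℂ) * (E₄ : ℍ → ℂ) ^ x) atImInfty (𝓝 (1 * 1 ^ x)) :=
        tendsto_E₄.mul (tendsto_E₄.pow x)
      simpa using h1
  · refine ⟨0, (E₄ : ℍ → ℂ) ^ x, isMF_zero, ?_, ?_⟩
    · exact isMF_congr_weight (by push_cast; ring) (isMF_pow isMF_E₄ x)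
    · have h1 : Tendsto ((E₆ : ℍ → ℂ) * (E₄ : ℍ → ℂ) ^ x) atImInfty (𝓝 (1 * 1 ^ x)) :=
        tendsto_E₆.mul (tendsto_E₄.pow x)
      simpa using h1

/-- Every level-one form of positive weight lies in the ideal `(E₄, E₆)`. -/
theorem exists_eq_E₄_mul_add_E₆_mul {k : ℤ} (hk : 0 < k) {a : ℍ → ℂ} (ha : IsMF ⊤ k a) :
    ∃ b c : ℍ → ℂ, IsMF ⊤ (k - 4) b ∧ IsMF ⊤ (k - 6) c ∧
      a = (E₄ : ℍ → ℂ) * b + (E₆ : ℍ → ℂ) * c := by
  rcases Int.even_or_odd k with hk2 | hk2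
  swap
  · exact ⟨0, 0, isMF_zero, isMF_zero, by rw [eq_zero_of_odd hk2 ha]; simp⟩
  by_cases hk' : k = 2
  · subst hk'
    exact ⟨0, 0, isMF_zero, isMF_zero, by rw [eq_zero_of_weight_two ha]; simp⟩
  obtain ⟨b₀, c₀, hb₀, hc₀, hlim⟩ := exists_monomial hk hk2 hk'
  set v : ℂ := valueAtInfty a with hv
  have hmono : IsMF ⊤ k ((E₄ : ℍ → ℂ) * b₀ + (E₆ : ℍ → ℂ) * c₀) :=
    (isMF_congr_weight (by ring) (isMF_E₄.mul hb₀)).add
      (isMF_congr_weight (by ring) (isMF_E₆.mul hc₀))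
  have hf : IsMF ⊤ k (a - v • ((E₄ : ℍ → ℂ) * b₀ + (E₆ : ℍ → ℂ) * c₀)) :=
    isMF_sub ha (hmono.smul v)
  have hf0 : IsZeroAtImInfty (a - v • ((E₄ : ℍ → ℂ) * b₀ + (E₆ : ℍ → ℂ) * c₀)) := by
    have h1 : Tendsto (a - v • ((E₄ : ℍ → ℂ) * b₀ + (E₆ : ℍ → ℂ) * c₀)) atImInfty
        (𝓝 (v - v • 1)) := (tendsto_valueAtInfty ha).sub (hlim.const_smul v)
    simpa [IsZeroAtImInfty, ZeroAtFilter] using h1
  obtain ⟨h, hh, hfh⟩ := exists_eq_discriminant_mul hf hf0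
  have hE₄sq : IsMF ⊤ (k - 4) ((E₄ : ℍ → ℂ) ^ 2 * h) :=
    isMF_congr_weight (by push_cast; ring) ((isMF_pow isMF_E₄ 2).mul hh)
  have hE₆h : IsMF ⊤ (k - 6) ((E₆ : ℍ → ℂ) * h) :=
    isMF_congr_weight (by ring) (isMF_E₆.mul hh)
  refine ⟨v • b₀ + (1728⁻¹ : ℂ) • ((E₄ : ℍ → ℂ) ^ 2 * h),
    v • c₀ - (1728⁻¹ : ℂ) • ((E₆ : ℍ → ℂ) * h), (hb₀.smul v).add (hE₄sq.smul _),
    isMF_sub (hc₀.smul v) (hE₆h.smul _), ?_⟩
  have hΔ : ∀ z : ℍ, Δ z = (E₄ z ^ 3 - E₆ z ^ 2) / 1728 := discriminant_eq_E₄_cube_sub_E₆_sq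
  have ha_eq : a = v • ((E₄ : ℍ → ℂ) * b₀ + (E₆ : ℍ → ℂ) * c₀) + Δ * h := by
    rw [← hfh]; ring
  rw [ha_eq]
  funext z
  simp only [Pi.add_apply, Pi.mul_apply, Pi.smul_apply, Pi.sub_apply, Pi.pow_apply, smul_eq_mul,
    hΔ z]
  ring

/-! ## `E₄, E₆` is a regular sequence on `M_*(Γ)` -/

/-- `E₄` is a non-zero-divisor on holomorphic functions. -/
theorem regular_E₄ {f : ℍ → ℂ} (hf : MDiff f) (h : (E₄ : ℍ → ℂ) * f = 0) : f = 0 := by
  rcases (UpperHalfPlane.mul_eq_zero_iff E₄.holo' hf).mp h with h1 | h1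
  · exact absurd h1 E₄_ne_zero
  · exact h1

/-- `E₆` is a non-zero-divisor on holomorphic functions. -/
theorem regular_E₆ {f : ℍ → ℂ} (hf : MDiff f) (h : (E₆ : ℍ → ℂ) * f = 0) : f = 0 := by
  rcases (UpperHalfPlane.mul_eq_zero_iff E₆.holo' hf).mp h with h1 | h1
  · exact absurd h1 E₆_ne_zero
  · exact h1

/-- `Δ` is a non-zero-divisor on all functions. -/
theorem regular_discriminant {f : ℍ → ℂ} (h : (Δ : ℍ → ℂ) * f = 0) : f = 0 := by
  funext z
  have := congrFun h z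
  simpa [discriminant_ne_zero z] using this

/-- `E₆` is regular modulo `E₄` on `M_*(Γ)`: `E₆ f = E₄ g ⇒ f = E₄ h, g = E₆ h`. -/
theorem regular_E₆_mod_E₄ {Γ : Subgroup SL(2, ℤ)} {k : ℤ} {f g : ℍ → ℂ} (hf : IsMF Γ k f)
    (hg : IsMF Γ (k + 2) g) (hfg : (E₆ : ℍ → ℂ) * f = (E₄ : ℍ → ℂ) * g) :
    ∃ h : ℍ → ℂ, IsMF Γ (k - 4) h ∧ f = (E₄ : ℍ → ℂ) * h ∧ g = (E₆ : ℍ → ℂ) * h := by
  set h : ℍ → ℂ := fun z => (E₄ z ^ 2 * f z - E₆ z * g z) / (1728 * Δ z) with hh_def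
  have hpt : ∀ z, E₆ z * f z = E₄ z * g z := fun z => by
    have := congrFun hfg z
    simpa using this
  have hΔ : ∀ z : ℍ, (1728 : ℂ) * Δ z = E₄ z ^ 3 - E₆ z ^ 2 := fun z => by
    rw [discriminant_eq_E₄_cube_sub_E₆_sq z]; ring
  have hΔ0 : ∀ z : ℍ, (1728 : ℂ) * Δ z ≠ 0 := fun z =>
    mul_ne_zero (by norm_num) (discriminant_ne_zero z)
  have hf_eq : f = (E₄ : ℍ → ℂ) * h := by
    funext z
    simp only [Pi.mul_apply, hh_def]
    rw [mul_div_assoc', eq_div_iff (hΔ0 z), hΔ z]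
    linear_combination (- E₆ z) * hpt z
  have hg_eq : g = (E₆ : ℍ → ℂ) * h := by
    funext z
    simp only [Pi.mul_apply, hh_def]
    rw [mul_div_assoc', eq_div_iff (hΔ0 z), hΔ z]
    linear_combination (- E₄ z ^ 2) * hpt z
  have hmd : MDiff h := by
    have h1 : MDiff (fun z : ℍ => E₄ z ^ 2 * f z - E₆ z * g z) :=
      ((E₄.holo'.pow 2).mul hf.holo).sub (E₆.holo'.mul hg.holo)
    have h2 : MDiff (fun z : ℍ => (1728 : ℂ) * Δ z) := mdifferentiable_const.mul mdiff_discriminant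
    exact h1.div h2 hΔ0
  exact ⟨h, div_mem hf isMF_E₄ one_ne_zero tendsto_E₄ hmd hf_eq, hf_eq, hg_eq⟩

/-! ## Finite-dimensionality of `M_k(Γ₀(N))` from the Sturm bound -/

lemma one_mem_strictPeriods_Gamma0 (N : ℕ) :
    (1 : ℝ) ∈ (Gamma0 N : Subgroup (GL (Fin 2) ℝ)).strictPeriods := by
  simp [CongruenceSubgroup.strictPeriods_Gamma0]

/-- The truncated `q`-expansion map, which is injective by the Sturm bound. -/
noncomputable def qTrunc (N : ℕ) (k : ℤ) (B : ℕ) :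
    ModularForm (Gamma0 N) k →ₗ[ℂ] (Fin (B + 1) → ℂ) where
  toFun f i := (qExpansion 1 f).coeff i
  map_add' f g := by
    funext i
    have := ModularForm.qExpansion_add one_pos (one_mem_strictPeriods_Gamma0 N) f g
    simp only [Pi.add_apply]
    rw [← map_add, ← this]
    rfl
  map_smul' c f := by
    funext i
    have := ModularForm.qExpansion_smul one_pos (one_mem_strictPeriods_Gamma0 N) c f
    simp only [Pi.smul_apply, RingHom.id_apply, smul_eq_mul]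
    have h2 : (⇑(c • f) : ℍ → ℂ) = c • ⇑f := rfl
    rw [h2, this, PowerSeries.coeff_smul]
    rfl

theorem finiteDimensional_modularForm_Gamma0 (N : ℕ) [NeZero N] (k : ℤ) :
    FiniteDimensional ℂ (ModularForm (Gamma0 N) k) := by
  set B : ℕ := (k * (Gamma0 N).index).toNat / 12 with hB
  apply FiniteDimensional.of_injective (qTrunc N k B)
  rw [← LinearMap.ker_eq_bot, LinearMap.ker_eq_bot']
  intro f hf
  apply ModularForm.sturm_bound_Gamma0 N f
  intro n hn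
  have := congrFun hf ⟨n, by omega⟩
  simpa [qTrunc] using this

theorem finiteDimensional_Mk_Gamma0 (N : ℕ) [NeZero N] (k : ℤ) :
    FiniteDimensional ℂ (Mk (Gamma0 N) k) :=
  haveI := finiteDimensional_modularForm_Gamma0 N k
  (MkEquiv (Gamma0 N) k).symm.finiteDimensional

/-! ## Output: a homogeneous basis of `M_*(Γ₀(N))` over the ring of level-one forms -/

/-- **F2 output**: the conclusion of the graded freeness theorem (F1) for `R = Rk`,
`M = Mk (Gamma0 N)`. -/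
theorem exists_graded_basis (N : ℕ) [NeZero N] :
    ∃ (ι : Type) (κ : ι → ℤ) (m : ι → ℍ → ℂ), (∀ j, m j ∈ Mk (Gamma0 N) (κ j)) ∧
      (∀ k, {j | κ j = k}.Finite) ∧
      (∀ k, ∀ f ∈ Mk (Gamma0 N) k, ∃ a : ι →₀ (ℍ → ℂ), (∀ j, a j ∈ Rk (k - κ j)) ∧
        f = a.sum (fun j c => c * m j)) ∧
      (∀ k, ∀ a : ι →₀ (ℍ → ℂ), (∀ j, a j ∈ Rk (k - κ j)) →
        a.sum (fun j c => c * m j) = 0 → a = 0) := by
  refine exists_homogeneous_basis (𝕜 := ℂ) (𝒜 := ℍ → ℂ) Rk (Mk (Gamma0 N)) (E₄ : ℍ → ℂ)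
    (E₆ : ℍ → ℂ) isMF_E₄ isMF_E₆ ?_ ?_ ?_ ?_ ?_ ?_ ?_ ?_ ?_ ?_
  · exact fun k l a ha f hf => isMF_levelOne_mul ha hf
  · exact fun k l a ha b hb => IsMF.mul ha hb
  · exact fun a ha => exists_const_of_mem_Rk_zero ha
  · exact isMF_one
  · intro k hk a ha
    obtain ⟨b, c, hb, hc, h⟩ := exists_eq_E₄_mul_add_E₆_mul hk ha
    exact ⟨b, hb, c, hc, h⟩
  · exact fun k hk => Rk_eq_bot_of_neg hk
  · exact fun k hk => Mk_eq_bot_of_neg (Gamma0 N) hk
  · exact fun k => finiteDimensional_Mk_Gamma0 N k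
  · exact fun k f hf h => regular_E₄ (mem_Mk.mp hf).holo h
  · intro k f hf g hg h
    obtain ⟨u, hu, hfu, -⟩ := regular_E₆_mod_E₄ hf hg h
    exact ⟨u, hu, hfu⟩

end Fermat.Agent.M2F.Regular
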