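import Fermat.Agent.M2F.Defs
import Fermat.Prelude.Thm_ModularForm_sturm_bound_Gamma0
import Fermat.Prelude.Thm_CongruenceSubgroup_one_mem_strictPeriods_Gamma0

/-!
# M2F / F5: a homogeneous basis of `M_*(Γ₀(N))` over `ℂ[E₄, E₆]` has exactly `ψ(N)` elements

Given a graded basis (output of F1/F2) and `ψ` forms of one weight whose coset matrix has non-zero
determinant somewhere (output of F4), the basis can be indexed by the coset space `X N`.

* upper bound `≤ ψ`: dimension count `∑_j dim R_{k-κ_j} ≤ dim M_k ≤ kψ/12 + 1` (prelude Sturm bound)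
  against `dim R_w ≥ w/12` (Mathlib's level-one dimension formula);
* lower bound `≥ ψ`: the coset matrix of the `ψ` forms factors through `Φ(z)`.
-/

set_option autoImplicit false
set_option linter.unusedSectionVars false
set_option linter.style.longLine false
set_option linter.style.haveILetI false

noncomputable section

open UpperHalfPlane ModularForm MatrixGroups CongruenceSubgroup Module
open scoped Manifold Topology

namespace Fermat.Agent.M2F.SquareBasis

/-! ### Dimension bounds -/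

section Dimension

variable (N : ℕ) [NeZero N]

theorem one_mem_strictPeriods (N : ℕ) :
    (1 : ℝ) ∈ (Subgroup.map (Matrix.SpecialLinearGroup.mapGL ℝ) (Gamma0 N)).strictPeriods :=
  CongruenceSubgroup.one_mem_strictPeriods_Gamma0 N

/-- the truncated `q`-expansion map -/
def qTrunc (k : ℤ) (B : ℕ) : ModularForm (Gamma0 N) k →ₗ[ℂ] (Fin (B + 1) → ℂ) where
  toFun f n := (qExpansion 1 f).coeff n
  map_add' f g := by
    funext n
    simp only [FunLike.coe_add, Pi.add_apply]
    rw [ModularForm.qExpansion_add one_pos (one_mem_strictPeriods N) f g, map_add]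
  map_smul' c f := by
    funext n
    have h1 : ⇑(c • f) = c • ⇑f := by
      ext z
      simp
    simp only [h1, RingHom.id_apply, Pi.smul_apply]
    rw [ModularForm.qExpansion_smul one_pos (one_mem_strictPeriods N) c f]
    simp

theorem qTrunc_injective (k : ℤ) :
    Function.Injective (qTrunc N k ((k * (Gamma0 N).index).toNat / 12)) := by
  rw [injective_iff_map_eq_zero]
  intro f hf
  apply ModularForm.sturm_bound_Gamma0 N f
  intro n hn
  have := congrFun hf ⟨n, Nat.lt_succ_of_le hn⟩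
  exact this

theorem finite_modularForm (k : ℤ) : Module.Finite ℂ (ModularForm (Gamma0 N) k) :=
  Module.Finite.of_injective _ (qTrunc_injective N k)

theorem finrank_modularForm_le (k : ℤ) :
    finrank ℂ (ModularForm (Gamma0 N) k) ≤ (k * (Gamma0 N).index).toNat / 12 + 1 := by
  have := LinearMap.finrank_le_finrank_of_injective (qTrunc_injective N k)
  rwa [Module.finrank_fintype_fun_eq_card, Fintype.card_fin] at this

theorem finite_Mk (k : ℤ) : Module.Finite ℂ (Mk (Gamma0 N) k) :=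
  haveI := finite_modularForm N k
  Module.Finite.equiv (MkEquiv (Gamma0 N) k).symm

theorem finrank_Mk_le (k : ℤ) :
    finrank ℂ (Mk (Gamma0 N) k) ≤ (k * (Gamma0 N).index).toNat / 12 + 1 := by
  rw [finrank_Mk]
  exact finrank_modularForm_le N k

/-- `Rk k` is Mathlib's space of level-one forms. -/
def RkEquiv (k : ℤ) : Rk k ≃ₗ[ℂ] ModularForm 𝒮ℒ k where
  toFun f := toLevelOne (mem_Mk.mp f.2)
  invFun F := ⟨⇑F, isMF_top_coe F⟩
  map_add' _ _ := rfl
  map_smul' _ _ := rfl
  left_inv _ := rfl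
  right_inv _ := rfl

theorem finite_Rk (k : ℤ) : Module.Finite ℂ (Rk k) :=
  Module.Finite.equiv (RkEquiv k).symm

theorem le_finrank_Rk (w : ℕ) (hw : Even w) : w / 12 ≤ finrank ℂ (Rk (w : ℤ)) := by
  rw [(RkEquiv (w : ℤ)).finrank_eq]
  have h := ModularForm.dimension_level_one w hw
  split_ifs at h with h2
  · rw [Module.finrank_eq_of_rank_eq (n := w / 12) (by exact_mod_cast h)]
  · rw [Module.finrank_eq_of_rank_eq (n := w / 12 + 1) (by exact_mod_cast h)]
    omega

end Dimension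

/-! ### Weights of non-zero forms -/

section Weights

variable (N : ℕ) [NeZero N]

theorem neg_one_mem_Gamma0 : (-1 : SL(2, ℤ)) ∈ Gamma0 N := by
  rw [Gamma0_mem]
  simp

theorem eq_zero_of_odd {k : ℤ} (hk : Odd k) {f : ℍ → ℂ} (hf : IsMF (Gamma0 N) k f) : f = 0 := by
  have h1 : (-1 : GL (Fin 2) ℝ) ∈
      Subgroup.map (Matrix.SpecialLinearGroup.mapGL ℝ) (Gamma0 N) :=
    ⟨-1, neg_one_mem_Gamma0 N, by ext; simp⟩
  have h2 := ModularForm.eq_zero_of_neg_one_mem h1 hk (hf.toModularForm (Gamma0 N) k)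
  have h3 := congrArg (fun F : ModularForm (Gamma0 N) k => (⇑F : ℍ → ℂ)) h2
  simpa using h3

theorem eq_zero_of_neg {k : ℤ} (hk : k < 0) {f : ℍ → ℂ} (hf : IsMF (Gamma0 N) k f) : f = 0 := by
  have h2 := ModularForm.isZero_of_neg_weight hk (hf.toModularForm (Gamma0 N) k)
  have h3 := congrArg (fun F : ModularForm (Gamma0 N) k => (⇑F : ℍ → ℂ)) h2
  simpa using h3

theorem even_and_nonneg_of_ne_zero {k : ℤ} {f : ℍ → ℂ} (hf : IsMF (Gamma0 N) k f) (h0 : f ≠ 0) :
    Even k ∧ 0 ≤ k := by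
  constructor
  · by_contra hk
    exact h0 (eq_zero_of_odd N (Int.not_even_iff_odd.mp hk) hf)
  · by_contra hk
    exact h0 (eq_zero_of_neg N (not_le.mp hk) hf)

end Weights

/-! ### Graded bases -/

/-- The conclusion of the abstract graded freeness theorem (F1) for `R = Rk`,
`M = Mk (Gamma0 N)`: generation and freeness with finitely supported coefficients. -/
structure IsGradedBasis (N : ℕ) {ι : Type} (κ : ι → ℤ) (m : ι → ℍ → ℂ) : Prop where
  mem : ∀ j, m j ∈ Mk (Gamma0 N) (κ j)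
  gen : ∀ k, ∀ f ∈ Mk (Gamma0 N) k, ∃ a : ι →₀ (ℍ → ℂ), (∀ j, a j ∈ Rk (k - κ j)) ∧
    f = a.sum (fun j c => c * m j)
  free : ∀ k, ∀ a : ι →₀ (ℍ → ℂ), (∀ j, a j ∈ Rk (k - κ j)) →
    a.sum (fun j c => c * m j) = 0 → a = 0

section Upper

variable {N : ℕ} [NeZero N] {ι : Type} {κ : ι → ℤ} {m : ι → ℍ → ℂ}

theorem mul_mem_Mk {k l : ℤ} {a f : ℍ → ℂ} (ha : a ∈ Rk (k - l)) (hf : f ∈ Mk (Gamma0 N) l) :
    a * f ∈ Mk (Gamma0 N) k := by
  have h := IsMF.mul (IsMF.mono le_top (mem_Mk.mp ha)) (mem_Mk.mp hf)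
  rwa [sub_add_cancel] at h

theorem IsGradedBasis.ne_zero (hb : IsGradedBasis N κ m) (j : ι) : m j ≠ 0 := by
  classical
  intro h0
  have h1 : (1 : ℍ → ℂ) ∈ Rk 0 := by
    have := isMF_top_coe (ModularForm.const (Γ := 𝒮ℒ) (1 : ℂ))
    exact this
  have h2 := hb.free (κ j) (Finsupp.single j 1) (fun i => by
    by_cases hij : i = j
    · subst hij
      simpa using h1
    · rw [Finsupp.single_apply, if_neg (Ne.symm hij)]
      exact Submodule.zero_mem _) (by simp [h0])
  have := congrArg (fun a : ι →₀ (ℍ → ℂ) => a j) h2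
  simp at this

theorem IsGradedBasis.even_nonneg (hb : IsGradedBasis N κ m) (j : ι) : Even (κ j) ∧ 0 ≤ κ j :=
  even_and_nonneg_of_ne_zero N (mem_Mk.mp (hb.mem j)) (hb.ne_zero j)

/-- the combination map `(a_j)_{j ∈ s} ↦ ∑ a_j m_j` -/
def comb (hb : IsGradedBasis N κ m) (s : Finset ι) (k : ℤ) :
    ((j : s) → Rk (k - κ j)) →ₗ[ℂ] Mk (Gamma0 N) k where
  toFun a := ⟨∑ j : s, (a j : ℍ → ℂ) * m j,
    Submodule.sum_mem _ fun j _ => mul_mem_Mk (a j).2 (hb.mem j)⟩
  map_add' a b := by
    apply Subtype.ext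
    simp only [Pi.add_apply, Submodule.coe_add, add_mul, Finset.sum_add_distrib]
  map_smul' c a := by
    apply Subtype.ext
    simp only [Pi.smul_apply, Submodule.coe_smul, smul_mul_assoc, RingHom.id_apply,
      Finset.smul_sum]

theorem comb_injective (hb : IsGradedBasis N κ m) (s : Finset ι) (k : ℤ) :
    Function.Injective (comb hb s k) := by
  classical
  rw [injective_iff_map_eq_zero]
  intro a ha
  have ha' : ∑ j : s, (a j : ℍ → ℂ) * m j = 0 := congrArg Subtype.val ha
  let g : ι → (ℍ → ℂ) := fun j => if h : j ∈ s then (a ⟨j, h⟩ : ℍ → ℂ) else 0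
  let abar : ι →₀ (ℍ → ℂ) := Finsupp.onFinset s g (by
    intro j hj
    by_contra hjs
    exact hj (dif_neg hjs))
  have hmem : ∀ j, abar j ∈ Rk (k - κ j) := by
    intro j
    change g j ∈ Rk (k - κ j)
    by_cases h : j ∈ s
    · simp only [g, dif_pos h]
      exact (a ⟨j, h⟩).2
    · simp only [g, dif_neg h]
      exact Submodule.zero_mem _
  have hsum : abar.sum (fun j c => c * m j) = 0 := by
    rw [Finsupp.sum_of_support_subset abar Finsupp.support_onFinset_subset
      (fun j c => c * m j) (fun j _ => zero_mul (m j)), ← Finset.sum_coe_sort]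
    rw [← ha']
    refine Finset.sum_congr rfl fun j _ => ?_
    change g j * m j = _
    simp only [g, dif_pos j.2]
  have h0 := hb.free k abar hmem hsum
  funext j
  apply Subtype.ext
  have := congrArg (fun a : ι →₀ (ℍ → ℂ) => a j) h0
  change g j = 0 at this
  simp only [g, dif_pos j.2] at this
  exact this

theorem sum_finrank_le (hb : IsGradedBasis N κ m) (s : Finset ι) (k : ℤ) :
    ∑ j ∈ s, finrank ℂ (Rk (k - κ j)) ≤ (k * (Gamma0 N).index).toNat / 12 + 1 := by
  haveI : ∀ j : s, Module.Finite ℂ (Rk (k - κ j)) := fun j => finite_Rk _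
  haveI := finite_Mk N k
  have h1 := LinearMap.finrank_le_finrank_of_injective (comb_injective hb s k)
  rw [Module.finrank_pi_fintype, Finset.sum_coe_sort s (fun j => finrank ℂ (Rk (k - κ j)))] at h1
  exact h1.trans (finrank_Mk_le N k)

/-- **Upper bound**: every finite subfamily of a graded basis has at most `ψ` elements. -/
theorem IsGradedBasis.card_le (hb : IsGradedBasis N κ m) (s : Finset ι) :
    s.card ≤ (Gamma0 N).index := by
  set ψ := (Gamma0 N).index with hψ
  let d : ι → ℕ := fun j => (κ j).toNat / 12 + 1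
  set K := ∑ j ∈ s, d j with hK
  set t := K + 2 with ht
  have key : ∀ j ∈ s, t ≤ finrank ℂ (Rk (((12 * t : ℕ) : ℤ) - κ j)) + d j := by
    intro j hj
    obtain ⟨he, hn⟩ := hb.even_nonneg j
    have hdK : d j ≤ K := Finset.single_le_sum (f := d) (fun _ _ => Nat.zero_le _) hj
    have hc : (κ j).toNat ≤ 12 * t := by
      simp only [d] at hdK
      omega
    have hw : (((12 * t : ℕ) : ℤ) - κ j) = ((12 * t - (κ j).toNat : ℕ) : ℤ) := by
      rw [Nat.cast_sub hc, Int.toNat_of_nonneg hn]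
    have hev : Even (12 * t - (κ j).toNat) := by
      obtain ⟨r, hr⟩ := he
      refine ⟨6 * t - r.toNat, ?_⟩
      omega
    rw [hw]
    have := le_finrank_Rk _ hev
    simp only [d]
    omega
  have h1 := sum_finrank_le hb s ((12 * t : ℕ) : ℤ)
  have h2 : (((12 * t : ℕ) : ℤ) * ((Gamma0 N).index : ℤ)).toNat / 12 + 1 = t * ψ + 1 := by
    have : (((12 * t : ℕ) : ℤ) * (ψ : ℤ)).toNat = 12 * (t * ψ) := by
      rw [← Nat.cast_mul, Int.toNat_natCast]
      ring
    rw [this, Nat.mul_div_cancel_left _ (by norm_num)]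
  rw [h2] at h1
  have h3 : s.card * t ≤ ∑ j ∈ s, finrank ℂ (Rk (((12 * t : ℕ) : ℤ) - κ j)) + K := by
    rw [hK, ← Finset.sum_add_distrib]
    calc s.card * t = ∑ _j ∈ s, t := by simp
      _ ≤ _ := Finset.sum_le_sum key
  by_contra hlt
  rw [not_le] at hlt
  have h4 : (ψ + 1) * t ≤ s.card * t := Nat.mul_le_mul_right t hlt
  have h5 : (ψ + 1) * t = t * ψ + t := by ring
  omega

theorem IsGradedBasis.finite (hb : IsGradedBasis N κ m) : Finite ι := by
  by_contra hinf
  rw [not_finite_iff_infinite] at hinf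
  obtain ⟨s, hs⟩ := Infinite.exists_subset_card_eq ι ((Gamma0 N).index + 1)
  have := hb.card_le s
  omega

theorem IsGradedBasis.natCard_le (hb : IsGradedBasis N κ m) :
    Nat.card ι ≤ (Gamma0 N).index := by
  haveI := hb.finite
  haveI : Fintype ι := Fintype.ofFinite ι
  rw [Nat.card_eq_fintype_card, ← Finset.card_univ]
  exact hb.card_le Finset.univ

end Upper

/-! ### Lower bound and the square basis -/

open scoped Classical

section Lower

variable {N : ℕ} [NeZero N]

theorem cF_sum {Γ : Subgroup SL(2, ℤ)} {k : ℤ} {α : Type*} (s : Finset α) (f : α → ℍ → ℂ)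
    (q : SL(2, ℤ) ⧸ Γ) : cF Γ k (∑ i ∈ s, f i) q = ∑ i ∈ s, cF Γ k (f i) q := by
  classical
  induction s using Finset.induction_on with
  | empty => simp [cF_zero]
  | insert i s hi ih => rw [Finset.sum_insert hi, Finset.sum_insert hi, cF_add, ih]

theorem cF_mul_of_mem {Γ : Subgroup SL(2, ℤ)} {k l : ℤ} {a : ℍ → ℂ} (ha : a ∈ Rk (k - l))
    (f : ℍ → ℂ) (q : SL(2, ℤ) ⧸ Γ) : cF Γ k (a * f) q = a * cF Γ l f q := by
  have := cF_mul (Γ := Γ) (k := l) (l := k - l) (a := a)
    (fun γ => (mem_Mk.mp ha).inv γ (Subgroup.mem_top γ)) f q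
  rwa [sub_add_cancel] at this

variable {ι : Type} [Fintype ι] {κ : ι → ℤ} {m : ι → ℍ → ℂ}

/-- coset family of a combination `∑ a_j m_j` -/
theorem cF_comb {k : ℤ} (a : ι → ℍ → ℂ) (ha : ∀ j, a j ∈ Rk (k - κ j)) (q : X N) (z : ℍ) :
    cF (Gamma0 N) k (∑ j, a j * m j) q z = ∑ j, Phi N κ m z q j * a j z := by
  rw [cF_sum, Finset.sum_apply]
  refine Finset.sum_congr rfl fun j _ => ?_
  rw [cF_mul_of_mem (ha j), Pi.mul_apply, mul_comm]
  rfl

/-- **Lower bound**: a finite graded basis has at least `ψ` elements. -/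
theorem IsGradedBasis.card_ge (hb : IsGradedBasis N κ m) {k : ℤ} {f : X N → ℍ → ℂ}
    (hf : ∀ i, IsMF (Gamma0 N) k (f i)) {z : ℍ}
    (hz : (Matrix.of fun q i => cF (Gamma0 N) k (f i) q z).det ≠ 0) :
    Fintype.card (X N) ≤ Fintype.card ι := by
  classical
  choose a ha1 ha2 using fun i => hb.gen k (f i) (mem_Mk.mpr (hf i))
  have hfi : ∀ i, f i = ∑ j, a i j * m j := by
    intro i
    rw [ha2 i, Finsupp.sum_fintype _ _ (fun j => zero_mul (m j))]
  have hM : (Matrix.of fun q i => cF (Gamma0 N) k (f i) q z) =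
      Phi N κ m z * (Matrix.of fun j i => a i j z) := by
    ext q i
    rw [Matrix.of_apply, Matrix.mul_apply, hfi i, cF_comb (fun j => a i j) (ha1 i)]
    rfl
  have hunit : IsUnit (Matrix.of fun q i => cF (Gamma0 N) k (f i) q z) := by
    rw [Matrix.isUnit_iff_isUnit_det]
    exact isUnit_iff_ne_zero.mpr hz
  have h1 := Matrix.rank_of_isUnit _ hunit
  rw [hM] at h1
  calc Fintype.card (X N) = (Phi N κ m z * (Matrix.of fun j i => a i j z)).rank := h1.symm
    _ ≤ (Phi N κ m z).rank := Matrix.rank_mul_le_left _ _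
    _ ≤ Fintype.card ι := Matrix.rank_le_card_width _

end Lower

section Final

variable (N : ℕ) [NeZero N]

/-- transport a finite graded basis along an equivalence of index types to a `IsHomBasis` -/
theorem IsGradedBasis.isHomBasis {ι : Type} [Fintype ι] {κ : ι → ℤ} {m : ι → ℍ → ℂ}
    (hb : IsGradedBasis N κ m) (e : ι ≃ X N) :
    IsHomBasis N (κ ∘ e.symm) (m ∘ e.symm) := by
  classical
  refine ⟨fun j => mem_Mk.mp (hb.mem _), ?_, ?_⟩
  · intro k f hf
    obtain ⟨a, ha1, ha2⟩ := hb.gen k f (mem_Mk.mpr hf)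
    refine ⟨fun x => a (e.symm x), fun x => mem_Mk.mp (ha1 _), ?_⟩
    rw [ha2, Finsupp.sum_fintype _ _ (fun j => zero_mul (m j))]
    exact (Equiv.sum_comp e.symm (fun j => a j * m j)).symm
  · intro k a ha hsum x
    let abar : ι →₀ (ℍ → ℂ) := Finsupp.equivFunOnFinite.symm (fun j => a (e j))
    have h1 : ∀ j, abar j ∈ Rk (k - κ j) := by
      intro j
      have := ha (e j)
      simp only [Function.comp_apply, Equiv.symm_apply_apply] at this
      exact mem_Mk.mpr this
    have h2 : abar.sum (fun j c => c * m j) = 0 := by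
      rw [Finsupp.sum_fintype _ _ (fun j => zero_mul (m j)), ← hsum,
        ← Equiv.sum_comp e.symm (fun j => abar j * m j)]
      refine Finset.sum_congr rfl fun y _ => ?_
      simp [abar]
    have h3 := hb.free k abar h1 h2
    have := congrArg (fun b : ι →₀ (ℍ → ℂ) => b (e.symm x)) h3
    simpa [abar] using this

/-- **F5 (conditional form)**: from a graded basis (F1/F2) and `ψ` forms of one weight with
somewhere non-vanishing coset determinant (F4), a homogeneous basis indexed by `X N`. -/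
theorem exists_isHomBasis_of
    (hbasis : ∃ (ι : Type) (κ : ι → ℤ) (m : ι → ℍ → ℂ), IsGradedBasis N κ m)
    (hdet : ∃ (k : ℤ) (f : X N → ℍ → ℂ), (∀ i, IsMF (Gamma0 N) k (f i)) ∧
      ∃ z, (Matrix.of fun q i => cF (Gamma0 N) k (f i) q z).det ≠ 0) :
    ∃ (κ : X N → ℤ) (m : X N → ℍ → ℂ), IsHomBasis N κ m := by
  obtain ⟨ι, κ, m, hb⟩ := hbasis
  obtain ⟨k, f, hf, z, hz⟩ := hdet
  haveI := hb.finite
  haveI : Fintype ι := Fintype.ofFinite ι
  have h1 : Fintype.card ι ≤ Fintype.card (X N) := by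
    have := hb.natCard_le
    rwa [Nat.card_eq_fintype_card, Subgroup.index, Nat.card_eq_fintype_card] at this
  have h2 := hb.card_ge hf hz
  exact ⟨_, _, hb.isHomBasis N (Fintype.equivOfCardEq (le_antisymm h1 h2))⟩

/-- The same with the hypothesis in the literal shape of the conclusion of F1
(`exists_homogeneous_basis` for `R = Rk`, `M = Mk (Gamma0 N)`). -/
theorem exists_isHomBasis_of_F1
    (hbasis : ∃ (ι : Type) (κ : ι → ℤ) (m : ι → ℍ → ℂ), (∀ j, m j ∈ Mk (Gamma0 N) (κ j)) ∧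
      (∀ k, {j | κ j = k}.Finite) ∧
      (∀ k, ∀ f ∈ Mk (Gamma0 N) k, ∃ a : ι →₀ (ℍ → ℂ), (∀ j, a j ∈ Rk (k - κ j)) ∧
        f = a.sum (fun j c => c * m j)) ∧
      (∀ k, ∀ a : ι →₀ (ℍ → ℂ), (∀ j, a j ∈ Rk (k - κ j)) →
        a.sum (fun j c => c * m j) = 0 → a = 0))
    (hdet : ∃ (k : ℤ) (f : X N → ℍ → ℂ), (∀ i, IsMF (Gamma0 N) k (f i)) ∧
      ∃ z, (Matrix.of fun q i => cF (Gamma0 N) k (f i) q z).det ≠ 0) :
    ∃ (κ : X N → ℤ) (m : X N → ℍ → ℂ), IsHomBasis N κ m := by
  obtain ⟨ι, κ, m, h1, -, h3, h4⟩ := hbasis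
  exact exists_isHomBasis_of N ⟨ι, κ, m, ⟨h1, h3, h4⟩⟩ hdet

end Final

end Fermat.Agent.M2F.SquareBasis

end
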