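/-
M2F task F7 (helper22): traces at the elliptic points.

For a homogeneous basis `m_j` (weights `κ_j`) of `M_*(Γ₀(N))` over the level-one forms, indexed by
the cosets `X N`, with `Φ(z)` invertible, the equivariance `Φ(δ z) = P_δ Φ(z) diag(denom^κ_j)` at
the fixed points `I` of `S` and `ρ` of `S * T` gives
`#Fix(S) = #{κ ≡ 0 (4)} - #{κ ≡ 2 (4)}`, `#{κ ≡ 2 (6)} = #{κ ≡ 4 (6)}`,
`#Fix(ST) = #{κ ≡ 0 (6)} - #{κ ≡ 4 (6)}`.
-/
import Fermat.Agent.M2F.Defs

set_option autoImplicit false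

open UpperHalfPlane ModularForm MatrixGroups CongruenceSubgroup ModularGroup
open scoped Manifold Topology Classical

namespace Fermat.Agent.M2F.Traces

/-- **Abstract trace lemma.**  If an invertible matrix satisfies `Φ q j = d j * Φ (σ q) j` for a
permutation `σ` of the rows, then the number of fixed points of `σ` is `∑ j, (d j)⁻¹`. -/
theorem ncard_fixedPoints_eq_sum_inv {X : Type*} [Fintype X] [DecidableEq X] (σ : Equiv.Perm X)
    (Φ : Matrix X X ℂ) (hΦ : Φ.det ≠ 0) (d : X → ℂ) (hd : ∀ j, d j ≠ 0)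
    (h : ∀ q j, Φ q j = d j * Φ (σ q) j) :
    ((Function.fixedPoints σ).ncard : ℂ) = ∑ j, (d j)⁻¹ := by
  have hunit : IsUnit Φ.det := isUnit_iff_ne_zero.mpr hΦ
  -- `P Φ D = Φ`
  have h1 : σ.permMatrix ℂ * Φ * Matrix.diagonal d = Φ := by
    ext q j
    rw [Matrix.mul_diagonal, PEquiv.toMatrix_toPEquiv_mul, Matrix.submatrix_apply, id, h q j]
    ring
  have hD : Matrix.diagonal d * Matrix.diagonal (fun j => (d j)⁻¹) = 1 := by
    rw [Matrix.diagonal_mul_diagonal]
    have : (fun i => d i * (d i)⁻¹) = fun _ => (1 : ℂ) := by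
      funext i; exact mul_inv_cancel₀ (hd i)
    rw [this, Matrix.diagonal_one]
  -- `P = Φ D⁻¹ Φ⁻¹`
  have h2 : σ.permMatrix ℂ = Φ * Matrix.diagonal (fun j => (d j)⁻¹) * Φ⁻¹ := by
    have h3 : σ.permMatrix ℂ * Φ = Φ * Matrix.diagonal (fun j => (d j)⁻¹) := by
      calc σ.permMatrix ℂ * Φ = σ.permMatrix ℂ * Φ * (Matrix.diagonal d *
            Matrix.diagonal (fun j => (d j)⁻¹)) := by rw [hD, Matrix.mul_one]
        _ = (σ.permMatrix ℂ * Φ * Matrix.diagonal d) * Matrix.diagonal (fun j => (d j)⁻¹) := by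
            rw [Matrix.mul_assoc _ (Matrix.diagonal d)]
        _ = Φ * Matrix.diagonal (fun j => (d j)⁻¹) := by rw [h1]
    calc σ.permMatrix ℂ = σ.permMatrix ℂ * (Φ * Φ⁻¹) := by
          rw [Matrix.mul_nonsing_inv _ hunit, Matrix.mul_one]
      _ = (σ.permMatrix ℂ * Φ) * Φ⁻¹ := by rw [Matrix.mul_assoc]
      _ = _ := by rw [h3]
  have h4 : Matrix.trace (σ.permMatrix ℂ) = ∑ j, (d j)⁻¹ := by
    rw [h2, Matrix.trace_mul_comm, ← Matrix.mul_assoc, Matrix.nonsing_inv_mul _ hunit,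
      Matrix.one_mul, Matrix.trace_diagonal]
  rw [← h4, Matrix.trace_permutation]

variable {N : ℕ} [NeZero N] {κ : X N → ℤ} {m : X N → ℍ → ℂ}

/-- Equivariance of `Φ`: `Φ(δ z)(q, j) = denom δ z ^ κ_j * Φ(z)(δ⁻¹ q, j)`. -/
theorem Phi_smul (hb : IsHomBasis N κ m) (δ : SL(2, ℤ)) (z : ℍ) (q j : X N) :
    Phi N κ m (δ • z) q j = denom δ z ^ κ j * Phi N κ m z (δ⁻¹ • q) j :=
  cF_smul_apply (hb.mem j).inv q δ z

/-- The basis elements are nonzero. -/
theorem basis_ne_zero (hb : IsHomBasis N κ m) (j : X N) : m j ≠ 0 := by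
  classical
  intro h0
  have h1 : IsMF ⊤ (0 : ℤ) (fun _ : ℍ => (1 : ℂ)) := by
    exact isMF_top_coe (ModularForm.const (1 : ℂ) : ModularForm 𝒮ℒ 0)
  have := hb.free (κ j) (fun i => if i = j then (fun _ : ℍ => (1 : ℂ)) else 0) ?_ ?_ j
  · simp only [if_true] at this
    have := congrFun this I
    simp at this
  · intro i
    by_cases hij : i = j
    · subst hij; simp only [if_true, sub_self]; exact h1
    · simp only [if_neg hij]; exact isMF_zero
  · apply Finset.sum_eq_zero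
    intro i _
    by_cases hij : i = j
    · subst hij; simp [h0]
    · simp [if_neg hij]

/-- All weights of a homogeneous basis are even, because `-1 ∈ Γ₀(N)`. -/
theorem even_weight (hb : IsHomBasis N κ m) (j : X N) : Even (κ j) := by
  by_contra hodd
  rw [Int.not_even_iff_odd] at hodd
  apply basis_ne_zero hb j
  have hneg : (-1 : SL(2, ℤ)) ∈ Gamma0 N := by
    rw [Gamma0_mem]
    simp
  have h := (hb.mem j).inv (-1) hneg
  funext z
  have hz := congrFun h z
  rw [ModularForm.SL_slash_apply] at hz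
  have hd : denom ((-1 : SL(2, ℤ)) : GL (Fin 2) ℝ) z = -1 := by
    rw [ModularGroup.denom_apply]
    simp
  have hsmul : (-1 : SL(2, ℤ)) • z = z := by
    simp
  rw [hd, hsmul, hodd.neg.neg_one_zpow] at hz
  have : m j z = 0 := by linear_combination (-1 / 2 : ℂ) * hz
  simpa using this

/-- `∑ j, ite (p j) a 0 = #{j | p j} * a`. -/
theorem sum_ite_const {ι : Type*} [Fintype ι] (p : ι → Prop) [DecidablePred p] (a : ℂ) :
    ∑ j, (if p j then a else 0) = ((Finset.univ.filter p).card : ℂ) * a := by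
  rw [Finset.sum_ite, Finset.sum_const, Finset.sum_const_zero, add_zero, nsmul_eq_mul]

omit [NeZero N] in
/-- The fixed points of the permutation `q ↦ δ⁻¹ • q` are the points fixed by `δ`. -/
theorem ncard_fixedPoints_toPerm_inv (δ : SL(2, ℤ)) :
    (Function.fixedPoints (MulAction.toPerm (δ⁻¹) : Equiv.Perm (X N))).ncard =
      Nat.card (MulAction.fixedBy (X N) δ) := by
  rw [← Nat.card_coe_set_eq]
  congr 2
  ext q
  simp only [Function.mem_fixedPoints, Function.IsFixedPt, MulAction.toPerm_apply,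
    MulAction.mem_fixedBy]
  rw [inv_smul_eq_iff, eq_comm]

/-- The number of fixed points of `δ` on the cosets, when `δ` fixes `z`, in terms of the
weights. -/
theorem card_fixedBy_eq_sum (hb : IsHomBasis N κ m) (hdet : ∀ z, (Phi N κ m z).det ≠ 0)
    (δ : SL(2, ℤ)) (z : ℍ) (hz : δ • z = z) :
    (Nat.card (MulAction.fixedBy (X N) δ) : ℂ) = ∑ j, (denom δ z ^ κ j)⁻¹ := by
  classical
  rw [← ncard_fixedPoints_toPerm_inv]
  refine ncard_fixedPoints_eq_sum_inv _ (Phi N κ m z) (hdet z) (fun j => denom δ z ^ κ j)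
    (fun j => zpow_ne_zero _ (denom_ne_zero δ z)) ?_
  intro q j
  have := Phi_smul hb δ z q j
  rw [hz] at this
  exact this

/-- **Trace at `i`.** -/
theorem trace_at_I (hb : IsHomBasis N κ m) (hdet : ∀ z, (Phi N κ m z).det ≠ 0) :
    (Nat.card (MulAction.fixedBy (X N) ModularGroup.S) : ℤ) =
      (Finset.univ.filter fun j => κ j % 4 = 0).card -
        (Finset.univ.filter fun j => κ j % 4 = 2).card := by
  have hSI : S • I = I := stabilizer_I.2 (by simp)
  have h := card_fixedBy_eq_sum hb hdet S I hSI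
  have hterm : ∀ j, (denom S I ^ κ j)⁻¹ =
      (if κ j % 4 = 0 then (1 : ℂ) else 0) + (if κ j % 4 = 2 then (-1 : ℂ) else 0) := by
    intro j
    obtain ⟨t, ht⟩ := even_weight hb j
    rw [ModularGroup.denom_S, coe_I, ht, ← two_mul, zpow_mul, zpow_two, Complex.I_mul_I]
    rcases Int.even_or_odd t with he | ho
    · rw [he.neg_one_zpow]
      obtain ⟨s, hs⟩ := he
      have h0 : (2 * t) % 4 = 0 := by omega
      simp [h0]
    · rw [ho.neg_one_zpow]
      obtain ⟨s, hs⟩ := ho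
      have h2 : (2 * t) % 4 = 2 := by omega
      simp [h2]
  rw [Finset.sum_congr rfl (fun j _ => hterm j), Finset.sum_add_distrib, sum_ite_const,
    sum_ite_const] at h
  have h' : ((Nat.card (MulAction.fixedBy (X N) ModularGroup.S) : ℤ) : ℂ) =
      (((Finset.univ.filter fun j => κ j % 4 = 0).card -
        (Finset.univ.filter fun j => κ j % 4 = 2).card : ℤ) : ℂ) := by
    push_cast
    rw [h]; ring
  exact_mod_cast h'

theorem rho_cube : (ρ : ℂ) ^ 3 = 1 := by
  have h := ρ_sq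
  calc (ρ : ℂ) ^ 3 = (ρ : ℂ) * (ρ : ℂ) ^ 2 := by ring
    _ = (ρ : ℂ) * (-ρ - 1) := by rw [h]
    _ = -(ρ : ℂ) ^ 2 - ρ := by ring
    _ = 1 := by rw [h]; ring

theorem rho_ne_zero : (ρ : ℂ) ≠ 0 := by
  intro h
  have := rho_cube
  rw [h] at this
  norm_num at this

theorem rho_im_ne_zero : (ρ : ℂ).im ≠ 0 := by
  have : (ρ : ℂ).im = ρ.im := rfl
  rw [this]
  exact ρ.im_pos.ne'

/-- **Trace at `ρ`.** -/
theorem trace_at_rho (hb : IsHomBasis N κ m) (hdet : ∀ z, (Phi N κ m z).det ≠ 0) :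
    (Finset.univ.filter fun j => κ j % 6 = 2).card =
        (Finset.univ.filter fun j => κ j % 6 = 4).card ∧
    (Nat.card (MulAction.fixedBy (X N) (ModularGroup.S * ModularGroup.T)) : ℤ) =
      (Finset.univ.filter fun j => κ j % 6 = 0).card -
        (Finset.univ.filter fun j => κ j % 6 = 4).card := by
  have hfix : (S * T) • ρ = ρ := stabilizer_ρ.2 (by simp)
  have h := card_fixedBy_eq_sum hb hdet (S * T) ρ hfix
  have hden : denom ((S * T : SL(2, ℤ)) : GL (Fin 2) ℝ) ρ = (ρ : ℂ) + 1 := by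
    rw [ModularGroup.denom_apply]
    have e10 : (S * T : SL(2, ℤ)) 1 0 = 1 := by decide
    have e11 : (S * T : SL(2, ℤ)) 1 1 = 1 := by decide
    rw [e10, e11]
    push_cast
    ring
  have hsq : ((ρ : ℂ) + 1) ^ 2 = ρ := by
    have := ρ_sq
    linear_combination this
  have hρinv : (ρ : ℂ)⁻¹ = -ρ - 1 := by
    rw [← ρ_sq]
    apply inv_eq_of_mul_eq_one_right
    rw [← rho_cube]; ring
  have hρ2 : (ρ : ℂ) ^ (-2 : ℤ) = ρ := by
    rw [zpow_neg, zpow_two, ← pow_two, ρ_sq, ← hρinv, inv_inv]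
  have hperiod : ∀ (s : ℤ) (r : ℤ), (ρ : ℂ) ^ (-(3 * s + r)) = (ρ : ℂ) ^ (-r) := by
    intro s r
    rw [neg_add, zpow_add₀ rho_ne_zero, neg_mul_eq_mul_neg, zpow_mul, zpow_ofNat, rho_cube,
      one_zpow, one_mul]
  have hterm : ∀ j, (denom ((S * T : SL(2, ℤ)) : GL (Fin 2) ℝ) ρ ^ κ j)⁻¹ =
      (if κ j % 6 = 0 then (1 : ℂ) else 0) + (if κ j % 6 = 2 then (-(ρ : ℂ) - 1) else 0) +
        (if κ j % 6 = 4 then (ρ : ℂ) else 0) := by
    intro j
    obtain ⟨t, ht⟩ := even_weight hb j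
    have hκ : κ j = 2 * t := by rw [ht]; ring
    have hL : (denom ((S * T : SL(2, ℤ)) : GL (Fin 2) ℝ) ρ ^ κ j)⁻¹ = (ρ : ℂ) ^ (-t) := by
      rw [hden, hκ, zpow_mul, zpow_two, ← pow_two, hsq, ← zpow_neg]
    rw [hL]
    have ht3 : t % 3 = 0 ∨ t % 3 = 1 ∨ t % 3 = 2 := by omega
    rcases ht3 with h3 | h3 | h3
    · have hts : t = 3 * (t / 3) + 0 := by omega
      have h6a : κ j % 6 = 0 := by omega
      have h6b : ¬ κ j % 6 = 2 := by omega
      have h6c : ¬ κ j % 6 = 4 := by omega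
      rw [if_pos h6a, if_neg h6b, if_neg h6c, hts, hperiod]
      simp
    · have hts : t = 3 * (t / 3) + 1 := by omega
      have h6a : ¬ κ j % 6 = 0 := by omega
      have h6b : κ j % 6 = 2 := by omega
      have h6c : ¬ κ j % 6 = 4 := by omega
      rw [if_neg h6a, if_pos h6b, if_neg h6c, hts, hperiod, zpow_neg, zpow_one, hρinv]
      simp
    · have hts : t = 3 * (t / 3) + 2 := by omega
      have h6a : ¬ κ j % 6 = 0 := by omega
      have h6b : ¬ κ j % 6 = 2 := by omega
      have h6c : κ j % 6 = 4 := by omega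
      rw [if_neg h6a, if_neg h6b, if_pos h6c, hts, hperiod, hρ2]
      simp
  rw [Finset.sum_congr rfl (fun j _ => hterm j), Finset.sum_add_distrib, Finset.sum_add_distrib,
    sum_ite_const, sum_ite_const, sum_ite_const] at h
  set n0 := (Finset.univ.filter fun j => κ j % 6 = 0).card with hn0
  set n2 := (Finset.univ.filter fun j => κ j % 6 = 2).card with hn2
  set n4 := (Finset.univ.filter fun j => κ j % 6 = 4).card with hn4
  set F := Nat.card (MulAction.fixedBy (X N) (ModularGroup.S * ModularGroup.T)) with hF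
  -- imaginary part
  have him := congrArg Complex.im h
  have hre := congrArg Complex.re h
  simp only [Complex.add_im, Complex.mul_im, Complex.natCast_im, Complex.natCast_re,
    Complex.one_im, Complex.one_re, Complex.sub_im, Complex.neg_im, zero_mul, mul_one,
    add_zero, zero_add, sub_zero, Complex.add_re, Complex.mul_re, Complex.sub_re, Complex.neg_re]
    at him hre
  have h24 : (n2 : ℝ) = n4 := by
    have : ((n4 : ℝ) - n2) * (ρ : ℂ).im = 0 := by linarith
    rcases mul_eq_zero.mp this with h1 | h1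
    · linarith
    · exact absurd h1 rho_im_ne_zero
  have h24' : n2 = n4 := by exact_mod_cast h24
  refine ⟨h24', ?_⟩
  have hFr : (F : ℝ) = n0 - n4 := by
    rw [h24] at hre
    linarith
  have : ((F : ℤ) : ℝ) = ((n0 - n4 : ℤ) : ℝ) := by push_cast; exact hFr
  exact_mod_cast this

end Fermat.Agent.M2F.Traces
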