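/-
M2F: assembly of `Final.Inputs N` from the landed pieces (F1, F2, F5, F7, F9) and the
three remaining interface theorems F4, F6, F8(c), taken here as hypotheses.
(helper3)
-/
import Fermat.Agent.M2F.Final
import Fermat.Agent.M2F.SquareBasis
import Fermat.Agent.M2F.Regular
import Fermat.Agent.M2F.Traces
import Fermat.Agent.M2F.Duality

set_option autoImplicit false

open UpperHalfPlane ModularForm MatrixGroups CongruenceSubgroup
open scoped Manifold Topology Classical

namespace Fermat.Agent.M2F.Assemble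

open Fermat.Agent.M2F Finset

/-- All interface theorems from the three open ones. -/
theorem inputs (N : ℕ) [NeZero N]
    (hF4 : ∃ (k : ℤ) (f : X N → ℍ → ℂ), (∀ i, IsMF (Gamma0 N) k (f i)) ∧
      ∃ z, (Matrix.of fun q i => cF (Gamma0 N) k (f i) q z).det ≠ 0)
    (hF6 : ∀ {κ : X N → ℤ} {m : X N → ℍ → ℂ}, IsHomBasis N κ m →
      ∀ z : ℍ, (Phi N κ m z).det ≠ 0)
    (hF8sum : ∀ {κ : X N → ℤ} {m : X N → ℍ → ℂ}, IsHomBasis N κ m →
      ∑ j, κ j = 6 * ((Nat.card (X N) : ℤ) -
        Nat.card (MulAction.orbitRel.Quotient (Subgroup.zpowers ModularGroup.T) (X N))))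
    (hF8cusp : ∀ {κ : X N → ℤ} {m : X N → ℍ → ℂ}, IsHomBasis N κ m → ∀ q j : X N,
      IsZeroAtImInfty (fun z => ModularForm.discriminant z * (Phi N κ m z)⁻¹ j q)) :
    Final.Inputs N where
  basis := SquareBasis.exists_isHomBasis_of_F1 N (Regular.exists_graded_basis N) hF4
  bounds := fun hb j => Duality.weight_bounds' hb (hF6 hb) (hF8cusp hb) j
  zero := fun hb => Duality.card_weight_zero' hb (hF6 hb) (hF8cusp hb)
  traceI := fun hb => Traces.trace_at_I hb (hF6 hb)
  traceRho := fun hb => Traces.trace_at_rho hb (hF6 hb)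
  sumWeights := fun hb => hF8sum hb
  finrankS2 := fun hb => Duality.finrank_Sk_two' hb (hF6 hb) (hF8cusp hb)

end Fermat.Agent.M2F.Assemble
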