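import Mathlib

/-!
# M2F / F8 (a): block discrete Fourier transform along the orbits of a cyclic group

For a group `G`, a subgroup `H` of finite index and `g : G`, the coset space `G ⧸ H` splits into
orbits of `⟨g⟩`, each a cycle `ZMod h`.  The discrete Fourier transform along each cycle gives a
linear automorphism `dftEquiv` of `(G ⧸ H) → ℂ` which diagonalises the translation by `g⁻¹`,
with eigenvalue `exp (2πi · expo x / width x)` at the coordinate `x`.  The exponents satisfy
`∑ expo x / width x = (card (G ⧸ H) - card orbits) / 2`.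
-/

set_option autoImplicit false

open MulAction Subgroup Complex
open scoped Real

namespace Fermat.Agent.M2F.Cusps

variable {G : Type*} [Group G] (H : Subgroup G) [Finite (G ⧸ H)] (g : G)

/-- The orbits of `⟨g⟩` on `G ⧸ H`. -/
abbrev Orb := orbitRel.Quotient (zpowers g) (G ⧸ H)

/-- The length of an orbit. -/
noncomputable def per (q : Orb H g) : ℕ := Function.minimalPeriod (g • ·) q.out

instance instNeZeroPer (q : Orb H g) : NeZero (per H g q) := by
  unfold per; infer_instance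

/-- `G ⧸ H` as the disjoint union of the cycles. -/
noncomputable def eSig : G ⧸ H ≃ Σ q : Orb H g, ZMod (per H g q) :=
  Subgroup.quotientEquivSigmaZMod H g

/-- The width (orbit length) at a coset. -/
noncomputable def width (x : G ⧸ H) : ℕ := per H g (eSig H g x).1

/-- The Fourier exponent at a coset. -/
noncomputable def expo (x : G ⧸ H) : ℕ := ((eSig H g x).2).val

lemma expo_lt_width (x : G ⧸ H) : expo H g x < width H g x := by
  unfold expo width
  exact ZMod.val_lt _

lemma width_pos (x : G ⧸ H) : 0 < width H g x := by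
  unfold width
  exact Nat.pos_of_ne_zero (NeZero.ne _)

omit [Finite (G ⧸ H)] in
lemma eSig_symm_smul (q : Orb H g) (k : ZMod (per H g q)) :
    g • (eSig H g).symm ⟨q, k⟩ = (eSig H g).symm ⟨q, k + 1⟩ := by
  have h1 : (eSig H g).symm ⟨q, k⟩ = g ^ (ZMod.cast k : ℤ) • q.out :=
    Subgroup.quotientEquivSigmaZMod_symm_apply H g q k
  have h2 : eSig H g (g ^ ((ZMod.cast k : ℤ) + 1) • q.out)
      = ⟨q, (((ZMod.cast k : ℤ) + 1 : ℤ) : ZMod (per H g q))⟩ :=
    Subgroup.quotientEquivSigmaZMod_apply H g q _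
  rw [h1, ← mul_smul, ← zpow_one_add, add_comm, ← (eSig H g).symm_apply_apply
    (g ^ ((ZMod.cast k : ℤ) + 1) • q.out), h2]
  congr 2
  simp

omit [Finite (G ⧸ H)] in
lemma eSig_symm_inv_smul (q : Orb H g) (k : ZMod (per H g q)) :
    g⁻¹ • (eSig H g).symm ⟨q, k⟩ = (eSig H g).symm ⟨q, k - 1⟩ := by
  rw [inv_smul_eq_iff, eSig_symm_smul, sub_add_cancel]

/-- The block DFT, as a linear automorphism of `(G ⧸ H) → ℂ`. -/
noncomputable def dftEquiv : ((G ⧸ H) → ℂ) ≃ₗ[ℂ] ((G ⧸ H) → ℂ) :=
  ((LinearEquiv.funCongrLeft ℂ ℂ (eSig H g).symm).trans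
    ((LinearEquiv.piCurry ℂ (fun (q : Orb H g) (_ : ZMod (per H g q)) => ℂ)).trans
      ((LinearEquiv.piCongrRight (fun q : Orb H g =>
        (ZMod.dft (N := per H g q) (E := ℂ)).symm)).trans
        ((LinearEquiv.piCurry ℂ (fun (q : Orb H g) (_ : ZMod (per H g q)) => ℂ)).symm.trans
          (LinearEquiv.funCongrLeft ℂ ℂ (eSig H g).symm).symm))))

lemma dftEquiv_apply (v : (G ⧸ H) → ℂ) (x : G ⧸ H) :
    dftEquiv H g v x = (ZMod.dft (N := per H g (eSig H g x).1) (E := ℂ)).symm
      (fun k => v ((eSig H g).symm ⟨(eSig H g x).1, k⟩)) (eSig H g x).2 := by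
  rfl

/-- The eigenvalue of the translation at the coordinate `x`. -/
lemma stdAddChar_eq_exp (x : G ⧸ H) :
    ZMod.stdAddChar (N := per H g (eSig H g x).1) (eSig H g x).2
      = Complex.exp (2 * π * Complex.I * (expo H g x : ℂ) / (width H g x : ℂ)) := by
  have h := ZMod.stdAddChar_coe (N := per H g (eSig H g x).1) ((expo H g x : ℕ) : ℤ)
  rw [show (((expo H g x : ℕ) : ℤ) : ZMod (per H g (eSig H g x).1)) = (eSig H g x).2 by
    simp [expo]] at h
  rw [h]
  simp [width]

/-- The block DFT diagonalises the translation by `g⁻¹`. -/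
theorem dftEquiv_translate (v : (G ⧸ H) → ℂ) (x : G ⧸ H) :
    dftEquiv H g (fun y => v (g⁻¹ • y)) x
      = Complex.exp (2 * π * Complex.I * (expo H g x : ℂ) / (width H g x : ℂ))
        * dftEquiv H g v x := by
  rw [dftEquiv_apply, dftEquiv_apply, ← stdAddChar_eq_exp]
  set q := (eSig H g x).1
  set r := (eSig H g x).2
  rw [ZMod.invDFT_apply (E := ℂ) (N := per H g q), ZMod.invDFT_apply (E := ℂ) (N := per H g q)]
  simp only [eSig_symm_inv_smul, smul_eq_mul]
  have key : ∑ j : ZMod (per H g q),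
      ZMod.stdAddChar (N := per H g q) (j * r) * v ((eSig H g).symm ⟨q, j - 1⟩)
      = ZMod.stdAddChar (N := per H g q) r * ∑ j : ZMod (per H g q),
        ZMod.stdAddChar (N := per H g q) (j * r) * v ((eSig H g).symm ⟨q, j⟩) := by
    rw [← Equiv.sum_comp (Equiv.addRight (1 : ZMod (per H g q)))
      (fun j => ZMod.stdAddChar (N := per H g q) (j * r) * v ((eSig H g).symm ⟨q, j - 1⟩)),
      Finset.mul_sum]
    refine Finset.sum_congr rfl fun k _ => ?_
    simp only [Equiv.coe_addRight, add_sub_cancel_right]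
    rw [← mul_assoc, ← AddChar.map_add_eq_mul]
    congr 2
    ring
  rw [key]
  ring

/-- Gauss sum over `ZMod n`. -/
lemma sum_val_zmod (n : ℕ) [NeZero n] :
    ∑ r : ZMod n, (r.val : ℚ) = (n : ℚ) * ((n : ℚ) - 1) / 2 := by
  rcases n with _ | k
  · exact absurd rfl (NeZero.ne 0)
  · show ∑ r : Fin (k + 1), ((r : ℕ) : ℚ) = _
    rw [Fin.sum_univ_eq_sum_range (fun i => (i : ℚ)) (k + 1)]
    have : ∀ m : ℕ, ∑ i ∈ Finset.range m, (i : ℚ) = (m : ℚ) * ((m : ℚ) - 1) / 2 := by
      intro m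
      induction m with
      | zero => simp
      | succ m ih => rw [Finset.sum_range_succ, ih]; push_cast; ring
    exact this (k + 1)

/-- The sum of the Fourier exponents. -/
theorem sum_expo_div_width [Fintype (G ⧸ H)] :
    ∑ x : G ⧸ H, (expo H g x : ℚ) / (width H g x : ℚ)
      = ((Nat.card (G ⧸ H) : ℚ) - (Nat.card (Orb H g) : ℚ)) / 2 := by
  let _ : Fintype (Orb H g) := Fintype.ofFinite _
  have h1 : ∑ x : G ⧸ H, (expo H g x : ℚ) / (width H g x : ℚ)
      = ∑ p : (Σ q : Orb H g, ZMod (per H g q)), ((p.2.val : ℚ) / (per H g p.1 : ℚ)) := by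
    refine Fintype.sum_equiv (eSig H g) _ _ fun x => ?_
    simp [expo, width]
  rw [h1, Fintype.sum_sigma]
  have h2 : ∀ q : Orb H g, ∑ r : ZMod (per H g q), ((r.val : ℚ) / (per H g q : ℚ))
      = ((per H g q : ℚ) - 1) / 2 := by
    intro q
    have hne : (per H g q : ℚ) ≠ 0 := by exact_mod_cast NeZero.ne (per H g q)
    rw [← Finset.sum_div, sum_val_zmod]
    field_simp
  simp only [h2]
  rw [← Finset.sum_div, Finset.sum_sub_distrib]
  congr 1
  have h3 : Nat.card (G ⧸ H) = ∑ q : Orb H g, per H g q := by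
    rw [Nat.card_congr (eSig H g), Nat.card_eq_fintype_card, Fintype.card_sigma]
    simp [ZMod.card]
  rw [h3]
  simp [Nat.card_eq_fintype_card]

/-- The matrix of the block DFT. -/
noncomputable def dftMatrix [Fintype (G ⧸ H)] [DecidableEq (G ⧸ H)] :
    Matrix (G ⧸ H) (G ⧸ H) ℂ :=
  LinearMap.toMatrix' (dftEquiv H g : ((G ⧸ H) → ℂ) →ₗ[ℂ] ((G ⧸ H) → ℂ))

lemma dftMatrix_mulVec [Fintype (G ⧸ H)] [DecidableEq (G ⧸ H)] (v : (G ⧸ H) → ℂ) :
    (dftMatrix H g).mulVec v = dftEquiv H g v :=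
  LinearMap.toMatrix'_mulVec _ v

lemma isUnit_det_dftMatrix [Fintype (G ⧸ H)] [DecidableEq (G ⧸ H)] :
    IsUnit (dftMatrix H g).det := by
  rw [dftMatrix, LinearMap.det_toMatrix']
  exact LinearEquiv.isUnit_det' (dftEquiv H g)

end Fermat.Agent.M2F.Cusps
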