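/-
M2F shared file: equivariance, holomorphy and boundedness of the coset determinant
`z ↦ det (Phi N κ m z)`; the product of two coset determinants is a level-one modular form.
(helper3)
-/
import Fermat.Agent.M2F.Defs

set_option autoImplicit false

open UpperHalfPlane ModularForm MatrixGroups CongruenceSubgroup Filter
open scoped Manifold Topology Classical

namespace Fermat.Agent.M2F.DetEquiv

open Fermat.Agent.M2F Matrix

variable {N : ℕ} [NeZero N] {ι : Type} {κ : ι → ℤ} {m : ι → ℍ → ℂ}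

omit [NeZero N] in
/-- Entrywise equivariance of `Phi`. -/
theorem Phi_smul (hinv : ∀ j, ∀ γ ∈ Gamma0 N, m j ∣[κ j] γ = m j) (δ : SL(2, ℤ)) (z : ℍ)
    (q : X N) (j : ι) :
    Phi N κ m (δ • z) q j = denom δ z ^ κ j * Phi N κ m z (δ⁻¹ • q) j := by
  unfold Phi
  exact cF_smul_apply (hinv j) q δ z

omit [NeZero N] in
/-- Matrix form of the equivariance of `Phi`. -/
theorem Phi_smul_eq [Fintype ι] [DecidableEq ι] (hinv : ∀ j, ∀ γ ∈ Gamma0 N, m j ∣[κ j] γ = m j) (δ : SL(2, ℤ))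
    (z : ℍ) :
    Phi N κ m (δ • z) = ((Phi N κ m z).submatrix (fun q => δ⁻¹ • q) id) *
      Matrix.diagonal (fun j => denom δ z ^ κ j) := by
  ext q j
  rw [Matrix.mul_diagonal, Matrix.submatrix_apply, Phi_smul hinv, mul_comm]
  rfl

section square

variable {κ : X N → ℤ} {m : X N → ℍ → ℂ}

/-- The permutation of the cosets induced by `δ⁻¹`. -/
noncomputable def perm (N : ℕ) (δ : SL(2, ℤ)) : Equiv.Perm (X N) := MulAction.toPerm δ⁻¹

/-- Equivariance of the coset determinant. -/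
theorem det_Phi_smul (hinv : ∀ j, ∀ γ ∈ Gamma0 N, m j ∣[κ j] γ = m j) (δ : SL(2, ℤ)) (z : ℍ) :
    (Phi N κ m (δ • z)).det =
      ((Equiv.Perm.sign (perm N δ) : ℤ) : ℂ) * (∏ j, denom δ z ^ κ j) * (Phi N κ m z).det := by
  rw [Phi_smul_eq hinv, Matrix.det_mul, Matrix.det_diagonal]
  have : ((Phi N κ m z).submatrix (fun q => δ⁻¹ • q) id) =
      (Phi N κ m z).submatrix (perm N δ) id := rfl
  rw [this, Matrix.det_permute]
  ring

theorem prod_denom_ne_zero (κ : X N → ℤ) (δ : SL(2, ℤ)) (z : ℍ) :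
    (∏ j, denom δ z ^ κ j) ≠ 0 :=
  Finset.prod_ne_zero_iff.mpr fun _ _ => zpow_ne_zero _ (denom_ne_zero δ z)

theorem sign_ne_zero (δ : SL(2, ℤ)) : (((Equiv.Perm.sign (perm N δ) : ℤˣ) : ℤ) : ℂ) ≠ 0 := by
  norm_cast
  exact Units.ne_zero _

/-- Invertibility of `Phi` is invariant along `SL(2,ℤ)`-orbits. -/
theorem det_Phi_smul_ne_zero_iff (hinv : ∀ j, ∀ γ ∈ Gamma0 N, m j ∣[κ j] γ = m j) (δ : SL(2, ℤ))
    (z : ℍ) : (Phi N κ m (δ • z)).det ≠ 0 ↔ (Phi N κ m z).det ≠ 0 := by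
  rw [det_Phi_smul hinv]
  constructor
  · intro h h0
    exact h (by rw [h0, mul_zero])
  · intro h
    exact mul_ne_zero (mul_ne_zero (sign_ne_zero δ) (prod_denom_ne_zero κ δ z)) h

end square

section analytic

variable {κ : X N → ℤ} {m : X N → ℍ → ℂ}

/-- The coset determinant as a function on `ℍ`. -/
noncomputable def detPhi (N : ℕ) [NeZero N] (κ : X N → ℤ) (m : X N → ℍ → ℂ) : ℍ → ℂ :=
  fun z => (Phi N κ m z).det

theorem detPhi_eq_sum (κ : X N → ℤ) (m : X N → ℍ → ℂ) :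
    detPhi N κ m = ∑ σ : Equiv.Perm (X N), (((Equiv.Perm.sign σ : ℤˣ) : ℤ) : ℂ) •
      ∏ i, cF (Gamma0 N) (κ i) (m i) (σ i) := by
  funext z
  simp only [detPhi, Matrix.det_apply, Phi, Finset.sum_apply, Pi.smul_apply, Finset.prod_apply,
    smul_eq_mul, Units.smul_def, zsmul_eq_mul]

theorem mdiff_detPhi (hmem : ∀ j, IsMF (Gamma0 N) (κ j) (m j)) : MDiff (detPhi N κ m) := by
  rw [detPhi_eq_sum]
  refine MDifferentiable.sum fun σ _ => MDifferentiable.const_smul _ ?_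
  exact MDifferentiable.prod fun i _ => (hmem i).cF_holo _

theorem isBoundedAtImInfty_detPhi (hmem : ∀ j, IsMF (Gamma0 N) (κ j) (m j)) :
    IsBoundedAtImInfty (detPhi N κ m) := by
  rw [detPhi_eq_sum]
  refine (Filter.boundedFilterSubmodule ℂ atImInfty).sum_mem fun σ _ => ?_
  refine (Filter.boundedFilterSubmodule ℂ atImInfty).smul_mem _ ?_
  exact Filter.BoundedAtFilter.prod _ fun i _ => (hmem i).cF_bdd _

theorem detPhi_smul (hmem : ∀ j, IsMF (Gamma0 N) (κ j) (m j)) (δ : SL(2, ℤ)) (z : ℍ) :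
    detPhi N κ m (δ • z) =
      ((Equiv.Perm.sign (perm N δ) : ℤ) : ℂ) * (∏ j, denom δ z ^ κ j) * detPhi N κ m z :=
  det_Phi_smul (fun j => (hmem j).inv) δ z

theorem prod_zpow_eq {ι : Type*} (a : ℂ) (ha : a ≠ 0) (s : Finset ι) (κ : ι → ℤ) :
    ∏ j ∈ s, a ^ κ j = a ^ ∑ j ∈ s, κ j := by
  induction s using Finset.induction_on with
  | empty => simp
  | insert x s hx ih => rw [Finset.prod_insert hx, Finset.sum_insert hx, zpow_add₀ ha, ih]

theorem prod_denom_zpow (κ : X N → ℤ) (δ : SL(2, ℤ)) (z : ℍ) :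
    (∏ j, denom δ z ^ κ j) = denom δ z ^ (∑ j, κ j) :=
  prod_zpow_eq _ (denom_ne_zero δ z) _ _

/-- **The determinant lemma.** The product of two coset determinants is a level-one modular form
of weight `∑ κ + ∑ κ'`. -/
theorem isMF_detPhi_mul_detPhi {κ' : X N → ℤ} {m' : X N → ℍ → ℂ}
    (hmem : ∀ j, IsMF (Gamma0 N) (κ j) (m j)) (hmem' : ∀ j, IsMF (Gamma0 N) (κ' j) (m' j)) :
    IsMF ⊤ (∑ j, κ j + ∑ j, κ' j) (detPhi N κ m * detPhi N κ' m') := by
  rw [isMF_top_iff]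
  refine ⟨(mdiff_detPhi hmem).mul (mdiff_detPhi hmem'), fun δ => ?_,
    (isBoundedAtImInfty_detPhi hmem).mul (isBoundedAtImInfty_detPhi hmem')⟩
  ext z
  rw [ModularForm.SL_slash_apply, Pi.mul_apply, Pi.mul_apply, detPhi_smul hmem, detPhi_smul hmem',
    prod_denom_zpow, prod_denom_zpow]
  have hd : denom δ z ≠ 0 := denom_ne_zero δ z
  have hs : (((Equiv.Perm.sign (perm N δ) : ℤˣ) : ℤ) : ℂ) * (((Equiv.Perm.sign (perm N δ) : ℤˣ) : ℤ) : ℂ)
      = 1 := by
    norm_cast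
    rw [Int.units_mul_self]
    rfl
  rw [neg_add, zpow_add₀ hd, _root_.zpow_neg, _root_.zpow_neg]
  have h1 := zpow_ne_zero (∑ j, κ j) hd
  have h2 := zpow_ne_zero (∑ j, κ' j) hd
  field_simp
  linear_combination (detPhi N κ m z * detPhi N κ' m' z) * hs

end analytic

end Fermat.Agent.M2F.DetEquiv
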