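/-
M2F shared file: level-one facts in the `IsMF ⊤` language:
negative weight ⇒ zero, weight zero ⇒ constant, cusp form ⇒ divisible by `Δ`,
nowhere vanishing ⇒ constant multiple of a power of `Δ`.
(helper3)
-/
import Fermat.Agent.M2F.Defs
import Fermat.Agent.M2.LevelOnePoly

set_option autoImplicit false

open UpperHalfPlane ModularForm MatrixGroups CongruenceSubgroup Filter
open scoped Manifold Topology

namespace Fermat.Agent.M2F.LevelOne

open Fermat.Agent.M2F Fermat.Agent.M2

local notation "Δ" => ModularForm.discriminant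

variable {k : ℤ} {F : ℍ → ℂ}

/-- Level-one forms of negative weight vanish. -/
theorem eq_zero_of_weight_neg (hF : IsMF ⊤ k F) (hk : k < 0) : F = 0 :=
  ModularFormClass.levelOne_neg_weight_eq_zero hk (toLevelOne hF)

/-- Level-one forms of weight zero are constant. -/
theorem exists_eq_const_of_weight_zero (hF : IsMF ⊤ 0 F) : ∃ c : ℂ, F = fun _ => c := by
  obtain ⟨c, hc⟩ := ModularFormClass.levelOne_weight_zero_const (toLevelOne hF)
  exact ⟨c, hc⟩

/-- A level-one form has a limit at `i∞`. -/
theorem exists_tendsto (hF : IsMF ⊤ k F) : ∃ c : ℂ, Tendsto F atImInfty (𝓝 c) :=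
  ⟨_, LevelOnePoly.tendsto_atImInfty_coeff_zero (toLevelOne hF)⟩

/-- Bundle a level-one cusp form. -/
noncomputable def toLevelOneCusp (hF : IsCF ⊤ k F) : CuspForm 𝒮ℒ k where
  toFun := F
  slash_action_eq' := fun _ ⟨γ, hγ⟩ ↦ hγ ▸ hF.inv γ (Subgroup.mem_top γ)
  holo' := hF.holo
  zero_at_cusps' {c} hc := by
    rw [Subgroup.IsArithmetic.isCusp_iff_isCusp_SL2Z] at hc
    rw [OnePoint.isZeroAt_iff_forall_SL2Z hc]
    exact fun γ _ => hF.zero γ

/-- A level-one form tending to `0` at `i∞` is a cusp form. -/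
theorem isCF_of_tendsto_zero (hF : IsMF ⊤ k F) (h0 : Tendsto F atImInfty (𝓝 0)) : IsCF ⊤ k F :=
  ⟨hF.holo, hF.inv, fun γ => by rw [hF.inv γ (Subgroup.mem_top γ)]; exact h0⟩

/-- A level-one cusp form is divisible by `Δ`. -/
theorem exists_eq_discriminant_mul (hF : IsCF ⊤ k F) :
    ∃ F' : ℍ → ℂ, IsMF ⊤ (k - 12) F' ∧ F = (Δ : ℍ → ℂ) * F' := by
  refine ⟨⇑(CuspForm.discriminantEquiv (toLevelOneCusp hF)), isMF_top_coe _, ?_⟩
  exact (ModularForm.discriminant_mul_discriminantEquiv (toLevelOneCusp hF)).symm

/-- **Nowhere vanishing level-one forms** are constant multiples of powers of `Δ`. -/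
theorem exists_eq_const_mul_discriminant_pow (hF : IsMF ⊤ k F) (hne : ∀ z, F z ≠ 0) :
    ∃ (a : ℕ) (c : ℂ), c ≠ 0 ∧ k = 12 * a ∧ F = c • ((Δ : ℍ → ℂ) ^ a) := by
  induction hn : k.toNat using Nat.strong_induction_on generalizing k F with
  | _ n ih =>
    obtain ⟨c0, hc0⟩ := exists_tendsto hF
    have hk0 : 0 ≤ k := by
      by_contra hk
      have := eq_zero_of_weight_neg hF (not_le.mp hk)
      exact hne UpperHalfPlane.I (by rw [this]; rfl)
    by_cases hc : c0 = 0
    · -- cusp form: divide by `Δ`
      subst hc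
      obtain ⟨F', hF', hFF'⟩ := exists_eq_discriminant_mul (isCF_of_tendsto_zero hF hc0)
      have hne' : ∀ z, F' z ≠ 0 := by
        intro z hz
        apply hne z
        rw [hFF', Pi.mul_apply, hz, mul_zero]
      have hk12 : 12 ≤ k := by
        by_contra hk
        have := eq_zero_of_weight_neg hF' (by omega)
        exact hne' UpperHalfPlane.I (by rw [this]; rfl)
      obtain ⟨a, c, hc, hka, hFa⟩ := ih (k - 12).toNat (by omega) hF' hne' rfl
      refine ⟨a + 1, c, hc, by push_cast; omega, ?_⟩
      rw [hFF', hFa, pow_succ]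
      ext z
      simp only [Pi.mul_apply, Pi.smul_apply, Pi.pow_apply, smul_eq_mul]
      ring
    · -- nonzero limit: `1 / F` is a level-one form of weight `-k`
      have hG : IsMF ⊤ (0 - k) ((1 : ℍ → ℂ) / F) := by
        rw [isMF_top_iff]
        refine ⟨mdifferentiable_const.div hF.holo hne, fun γ => ?_, ?_⟩
        · rw [ModularForm.div_slash_SL2, hF.inv γ (Subgroup.mem_top γ),
            ModularForm.is_invariant_one]
        · have : Tendsto ((1 : ℍ → ℂ) / F) atImInfty (𝓝 (1 / c0)) := by
            have h1 := hc0.inv₀ hc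
            refine (h1.congr fun z => ?_).mono_right (by rw [one_div])
            simp [one_div]
          exact this.isBigO_one ℝ
      have hk' : k = 0 := by
        by_contra hk
        have hkpos : 0 < k := lt_of_le_of_ne hk0 (Ne.symm hk)
        have := eq_zero_of_weight_neg hG (by omega)
        have h1 := congrFun this UpperHalfPlane.I
        simp only [Pi.div_apply, Pi.one_apply, Pi.zero_apply, one_div, inv_eq_zero] at h1
        exact hne _ h1
      subst hk'
      obtain ⟨c, hcF⟩ := exists_eq_const_of_weight_zero hF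
      refine ⟨0, c, ?_, by simp, ?_⟩
      · intro h0
        exact hne UpperHalfPlane.I (by rw [hcF, h0])
      · rw [hcF]
        ext z
        simp

end Fermat.Agent.M2F.LevelOne
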