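/-
M2F / F8 (c), part 3: from the block-DFT factorisation `U Φ(z) = diag(exp(2πi θ_x z)) B(z)` with
`B(z) → B(∞)`, `det B(∞) ≠ 0`, to the sum of the weights and the decay of `Δ · Φ⁻¹`.
(helper3)
-/
import Fermat.Agent.M2F.Defs
import Fermat.Agent.M2F.DetEquiv
import Fermat.Agent.M2F.Nonvanishing

set_option autoImplicit false

open UpperHalfPlane ModularForm MatrixGroups CongruenceSubgroup Filter
open scoped Manifold Topology Classical Real

namespace Fermat.Agent.M2F.CuspsEnd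

open Fermat.Agent.M2F Matrix

local notation "Δ" => ModularForm.discriminant

/-! ### Exponentials along `atImInfty` -/

lemma tendsto_im_atImInfty : Tendsto (fun z : ℍ => z.im) atImInfty atTop :=
  tendsto_comap

/-- `‖exp(2πi r z)‖ = exp(-2π r Im z)`. -/
lemma norm_cexp_mul (r : ℝ) (z : ℍ) :
    ‖Complex.exp (2 * π * Complex.I * r * z)‖ = Real.exp (-(2 * π * r) * z.im) := by
  rw [Complex.norm_exp]
  congr 1
  simp [Complex.mul_re, Complex.mul_im]

/-- `exp(2πi r z) → 0` at `i∞` for `r > 0`. -/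
lemma tendsto_cexp_mul_zero {r : ℝ} (hr : 0 < r) :
    Tendsto (fun z : ℍ => Complex.exp (2 * π * Complex.I * r * z)) atImInfty (𝓝 0) := by
  rw [tendsto_zero_iff_norm_tendsto_zero]
  simp only [norm_cexp_mul]
  have h1 : Tendsto (fun z : ℍ => -(2 * π * r) * z.im) atImInfty atBot := by
    have : 0 < 2 * π * r := by positivity
    have h2 := tendsto_neg_atTop_atBot.comp (tendsto_im_atImInfty.const_mul_atTop this)
    refine h2.congr fun z => ?_
    simp only [Function.comp_apply]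
    ring
  exact Real.tendsto_exp_atBot.comp h1

/-- If `exp(r · Im z)` has a nonzero finite limit at `i∞`, then `r = 0`. -/
lemma eq_zero_of_tendsto_exp {r ℓ : ℝ} (hℓ : ℓ ≠ 0)
    (h : Tendsto (fun z : ℍ => Real.exp (r * z.im)) atImInfty (𝓝 ℓ)) : r = 0 := by
  rcases lt_trichotomy r 0 with hr | hr | hr
  · have h0 : Tendsto (fun z : ℍ => Real.exp (r * z.im)) atImInfty (𝓝 0) :=
      Real.tendsto_exp_atBot.comp (tendsto_im_atImInfty.const_mul_atTop_of_neg hr)
    exact absurd (tendsto_nhds_unique h h0) hℓ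
  · exact hr
  · have h0 : Tendsto (fun z : ℍ => Real.exp (r * z.im)) atImInfty atTop :=
      Real.tendsto_exp_atTop.comp (tendsto_im_atImInfty.const_mul_atTop hr)
    exact absurd h (not_tendsto_nhds_of_tendsto_atTop h0 ℓ)

/-- `Δ(z) = exp(2πi z) · P(z)` with `P → 1` at `i∞`. -/
lemma exists_discriminant_eq : ∃ P : ℍ → ℂ, Tendsto P atImInfty (𝓝 1) ∧
    ∀ z : ℍ, Δ z = Complex.exp (2 * π * Complex.I * z) * P z := by
  refine ⟨fun z => ∏' n, (1 - ModularForm.eta_q n z) ^ 24,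
    ModularForm.tendsto_atImInfty_tprod_one_sub_eta_q_pow, fun z => ?_⟩
  rw [ModularForm.discriminant_eq_q_prod]
  congr 1
  simp [Function.Periodic.qParam]

/-- `Δ(z) · exp(-2πi θ z) → 0` at `i∞` for `θ < 1`. -/
lemma tendsto_discriminant_mul_cexp {θ : ℝ} (hθ : θ < 1) :
    Tendsto (fun z : ℍ => Δ z * Complex.exp (-(2 * π * Complex.I * θ * z))) atImInfty (𝓝 0) := by
  obtain ⟨P, hP, hΔ⟩ := exists_discriminant_eq
  have h1 : Tendsto (fun z : ℍ => Complex.exp (2 * π * Complex.I * ((1 - θ : ℝ) : ℂ) * z) * P z)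
      atImInfty (𝓝 (0 * 1)) := (tendsto_cexp_mul_zero (by linarith)).mul hP
  rw [zero_mul] at h1
  refine h1.congr fun z => ?_
  rw [hΔ z, mul_right_comm (Complex.exp _) (P z), ← Complex.exp_add]
  congr 2
  push_cast
  ring

/-! ### The interface -/

/-- The block-DFT factorisation of `Φ` at the cusp `i∞`:
`U Φ(z) = diag(exp(2πi θ_x z)) B(z)` with `B(z) → B(∞)` invertible. -/
structure IsCuspData (N : ℕ) [NeZero N] (κ : X N → ℤ) (m : X N → ℍ → ℂ)
    (U : Matrix (X N) (X N) ℂ) (θ : X N → ℝ) (B : ℍ → Matrix (X N) (X N) ℂ)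
    (Binf : Matrix (X N) (X N) ℂ) : Prop where
  hU : IsUnit U.det
  hθ1 : ∀ x, θ x < 1
  hsum : ∑ x, θ x = ((Nat.card (X N) : ℝ) - (Nat.card
    (MulAction.orbitRel.Quotient (Subgroup.zpowers ModularGroup.T) (X N)) : ℝ)) / 2
  hfact : ∀ (z : ℍ) (x j : X N),
    (U * Phi N κ m z) x j = Complex.exp (2 * π * Complex.I * θ x * z) * B z x j
  hlim : ∀ x j, Tendsto (fun z => B z x j) atImInfty (𝓝 (Binf x j))
  hdet : Binf.det ≠ 0

variable {N : ℕ} [NeZero N] {κ : X N → ℤ} {m : X N → ℍ → ℂ}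
  {U : Matrix (X N) (X N) ℂ} {θ : X N → ℝ} {B : ℍ → Matrix (X N) (X N) ℂ}
  {Binf : Matrix (X N) (X N) ℂ}

namespace IsCuspData

lemma fact_eq (h : IsCuspData N κ m U θ B Binf) (z : ℍ) :
    U * Phi N κ m z =
      Matrix.diagonal (fun x => Complex.exp (2 * π * Complex.I * θ x * z)) * B z := by
  ext x j
  rw [h.hfact, Matrix.diagonal_mul]

lemma tendsto_B (h : IsCuspData N κ m U θ B Binf) : Tendsto B atImInfty (𝓝 Binf) := by
  refine tendsto_pi_nhds.mpr fun x => tendsto_pi_nhds.mpr fun j => ?_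
  exact h.hlim x j

lemma tendsto_det_B (h : IsCuspData N κ m U θ B Binf) :
    Tendsto (fun z => (B z).det) atImInfty (𝓝 Binf.det) :=
  ((continuous_id.matrix_det).tendsto Binf).comp h.tendsto_B

lemma det_eq (h : IsCuspData N κ m U θ B Binf) (z : ℍ) :
    U.det * (Phi N κ m z).det =
      Complex.exp (2 * π * Complex.I * ((∑ x, θ x : ℝ) : ℂ) * z) * (B z).det := by
  rw [← Matrix.det_mul, h.fact_eq, Matrix.det_mul, Matrix.det_diagonal, ← Complex.exp_sum]
  congr 2
  push_cast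
  rw [Finset.mul_sum, Finset.sum_mul]

end IsCuspData

/-- **F8 (c), first half**: the sum of the weights of a homogeneous basis. -/
theorem sum_weights_of (hb : IsHomBasis N κ m) (hdet : ∀ z, (Phi N κ m z).det ≠ 0)
    (h : IsCuspData N κ m U θ B Binf) :
    ∑ j, κ j = 6 * ((Nat.card (X N) : ℤ) -
      Nat.card (MulAction.orbitRel.Quotient (Subgroup.zpowers ModularGroup.T) (X N))) := by
  set W := DetEquiv.detPhi N κ m with hW
  have hWW : IsMF ⊤ (∑ j, κ j + ∑ j, κ j) (W * W) :=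
    DetEquiv.isMF_detPhi_mul_detPhi hb.mem hb.mem
  have hne : ∀ z, (W * W) z ≠ 0 := fun z => mul_ne_zero (hdet z) (hdet z)
  obtain ⟨a, c0, hc0, hKa, hWa⟩ := LevelOne.exists_eq_const_mul_discriminant_pow hWW hne
  obtain ⟨P, hP, hΔ⟩ := exists_discriminant_eq
  set Θ : ℝ := ∑ x, θ x with hΘ
  -- the key identity
  have key : ∀ z : ℍ, Complex.exp (2 * π * Complex.I * ((a - 2 * Θ : ℝ) : ℂ) * z) *
      (U.det ^ 2 * c0 * P z ^ a) = (B z).det ^ 2 := by
    intro z
    have h1 := h.det_eq z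
    have h2 : (W * W) z = c0 * Δ z ^ a := by rw [hWa]; simp
    have h3 : (W * W) z = (Phi N κ m z).det ^ 2 := by simp [hW, DetEquiv.detPhi, sq]
    have h4 : U.det ^ 2 * (c0 * Δ z ^ a) =
        Complex.exp (2 * π * Complex.I * ((2 * Θ : ℝ) : ℂ) * z) * (B z).det ^ 2 := by
      rw [← h2, h3, ← mul_pow, h1, mul_pow, ← Complex.exp_nat_mul]
      congr 2
      rw [hΘ]
      push_cast
      ring
    rw [hΔ z, mul_pow, ← Complex.exp_nat_mul] at h4
    have h5 : Complex.exp (2 * π * Complex.I * ((a - 2 * Θ : ℝ) : ℂ) * z) =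
        Complex.exp (a * (2 * π * Complex.I * z)) *
          (Complex.exp (2 * π * Complex.I * ((2 * Θ : ℝ) : ℂ) * z))⁻¹ := by
      rw [← Complex.exp_neg, ← Complex.exp_add]
      congr 1
      push_cast
      ring
    rw [h5]
    have h6 : Complex.exp (2 * π * Complex.I * ((2 * Θ : ℝ) : ℂ) * z) ≠ 0 := Complex.exp_ne_zero _
    generalize Complex.exp ((a : ℂ) * (2 * π * Complex.I * z)) = E1 at h4 ⊢
    generalize Complex.exp (2 * π * Complex.I * ((2 * Θ : ℝ) : ℂ) * z) = E2 at h4 h6 ⊢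
    field_simp
    linear_combination h4
  -- take norms
  have hD : Tendsto (fun z : ℍ => ‖U.det ^ 2 * c0 * P z ^ a‖) atImInfty
      (𝓝 ‖U.det ^ 2 * c0 * 1 ^ a‖) :=
    ((tendsto_const_nhds.mul (hP.pow a))).norm
  have hE : Tendsto (fun z : ℍ => ‖(B z).det ^ 2‖) atImInfty (𝓝 ‖Binf.det ^ 2‖) :=
    (h.tendsto_det_B.pow 2).norm
  have hd : ‖U.det ^ 2 * c0 * 1 ^ a‖ ≠ 0 := by
    rw [one_pow, mul_one, norm_ne_zero_iff]
    exact mul_ne_zero (pow_ne_zero _ h.hU.ne_zero) hc0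
  have he : ‖Binf.det ^ 2‖ ≠ 0 := by
    rw [norm_ne_zero_iff]
    exact pow_ne_zero _ h.hdet
  have hquot := hE.div hD hd
  have hev : ∀ᶠ z : ℍ in atImInfty, ‖U.det ^ 2 * c0 * P z ^ a‖ ≠ 0 :=
    hD.eventually_ne hd
  have hexp : Tendsto (fun z : ℍ => Real.exp (-(2 * π * (a - 2 * Θ)) * z.im)) atImInfty
      (𝓝 (‖Binf.det ^ 2‖ / ‖U.det ^ 2 * c0 * 1 ^ a‖)) := by
    refine hquot.congr' ?_
    filter_upwards [hev] with z hz
    have := congrArg norm (key z)
    rw [norm_mul, norm_cexp_mul] at this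
    simp only [Pi.div_apply]
    rw [← this]
    field_simp
  have hr := eq_zero_of_tendsto_exp (div_ne_zero he hd) hexp
  have ha : (a : ℝ) = 2 * Θ := by
    have : 2 * π * ((a : ℝ) - 2 * Θ) = 0 := by linarith
    have hpi : (2 * π : ℝ) ≠ 0 := by positivity
    have := (mul_eq_zero.mp this).resolve_left hpi
    linarith
  have ha' : (a : ℤ) = (Nat.card (X N) : ℤ) -
      Nat.card (MulAction.orbitRel.Quotient (Subgroup.zpowers ModularGroup.T) (X N)) := by
    have : (a : ℝ) = (Nat.card (X N) : ℝ) - (Nat.card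
        (MulAction.orbitRel.Quotient (Subgroup.zpowers ModularGroup.T) (X N)) : ℝ) := by
      rw [ha, hΘ, h.hsum]
      ring
    exact_mod_cast this
  rw [← ha']
  linarith

namespace IsCuspData

/-- `B(z)` is invertible whenever `Φ(z)` is. -/
lemma det_B_ne_zero (h : IsCuspData N κ m U θ B Binf) {z : ℍ} (hz : (Phi N κ m z).det ≠ 0) :
    (B z).det ≠ 0 := by
  intro h0
  have := h.det_eq z
  rw [h0, mul_zero] at this
  exact (mul_ne_zero h.hU.ne_zero hz) this

/-- `Φ(z)⁻¹ = B(z)⁻¹ diag(exp(-2πi θ_x z)) U`. -/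
lemma inv_Phi_eq (h : IsCuspData N κ m U θ B Binf) (z : ℍ) :
    (Phi N κ m z)⁻¹ = (B z)⁻¹ *
      Matrix.diagonal (fun x => Complex.exp (-(2 * π * Complex.I * θ x * z))) * U := by
  have h1 : Phi N κ m z = U⁻¹ * (Matrix.diagonal
      (fun x => Complex.exp (2 * π * Complex.I * θ x * z)) * B z) := by
    rw [← h.fact_eq, ← Matrix.mul_assoc, Matrix.nonsing_inv_mul _ h.hU, Matrix.one_mul]
  have h2 : (Matrix.diagonal (fun x => Complex.exp (2 * π * Complex.I * θ x * z)))⁻¹ =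
      Matrix.diagonal (fun x => Complex.exp (-(2 * π * Complex.I * θ x * z))) := by
    apply Matrix.inv_eq_right_inv
    rw [Matrix.diagonal_mul_diagonal]
    simp [← Complex.exp_add]
  rw [h1, Matrix.mul_inv_rev, Matrix.mul_inv_rev, Matrix.nonsing_inv_nonsing_inv _ h.hU, h2]

lemma tendsto_inv_B (h : IsCuspData N κ m U θ B Binf) :
    Tendsto (fun z => (B z)⁻¹) atImInfty (𝓝 Binf⁻¹) := by
  have hc : ContinuousAt Ring.inverse Binf.det := by
    have : (Ring.inverse : ℂ → ℂ) = Inv.inv := by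
      funext x
      exact Ring.inverse_eq_inv x
    rw [this]
    exact continuousAt_inv₀ h.hdet
  exact (continuousAt_matrix_inv Binf hc).tendsto.comp h.tendsto_B

end IsCuspData

/-- **F8 (c), second half**: `Δ · Φ⁻¹ → 0` at `i∞`. -/
theorem isZeroAtImInfty_discriminant_mul_inv_of (h : IsCuspData N κ m U θ B Binf)
    (q j : X N) :
    IsZeroAtImInfty (fun z => ModularForm.discriminant z * (Phi N κ m z)⁻¹ j q) := by
  have hentry : ∀ z : ℍ, Δ z * (Phi N κ m z)⁻¹ j q =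
      ∑ x, (B z)⁻¹ j x * (Δ z * Complex.exp (-(2 * π * Complex.I * θ x * z))) * U x q := by
    intro z
    rw [h.inv_Phi_eq, Matrix.mul_apply, Finset.mul_sum]
    refine Finset.sum_congr rfl fun x _ => ?_
    rw [Matrix.mul_diagonal]
    ring
  have hlim : Tendsto (fun z : ℍ => ∑ x, (B z)⁻¹ j x *
      (Δ z * Complex.exp (-(2 * π * Complex.I * θ x * z))) * U x q) atImInfty
      (𝓝 (∑ x, Binf⁻¹ j x * 0 * U x q)) := by
    refine tendsto_finset_sum _ fun x _ => ?_
    refine Tendsto.mul (Tendsto.mul ?_ (tendsto_discriminant_mul_cexp (h.hθ1 x)))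
      tendsto_const_nhds
    have := h.tendsto_inv_B
    exact ((continuous_apply x).tendsto _).comp (((continuous_apply j).tendsto _).comp this)
  simp only [mul_zero, zero_mul, Finset.sum_const_zero] at hlim
  exact hlim.congr fun z => (hentry z).symm

end Fermat.Agent.M2F.CuspsEnd
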