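/-
M2F / F3 : level-one zeros package.

* `E₆ I = 0`, `E₄ ρ = 0`; zeros of `E₆` (resp. `E₄`) form one `SL(2,ℤ)`-orbit and are simple;
* for `z₀` with `E₄ z₀ ≠ 0 ≠ E₆ z₀`, the level-one form `gen z₀ = Δ(z₀) E₄³ - E₄(z₀)³ Δ` has simple
  zeros exactly on the orbit of `z₀`;
* division lemmas: a modular form vanishing on the orbit is divisible by the corresponding
  level-one form inside `M_*(Γ)`.
(helper3)
-/
import Fermat.Agent.M2F.Defs
import Fermat.Agent.M2.JDeriv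
import Fermat.Agent.M2.JOrder
import Fermat.Agent.M2.HolDiv

set_option autoImplicit false

open UpperHalfPlane ModularForm MatrixGroups CongruenceSubgroup EisensteinSeries Filter Derivative
open scoped Manifold Topology

namespace Fermat.Agent.M2F.Zeros

open Fermat.Agent.M2 Fermat.Agent.M2F

local notation "Δ" => ModularForm.discriminant

/-! ### Generalities on orders of functions on `ℍ` -/

/-- The order of vanishing of a function on `ℍ` at a point. -/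
noncomputable def ord (F : ℍ → ℂ) (z : ℍ) : ℕ∞ := analyticOrderAt (F ∘ ofComplex) (z : ℂ)

lemma analyticAt_comp_ofComplex {F : ℍ → ℂ} (hF : MDiff F) (z : ℍ) :
    AnalyticAt ℂ (F ∘ ofComplex) (z : ℂ) :=
  (UpperHalfPlane.mdifferentiable_iff.mp hF).analyticAt
    (isOpen_upperHalfPlaneSet.mem_nhds z.im_pos)

lemma ord_mul {F G : ℍ → ℂ} (hF : MDiff F) (hG : MDiff G) (z : ℍ) :
    ord (F * G) z = ord F z + ord G z :=
  analyticOrderAt_mul (analyticAt_comp_ofComplex hF z) (analyticAt_comp_ofComplex hG z)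

lemma ord_pow {F : ℍ → ℂ} (hF : MDiff F) (n : ℕ) (z : ℍ) : ord (F ^ n) z = n • ord F z :=
  analyticOrderAt_pow (analyticAt_comp_ofComplex hF z) n

lemma ord_eq_zero {F : ℍ → ℂ} (hF : MDiff F) {z : ℍ} (h : F z ≠ 0) : ord F z = 0 := by
  rw [ord, (analyticAt_comp_ofComplex hF z).analyticOrderAt_eq_zero]
  simpa using h

lemma one_le_ord {F : ℍ → ℂ} (hF : MDiff F) {z : ℍ} (h : F z = 0) : 1 ≤ ord F z := by
  rw [Order.one_le_iff_ne_zero, ord, analyticOrderAt_ne_zero]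
  exact ⟨analyticAt_comp_ofComplex hF z, by simpa using h⟩

lemma ord_neg (F : ℍ → ℂ) (z : ℍ) : ord (-F) z = ord F z := by
  unfold ord
  exact analyticOrderAt_neg

/-! ### Basic level-one facts -/

lemma mdiff_E₄ : MDiff (E₄ : ℍ → ℂ) := ModularFormClass.holo E₄
lemma mdiff_E₆ : MDiff (E₆ : ℍ → ℂ) := ModularFormClass.holo E₆
lemma mdiff_Δ : MDiff (Δ : ℍ → ℂ) := CuspForm.discriminant.holo'

lemma E₆_smul (γ : SL(2, ℤ)) (z : ℍ) : E₆ (γ • z) = denom γ z ^ (6 : ℤ) * E₆ z := by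
  have h : (Matrix.SpecialLinearGroup.mapGL ℝ γ : GL (Fin 2) ℝ) ∈ 𝒮ℒ := ⟨γ, rfl⟩
  exact SlashInvariantForm.slash_action_eqn'' E₆ h z

lemma E₄_smul_eq_zero_iff (γ : SL(2, ℤ)) (z : ℍ) : E₄ (γ • z) = 0 ↔ E₄ z = 0 := by
  rw [JOrder.E₄_smul, mul_eq_zero, or_iff_right (zpow_ne_zero _ (denom_ne_zero γ z))]

lemma E₆_smul_eq_zero_iff (γ : SL(2, ℤ)) (z : ℍ) : E₆ (γ • z) = 0 ↔ E₆ z = 0 := by
  rw [E₆_smul, mul_eq_zero, or_iff_right (zpow_ne_zero _ (denom_ne_zero γ z))]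

/-- `E₄` and `E₆` have no common zero. -/
lemma E₄_ne_zero_of_E₆_eq_zero {z : ℍ} (h : E₆ z = 0) : E₄ z ≠ 0 := by
  intro h4
  have := discriminant_eq_E₄_cube_sub_E₆_sq z
  rw [h, h4] at this
  exact discriminant_ne_zero z (by rw [this]; simp)

lemma E₆_ne_zero_of_E₄_eq_zero {z : ℍ} (h : E₄ z = 0) : E₆ z ≠ 0 :=
  fun h6 => E₄_ne_zero_of_E₆_eq_zero h6 h

/-- All zeros of `E₆` lie in one `SL(2,ℤ)`-orbit. -/
theorem exists_smul_eq_of_E₆_eq_zero {z w : ℍ} (hz : E₆ z = 0) (hw : E₆ w = 0) :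
    ∃ γ : SL(2, ℤ), w = γ • z :=
  WPRigid.exists_smul_eq_of_E₄_E₆ z w (by rw [hz, hw]; ring)

/-- All zeros of `E₄` lie in one `SL(2,ℤ)`-orbit. -/
theorem exists_smul_eq_of_E₄_eq_zero {z w : ℍ} (hz : E₄ z = 0) (hw : E₄ w = 0) :
    ∃ γ : SL(2, ℤ), w = γ • z :=
  WPRigid.exists_smul_eq_of_E₄_E₆ z w (by rw [hz, hw]; ring)

/-! ### Orders of `j - j(z₀)`, `D j`, `E₄`, `E₆` -/

lemma jF_eq_jH : JDeriv.jF = JOrder.jH := rfl

lemma ord_jF_sub_ne_top (z₀ : ℍ) : ord (fun z => JDeriv.jF z - JDeriv.jF z₀) z₀ ≠ ⊤ := by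
  have h := JOrder.analyticOrderAt_ne_top z₀
  have : (fun s => JOrder.jC s - JOrder.jC z₀) =
      (fun z => JDeriv.jF z - JDeriv.jF z₀) ∘ ofComplex := by
    ext s
    simp only [Function.comp_apply, JOrder.jC_coe]
    rfl
  rwa [this] at h

lemma ord_D_jF_add_one (z₀ : ℍ) :
    ord (D JDeriv.jF) z₀ + 1 = ord (fun z => JDeriv.jF z - JDeriv.jF z₀) z₀ :=
  JDeriv.analyticOrderAt_D_jF_add_one z₀

/-- `Δ · D j = -(E₄² E₆)` gives `ord (D j) = 2 ord E₄ + ord E₆`. -/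
lemma ord_D_jF (z : ℍ) : ord (D JDeriv.jF) z = 2 • ord (E₄ : ℍ → ℂ) z + ord (E₆ : ℍ → ℂ) z := by
  have h1 : (Δ : ℍ → ℂ) * D JDeriv.jF = -(((E₄ : ℍ → ℂ) ^ 2) * (E₆ : ℍ → ℂ)) := by
    ext w
    simp only [Pi.mul_apply, Pi.neg_apply, Pi.pow_apply]
    exact JDeriv.discriminant_mul_D_jF_eq w
  have h2 := congrArg (fun F => ord F z) h1
  rw [ord_mul mdiff_Δ JDeriv.mdiff_D_jF, ord_eq_zero mdiff_Δ (discriminant_ne_zero z), zero_add,
    ord_neg, ord_mul (mdiff_E₄.pow 2) mdiff_E₆, ord_pow mdiff_E₄] at h2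
  exact h2

/-- Zeros of `E₆` are simple. -/
theorem ord_E₆_eq_one {z : ℍ} (hz : E₆ z = 0) : ord (E₆ : ℍ → ℂ) z = 1 := by
  have h4 : E₄ z ≠ 0 := E₄_ne_zero_of_E₆_eq_zero hz
  -- `(j - j z) Δ = E₆²`
  have hj : JDeriv.jF z = 1728 := by
    have := JDeriv.jF_sub_1728 z
    rw [hz] at this
    simpa [sub_eq_zero] using this
  have h1 : (fun w => JDeriv.jF w - JDeriv.jF z) * (Δ : ℍ → ℂ) = (E₆ : ℍ → ℂ) ^ 2 := by
    ext w
    simp only [Pi.mul_apply, Pi.pow_apply, hj, JDeriv.jF_sub_1728]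
    field_simp [discriminant_ne_zero w]
  have h2 := congrArg (fun F => ord F z) h1
  have hsub : MDiff (fun w => JDeriv.jF w - JDeriv.jF z) :=
    JDeriv.mdiff_jF.sub mdifferentiable_const
  rw [ord_mul hsub mdiff_Δ,
    ord_eq_zero mdiff_Δ (discriminant_ne_zero z), add_zero, ord_pow mdiff_E₆,
    ← ord_D_jF_add_one, ord_D_jF, ord_eq_zero mdiff_E₄ h4] at h2
  have htop : ord (E₆ : ℍ → ℂ) z ≠ ⊤ := by
    intro ht
    apply ord_jF_sub_ne_top z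
    rw [← ord_D_jF_add_one, ord_D_jF, ht]
    simp
  obtain ⟨a, ha⟩ := ENat.ne_top_iff_exists.mp htop
  rw [← ha] at h2 ⊢
  have : (2 • (0 : ℕ∞) + (a : ℕ∞) + 1) = ((a + 1 : ℕ) : ℕ∞) := by simp
  rw [this] at h2
  have h3 : (2 • (a : ℕ∞)) = ((2 * a : ℕ) : ℕ∞) := by simp [two_mul]
  rw [h3] at h2
  have := ENat.natCast_inj.mp h2
  have ha1 : a = 1 := by omega
  rw [ha1]; rfl

/-- Zeros of `E₄` are simple. -/
theorem ord_E₄_eq_one {z : ℍ} (hz : E₄ z = 0) : ord (E₄ : ℍ → ℂ) z = 1 := by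
  have h6 : E₆ z ≠ 0 := E₆_ne_zero_of_E₄_eq_zero hz
  have hj : JDeriv.jF z = 0 := by rw [JDeriv.jF_apply, hz]; simp
  have h1 : (fun w => JDeriv.jF w - JDeriv.jF z) * (Δ : ℍ → ℂ) = (E₄ : ℍ → ℂ) ^ 3 := by
    ext w
    simp only [Pi.mul_apply, Pi.pow_apply, hj, sub_zero]
    exact JDeriv.jF_mul_discriminant w
  have h2 := congrArg (fun F => ord F z) h1
  have hsub : MDiff (fun w => JDeriv.jF w - JDeriv.jF z) :=
    JDeriv.mdiff_jF.sub mdifferentiable_const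
  rw [ord_mul hsub mdiff_Δ,
    ord_eq_zero mdiff_Δ (discriminant_ne_zero z), add_zero, ord_pow mdiff_E₄,
    ← ord_D_jF_add_one, ord_D_jF, ord_eq_zero mdiff_E₆ h6] at h2
  have htop : ord (E₄ : ℍ → ℂ) z ≠ ⊤ := by
    intro ht
    apply ord_jF_sub_ne_top z
    rw [← ord_D_jF_add_one, ord_D_jF, ht]
    simp
  obtain ⟨a, ha⟩ := ENat.ne_top_iff_exists.mp htop
  rw [← ha] at h2 ⊢
  have e1 : (2 • (a : ℕ∞) + 0 + 1) = ((2 * a + 1 : ℕ) : ℕ∞) := by simp [two_mul]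
  have e2 : (3 • (a : ℕ∞)) = ((3 * a : ℕ) : ℕ∞) := by
    simp only [Nat.cast_mul, Nat.cast_ofNat, nsmul_eq_mul]
  rw [e1, e2] at h2
  have := ENat.natCast_inj.mp h2
  have ha1 : a = 1 := by omega
  rw [ha1]; rfl

/-! ### The elliptic points `I` and `ρ` -/

lemma S_smul_I : ModularGroup.S • UpperHalfPlane.I = UpperHalfPlane.I := by
  rw [UpperHalfPlane.ext_iff, modular_S_smul]
  simp [Complex.inv_I]

lemma denom_S_I : denom ModularGroup.S UpperHalfPlane.I = Complex.I := by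
  rw [ModularGroup.denom_S]; rfl

theorem E₆_I : E₆ UpperHalfPlane.I = 0 := by
  have h := E₆_smul ModularGroup.S UpperHalfPlane.I
  rw [S_smul_I, denom_S_I] at h
  have hI6 : (Complex.I : ℂ) ^ (6 : ℤ) = -1 := by
    have : (Complex.I : ℂ) ^ (6 : ℤ) = Complex.I ^ (6 : ℕ) := by norm_cast
    rw [this, show (6 : ℕ) = 2 * 3 by norm_num, pow_mul, Complex.I_sq]; norm_num
  rw [hI6] at h
  have : (2 : ℂ) * E₆ UpperHalfPlane.I = 0 := by linear_combination h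
  simpa using this

/-- The point `ρ = e^{2πi/3} = (-1 + √3 i)/2`. -/
noncomputable def rho : ℍ := ⟨⟨-1 / 2, Real.sqrt 3 / 2⟩, by
  show 0 < Real.sqrt 3 / 2
  positivity⟩

lemma coe_rho : (rho : ℂ) = ⟨-1 / 2, Real.sqrt 3 / 2⟩ := rfl

lemma rho_sq_add : (rho : ℂ) ^ 2 + (rho : ℂ) + 1 = 0 := by
  rw [coe_rho]
  apply Complex.ext
  · simp only [Complex.add_re, Complex.one_re, Complex.zero_re, pow_two, Complex.mul_re]
    have h3 : Real.sqrt 3 * Real.sqrt 3 = 3 := Real.mul_self_sqrt (by norm_num)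
    nlinarith [h3]
  · simp only [Complex.add_im, Complex.one_im, Complex.zero_im, pow_two, Complex.mul_im]
    ring

/-- `ε := ρ + 1` satisfies `ε² = ρ`. -/
lemma rho_add_one_sq : ((rho : ℂ) + 1) ^ 2 = rho := by
  linear_combination rho_sq_add

lemma rho_cube : (rho : ℂ) ^ 3 = 1 := by
  linear_combination ((rho : ℂ) - 1) * rho_sq_add

lemma rho_ne_one : (rho : ℂ) ≠ 1 := by
  intro h
  have := rho_sq_add
  rw [h] at this
  norm_num at this

/-- The order-three element `S * T = [[0,-1],[1,1]]`. -/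
noncomputable def ST : SL(2, ℤ) := ModularGroup.S * ModularGroup.T

lemma ST_coe : (ST : Matrix (Fin 2) (Fin 2) ℤ) = !![0, -1; 1, 1] := by
  rw [ST, Matrix.SpecialLinearGroup.coe_mul, ModularGroup.coe_S, ModularGroup.coe_T]
  ext i j
  fin_cases i <;> fin_cases j <;> simp [Matrix.mul_apply, Fin.sum_univ_two]

lemma denom_ST_rho : denom (ST : SL(2, ℤ)) rho = (rho : ℂ) + 1 := by
  have h10 : (ST : Matrix (Fin 2) (Fin 2) ℤ) 1 0 = 1 := by rw [ST_coe]; rfl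
  have h11 : (ST : Matrix (Fin 2) (Fin 2) ℤ) 1 1 = 1 := by rw [ST_coe]; rfl
  simp [denom, h10, h11]

lemma rho_add_one_ne_zero : (rho : ℂ) + 1 ≠ 0 := by
  intro h
  have := rho_add_one_sq
  rw [h] at this
  have h0 : (rho : ℂ) = 0 := by rw [← this]; ring
  have := rho_sq_add
  rw [h0] at this
  norm_num at this

lemma ST_smul_rho : ST • rho = rho := by
  rw [UpperHalfPlane.ext_iff, coe_specialLinearGroup_apply]
  have h00 : (ST : Matrix (Fin 2) (Fin 2) ℤ) 0 0 = 0 := by rw [ST_coe]; rfl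
  have h01 : (ST : Matrix (Fin 2) (Fin 2) ℤ) 0 1 = -1 := by rw [ST_coe]; rfl
  have h10 : (ST : Matrix (Fin 2) (Fin 2) ℤ) 1 0 = 1 := by rw [ST_coe]; rfl
  have h11 : (ST : Matrix (Fin 2) (Fin 2) ℤ) 1 1 = 1 := by rw [ST_coe]; rfl
  rw [h00, h01, h10, h11]
  simp only [algebraMap_int_eq, Int.coe_castRingHom, Int.cast_zero, zero_mul, Int.cast_neg,
    Int.cast_one, zero_add, one_mul, Complex.ofReal_neg, Complex.ofReal_one, Complex.ofReal_zero]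
  rw [div_eq_iff rho_add_one_ne_zero]
  linear_combination -rho_sq_add

theorem E₄_rho : E₄ rho = 0 := by
  have h := JOrder.E₄_smul ST rho
  rw [ST_smul_rho, denom_ST_rho] at h
  have h4 : ((rho : ℂ) + 1) ^ (4 : ℤ) = (rho : ℂ) ^ 2 := by
    have : ((rho : ℂ) + 1) ^ (4 : ℤ) = ((rho : ℂ) + 1) ^ (4 : ℕ) := by norm_cast
    rw [this, show (4 : ℕ) = 2 * 2 by norm_num, pow_mul, rho_add_one_sq]
  rw [h4] at h
  have hne : (rho : ℂ) ^ 2 - 1 ≠ 0 := by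
    intro h0
    have h1 : (rho : ℂ) ^ 2 = 1 := by linear_combination h0
    have h2 : (rho : ℂ) = 1 := by
      have := rho_cube
      rw [pow_succ, h1, one_mul] at this
      exact this
    exact rho_ne_one h2
  have : ((rho : ℂ) ^ 2 - 1) * E₄ rho = 0 := by linear_combination -h
  exact (mul_eq_zero.mp this).resolve_left hne

/-- Every zero of `E₆` is in the orbit of `I`. -/
theorem exists_smul_I_of_E₆_eq_zero {z : ℍ} (hz : E₆ z = 0) :
    ∃ γ : SL(2, ℤ), z = γ • UpperHalfPlane.I :=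
  exists_smul_eq_of_E₆_eq_zero E₆_I hz

/-- Every zero of `E₄` is in the orbit of `ρ`. -/
theorem exists_smul_rho_of_E₄_eq_zero {z : ℍ} (hz : E₄ z = 0) : ∃ γ : SL(2, ℤ), z = γ • rho :=
  exists_smul_eq_of_E₄_eq_zero E₄_rho hz

/-! ### The generic level-one form vanishing on an orbit -/

/-- `gen z₀ = Δ(z₀) E₄³ - E₄(z₀)³ Δ`, a level-one form of weight `12` vanishing exactly on the
orbit of `z₀`. -/
noncomputable def gen (z₀ : ℍ) : ℍ → ℂ := Δ z₀ • ((E₄ : ℍ → ℂ) ^ 3) - (E₄ z₀ ^ 3) • (Δ : ℍ → ℂ)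

lemma gen_apply (z₀ z : ℍ) : gen z₀ z = Δ z₀ * E₄ z ^ 3 - E₄ z₀ ^ 3 * Δ z := by
  simp [gen]

lemma isMF_gen (z₀ : ℍ) : IsMF ⊤ 12 (gen z₀) := by
  unfold gen
  refine IsMF.sub (((isMF_E₄.pow 3).of_weight_eq (by norm_num)).smul _) ?_
  exact (isCF_discriminant.isMF).smul _

lemma mdiff_gen (z₀ : ℍ) : MDiff (gen z₀) := (isMF_gen z₀).holo

lemma gen_eq (z₀ z : ℍ) : gen z₀ z = Δ z₀ * Δ z * (JDeriv.jF z - JDeriv.jF z₀) := by
  rw [gen_apply, JDeriv.jF_apply, JDeriv.jF_apply]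
  field_simp [discriminant_ne_zero z, discriminant_ne_zero z₀]

lemma gen_eq_zero_iff (z₀ z : ℍ) : gen z₀ z = 0 ↔ ∃ γ : SL(2, ℤ), z = γ • z₀ := by
  rw [gen_eq, mul_eq_zero, or_iff_right (mul_ne_zero (discriminant_ne_zero z₀)
    (discriminant_ne_zero z)), sub_eq_zero, jF_eq_jH, eq_comm]
  exact JOrder.jH_eq_iff z₀ z

lemma gen_self (z₀ : ℍ) : gen z₀ z₀ = 0 := (gen_eq_zero_iff z₀ z₀).mpr ⟨1, by simp⟩

lemma gen_smul (z₀ : ℍ) (γ : SL(2, ℤ)) : gen z₀ (γ • z₀) = 0 :=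
  (gen_eq_zero_iff z₀ _).mpr ⟨γ, rfl⟩

lemma tendsto_gen (z₀ : ℍ) : Tendsto (gen z₀) atImInfty (𝓝 (Δ z₀)) := by
  have h4 : Tendsto (fun z : ℍ => E₄ z ^ 3) atImInfty (𝓝 (1 ^ 3)) :=
    LevelOnePoly.tendsto_E₄_atImInfty.pow 3
  have hΔ : Tendsto (Δ : ℍ → ℂ) atImInfty (𝓝 0) := discriminant_isZeroAtImInfty
  have := (h4.const_mul (Δ z₀)).sub (hΔ.const_mul (E₄ z₀ ^ 3))
  simp only [one_pow, mul_one, mul_zero, sub_zero] at this
  refine this.congr fun z => ?_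
  rw [gen_apply]

/-- Zeros of `gen z₀` are simple when `z₀` is not an elliptic point. -/
theorem ord_gen_eq_one {z₀ z : ℍ} (h4 : E₄ z₀ ≠ 0) (h6 : E₆ z₀ ≠ 0) (hz : gen z₀ z = 0) :
    ord (gen z₀) z = 1 := by
  obtain ⟨γ, rfl⟩ := (gen_eq_zero_iff z₀ z).mp hz
  have h4' : E₄ (γ • z₀) ≠ 0 := fun h => h4 ((E₄_smul_eq_zero_iff γ z₀).mp h)
  have h6' : E₆ (γ • z₀) ≠ 0 := fun h => h6 ((E₆_smul_eq_zero_iff γ z₀).mp h)
  have hj : JDeriv.jF (γ • z₀) = JDeriv.jF z₀ := by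
    rw [jF_eq_jH]; exact JOrder.jH_smul γ z₀
  have h1 : gen z₀ = (fun _ => Δ z₀) * ((Δ : ℍ → ℂ) *
      (fun w => JDeriv.jF w - JDeriv.jF (γ • z₀))) := by
    ext w
    simp only [Pi.mul_apply, hj]
    rw [gen_eq]; ring
  have hsub : MDiff (fun w => JDeriv.jF w - JDeriv.jF (γ • z₀)) :=
    JDeriv.mdiff_jF.sub mdifferentiable_const
  rw [h1, ord_mul mdifferentiable_const (mdiff_Δ.mul hsub),
    ord_eq_zero mdifferentiable_const (discriminant_ne_zero z₀), zero_add,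
    ord_mul mdiff_Δ hsub, ord_eq_zero mdiff_Δ (discriminant_ne_zero _), zero_add,
    ← ord_D_jF_add_one, ord_D_jF, ord_eq_zero mdiff_E₄ h4', ord_eq_zero mdiff_E₆ h6']
  simp

/-! ### Division inside `M_*(Γ)` -/

/-- Holomorphic functions on `ℍ` form a domain. -/
lemma eq_zero_of_mul_eq_zero {g u : ℍ → ℂ} (hg : MDiff g) (hu : MDiff u) (hgu : g * u = 0)
    (hg0 : ∃ z, g z ≠ 0) : u = 0 := by
  obtain ⟨z₁, hz₁⟩ := hg0
  have hcont : Continuous g := hg.continuous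
  have hopen : IsOpen {z : ℍ | g z ≠ 0} := isOpen_ne_fun hcont continuous_const
  have hu0 : ∀ z ∈ {z : ℍ | g z ≠ 0}, u z = 0 := by
    intro z hz
    have := congrFun hgu z
    simp only [Pi.mul_apply, Pi.zero_apply, mul_eq_zero] at this
    exact this.resolve_left hz
  -- transfer to `ℂ`
  have han : AnalyticOnNhd ℂ (u ∘ ofComplex) upperHalfPlaneSet :=
    (UpperHalfPlane.mdifferentiable_iff.mp hu).analyticOnNhd isOpen_upperHalfPlaneSet
  have hU : IsPreconnected upperHalfPlaneSet := (convex_halfSpace_im_gt 0).isPreconnected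
  have hev : (u ∘ ofComplex) =ᶠ[𝓝 (z₁ : ℂ)] 0 := by
    have h1 : (UpperHalfPlane.coe '' {z : ℍ | g z ≠ 0}) ∈ 𝓝 (z₁ : ℂ) := by
      have : IsOpen (UpperHalfPlane.coe '' {z : ℍ | g z ≠ 0}) :=
        UpperHalfPlane.isOpenEmbedding_coe.isOpenMap _ hopen
      exact this.mem_nhds ⟨z₁, hz₁, rfl⟩
    filter_upwards [h1] with w hw
    obtain ⟨z, hz, rfl⟩ := hw
    simp only [Function.comp_apply, ofComplex_apply, Pi.zero_apply]
    exact hu0 z hz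
  have h0 := han.eqOn_zero_of_preconnected_of_eventuallyEq_zero hU z₁.im_pos hev
  ext z
  have := h0 z.im_pos
  simpa using this

/-- **Division lemma.** If `f = g h` with `f ∈ M_k(Γ)`, `g` level one of weight `l` with nonzero
limit at `i∞`, and `h` holomorphic, then `h ∈ M_{k-l}(Γ)`. -/
theorem div_mem {Γ : Subgroup SL(2, ℤ)} {k l : ℤ} {f g h : ℍ → ℂ} (hf : IsMF Γ k f)
    (hg : IsMF ⊤ l g) {c : ℂ} (hc : c ≠ 0) (hgc : Tendsto g atImInfty (𝓝 c)) (hh : MDiff h)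
    (hfgh : f = g * h) : IsMF Γ (k - l) h := by
  have hginv : ∀ γ : SL(2, ℤ), g ∣[l] γ = g := fun γ => hg.inv γ (Subgroup.mem_top γ)
  have hg0 : ∃ z, g z ≠ 0 := by
    have : ∀ᶠ z in atImInfty, g z ≠ 0 := hgc.eventually_ne hc
    exact this.exists
  have hslash : ∀ γ : SL(2, ℤ), f ∣[k] γ = g * (h ∣[k - l] γ) := by
    intro γ
    have : k = l + (k - l) := by ring
    rw [hfgh]
    conv_lhs => rw [this]
    rw [ModularForm.mul_slash_SL2, hginv]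
  refine ⟨hh, fun γ hγ => ?_, fun γ => ?_⟩
  · have h1 : g * (h ∣[k - l] γ - h) = 0 := by
      rw [mul_sub, ← hslash γ, hf.inv γ hγ, hfgh, sub_self]
    have := eq_zero_of_mul_eq_zero hg.holo ((hh.slash _ _).sub hh) h1 hg0
    exact sub_eq_zero.mp this
  · have h1 : ∀ᶠ z in atImInfty, (h ∣[k - l] γ) z = (f ∣[k] γ) z * (g z)⁻¹ := by
      filter_upwards [hgc.eventually_ne hc] with z hz
      rw [hslash γ, Pi.mul_apply]
      field_simp
    have h2 : IsBoundedAtImInfty (fun z => (g z)⁻¹) := by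
      have : Tendsto (fun z => (g z)⁻¹) atImInfty (𝓝 c⁻¹) := hgc.inv₀ hc
      exact this.isBigO_one ℝ
    have h3 : IsBoundedAtImInfty (fun z => (f ∣[k] γ) z * (g z)⁻¹) := (hf.bdd γ).mul h2
    exact h3.congr' (h1.mono fun z hz => hz.symm) (Filter.EventuallyEq.refl _ _)

/-- Cuspidal version of `div_mem`. -/
theorem div_mem_cusp {Γ : Subgroup SL(2, ℤ)} {k l : ℤ} {f g h : ℍ → ℂ} (hf : IsCF Γ k f)
    (hg : IsMF ⊤ l g) {c : ℂ} (hc : c ≠ 0) (hgc : Tendsto g atImInfty (𝓝 c)) (hh : MDiff h)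
    (hfgh : f = g * h) : IsCF Γ (k - l) h := by
  have hM := div_mem hf.isMF hg hc hgc hh hfgh
  have hginv : ∀ γ : SL(2, ℤ), g ∣[l] γ = g := fun γ => hg.inv γ (Subgroup.mem_top γ)
  refine ⟨hM.holo, hM.inv, fun γ => ?_⟩
  have hslash : f ∣[k] γ = g * (h ∣[k - l] γ) := by
    have : k = l + (k - l) := by ring
    rw [hfgh]
    conv_lhs => rw [this]
    rw [ModularForm.mul_slash_SL2, hginv]
  have h1 : ∀ᶠ z in atImInfty, (h ∣[k - l] γ) z = (f ∣[k] γ) z * (g z)⁻¹ := by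
    filter_upwards [hgc.eventually_ne hc] with z hz
    rw [hslash, Pi.mul_apply]
    field_simp
  have h2 : Tendsto (fun z => (g z)⁻¹) atImInfty (𝓝 c⁻¹) := hgc.inv₀ hc
  have h3 : Tendsto (fun z => (f ∣[k] γ) z * (g z)⁻¹) atImInfty (𝓝 (0 * c⁻¹)) :=
    (hf.zero γ).mul h2
  rw [zero_mul] at h3
  exact h3.congr' (h1.mono fun z hz => hz.symm)

/-- Holomorphic division by a function with simple zeros. -/
lemma exists_mdiff_mul_of_simple_zeros {G g : ℍ → ℂ} (hG : MDiff G) (hg : MDiff g)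
    (hsimple : ∀ z, g z = 0 → ord g z = 1) (hvan : ∀ z, g z = 0 → G z = 0) :
    ∃ u : ℍ → ℂ, MDiff u ∧ G = g * u := by
  obtain ⟨u, hu, hGu⟩ := HolDiv.exists_mdiff_of_order_le G g hG hg (by
    intro z
    by_cases hz : g z = 0
    · have h1 : ord g z = 1 := hsimple z hz
      have h2 : 1 ≤ ord G z := one_le_ord hG (hvan z hz)
      unfold ord at h1 h2
      rw [h1]; exact h2
    · have : ord g z = 0 := ord_eq_zero hg hz
      unfold ord at this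
      rw [this]; exact zero_le)
  exact ⟨u, hu, by ext z; rw [hGu z, Pi.mul_apply, mul_comm]⟩

variable {Γ : Subgroup SL(2, ℤ)} {K : ℤ} {G : ℍ → ℂ}

/-- A modular form vanishing on the orbit of a non-elliptic point `z₀` is divisible by `gen z₀`. -/
theorem exists_eq_gen_mul (hG : IsMF Γ K G) {z₀ : ℍ} (h4 : E₄ z₀ ≠ 0) (h6 : E₆ z₀ ≠ 0)
    (hvan : ∀ γ : SL(2, ℤ), G (γ • z₀) = 0) :
    ∃ G' : ℍ → ℂ, IsMF Γ (K - 12) G' ∧ G = gen z₀ * G' := by
  obtain ⟨u, hu, hGu⟩ := exists_mdiff_mul_of_simple_zeros hG.holo (mdiff_gen z₀)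
    (fun z hz => ord_gen_eq_one h4 h6 hz) (fun z hz => by
      obtain ⟨γ, rfl⟩ := (gen_eq_zero_iff z₀ z).mp hz
      exact hvan γ)
  exact ⟨u, div_mem hG (isMF_gen z₀) (discriminant_ne_zero z₀) (tendsto_gen z₀) hu hGu, hGu⟩

/-- A modular form vanishing at all zeros of `E₆` (the orbit of `I`) is divisible by `E₆`. -/
theorem exists_eq_E₆_mul (hG : IsMF Γ K G) (hvan : ∀ γ : SL(2, ℤ), G (γ • UpperHalfPlane.I) = 0) :
    ∃ G' : ℍ → ℂ, IsMF Γ (K - 6) G' ∧ G = (E₆ : ℍ → ℂ) * G' := by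
  obtain ⟨u, hu, hGu⟩ := exists_mdiff_mul_of_simple_zeros hG.holo mdiff_E₆
    (fun z hz => ord_E₆_eq_one hz) (fun z hz => by
      obtain ⟨γ, rfl⟩ := exists_smul_I_of_E₆_eq_zero hz
      exact hvan γ)
  exact ⟨u, div_mem hG isMF_E₆ one_ne_zero JDeriv.tendsto_E₆_atImInfty hu hGu, hGu⟩

/-- A modular form vanishing at all zeros of `E₄` (the orbit of `ρ`) is divisible by `E₄`. -/
theorem exists_eq_E₄_mul (hG : IsMF Γ K G) (hvan : ∀ γ : SL(2, ℤ), G (γ • rho) = 0) :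
    ∃ G' : ℍ → ℂ, IsMF Γ (K - 4) G' ∧ G = (E₄ : ℍ → ℂ) * G' := by
  obtain ⟨u, hu, hGu⟩ := exists_mdiff_mul_of_simple_zeros hG.holo mdiff_E₄
    (fun z hz => ord_E₄_eq_one hz) (fun z hz => by
      obtain ⟨γ, rfl⟩ := exists_smul_rho_of_E₄_eq_zero hz
      exact hvan γ)
  exact ⟨u, div_mem hG isMF_E₄ one_ne_zero LevelOnePoly.tendsto_E₄_atImInfty hu hGu, hGu⟩

/-- Trichotomy for points of `ℍ`. -/
theorem trichotomy (z₀ : ℍ) :
    (E₄ z₀ ≠ 0 ∧ E₆ z₀ ≠ 0) ∨ (∃ γ : SL(2, ℤ), z₀ = γ • UpperHalfPlane.I) ∨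
      (∃ γ : SL(2, ℤ), z₀ = γ • rho) := by
  by_cases h4 : E₄ z₀ = 0
  · exact Or.inr (Or.inr (exists_smul_rho_of_E₄_eq_zero h4))
  · by_cases h6 : E₆ z₀ = 0
    · exact Or.inr (Or.inl (exists_smul_I_of_E₆_eq_zero h6))
    · exact Or.inl ⟨h4, h6⟩

end Fermat.Agent.M2F.Zeros
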