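/-
M2F / F6: `Φ(z)` is invertible for every `z` (helper6).
-/
import Mathlib
import Fermat.Agent.M2F.Defs
import Fermat.Agent.M2.HolDiv
import Fermat.Agent.M2F.LevelOneZeros

set_option autoImplicit false

open UpperHalfPlane ModularForm MatrixGroups CongruenceSubgroup Filter
open scoped Manifold Topology

namespace Fermat.Agent.M2F.Invertible

open Fermat.Agent.M2F

/-! ### Generalities on homogeneous bases -/

section basics

variable {N : ℕ} {ι : Type} [Fintype ι] {κ : ι → ℤ} {m : ι → ℍ → ℂ}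

/-- Level-one forms of weight zero contain the constants. -/
lemma isMF_top_const (c : ℂ) : IsMF ⊤ 0 (fun _ : ℍ => c) := by
  rw [isMF_top_iff]
  refine ⟨mdifferentiable_const, fun γ => ?_, ?_⟩
  · exact ModularForm.is_invariant_const γ c
  · exact Filter.const_boundedAtFilter _ c

/-- The members of a homogeneous basis are nonzero. -/
lemma ne_zero_of_isHomBasis [DecidableEq ι] (hb : IsHomBasis N κ m) (j : ι) : m j ≠ 0 := by
  intro h0
  have := hb.free (κ j) (fun i => if i = j then (fun _ => (1 : ℂ)) else 0) (fun i => by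
    by_cases hij : i = j
    · subst hij
      simp only [if_true, sub_self]
      exact isMF_top_const 1
    · simp only [if_neg hij]
      exact isMF_zero) (by
    rw [Finset.sum_eq_single j]
    · simp [h0]
    · intro i _ hij
      simp [if_neg hij]
    · intro h
      exact absurd (Finset.mem_univ j) h) j
  simp only [if_true] at this
  have h1 := congrFun this UpperHalfPlane.I
  simp at h1

/-- Nonzero forms on `Γ₀(N)` have even weight (since `-1 ∈ Γ₀(N)`). -/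
lemma even_weight_of_ne_zero {k : ℤ} {f : ℍ → ℂ} (hf : IsMF (Gamma0 N) k f) (h0 : f ≠ 0) :
    Even k := by
  obtain ⟨z, hz⟩ : ∃ z, f z ≠ 0 := by
    by_contra hcon
    push Not at hcon
    exact h0 (funext hcon)
  have hmem : (-1 : SL(2, ℤ)) ∈ Gamma0 N := by
    rw [Gamma0_mem]; simp
  have h1 := congrFun (hf.inv _ hmem) z
  have h2 : (f ∣[k] (-1 : SL(2, ℤ))) z = f z * (-1) ^ (-k) := by
    rw [SL_slash_apply]; simp [denom]
  rw [h2] at h1
  have h3 : ((-1 : ℂ)) ^ (-k) = 1 := by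
    have := mul_left_cancel₀ hz (h1.trans (mul_one (f z)).symm)
    exact this
  by_contra hodd
  rw [Int.not_even_iff_odd] at hodd
  have hodd' : Odd (-k) := hodd.neg
  rw [hodd'.neg_one_zpow] at h3
  norm_num at h3

lemma even_weight_of_isHomBasis [DecidableEq ι] (hb : IsHomBasis N κ m) (j : ι) : Even (κ j) :=
  even_weight_of_ne_zero (hb.mem j) (ne_zero_of_isHomBasis hb j)

end basics

/-! ### Combinations `∑ a_j m_j` and their translates -/

section combos

variable {N : ℕ} {ι : Type} [Fintype ι] {κ : ι → ℤ} {m : ι → ℍ → ℂ}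

lemma isMF_sum_mul (hm : ∀ j, IsMF (Gamma0 N) (κ j) (m j)) (K : ℤ) (a : ι → ℍ → ℂ)
    (ha : ∀ j, IsMF ⊤ (K - κ j) (a j)) : IsMF (Gamma0 N) K (∑ j, a j * m j) := by
  have : ∑ j, a j * m j ∈ Mk (Gamma0 N) K := by
    refine Submodule.sum_mem _ fun j _ => ?_
    have h := ((ha j).mono (le_top : Gamma0 N ≤ ⊤)).mul (hm j)
    rwa [sub_add_cancel] at h
  exact this

lemma cF_sum_mul (K : ℤ) (a : ι → ℍ → ℂ) (ha : ∀ j, IsMF ⊤ (K - κ j) (a j))
    (q : SL(2, ℤ) ⧸ Gamma0 N) :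
    cF (Gamma0 N) K (∑ j, a j * m j) q = ∑ j, a j * cF (Gamma0 N) (κ j) (m j) q := by
  unfold cF
  rw [SlashAction.sum_slash]
  refine Finset.sum_congr rfl fun j _ => ?_
  have hK : K = (K - κ j) + κ j := by ring
  conv_lhs => rw [hK]
  rw [ModularForm.mul_slash_SL2, (ha j).inv _ (Subgroup.mem_top _)]

end combos

/-! ### Dividing a form by a level-one form with simple zeros -/

section quotient

lemma analyticAt_comp_ofComplex {f : ℍ → ℂ} (hf : MDiff f) (z : ℍ) :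
    AnalyticAt ℂ (f ∘ ofComplex) (z : ℂ) :=
  (UpperHalfPlane.mdifferentiable_iff.mp hf).analyticAt
    (isOpen_upperHalfPlaneSet.mem_nhds z.im_pos)

lemma comp_ofComplex_apply (f : ℍ → ℂ) (z : ℍ) : (f ∘ ofComplex) (z : ℂ) = f z := by
  rw [Function.comp_apply, ofComplex_apply]

/-- If `g` is level one with simple zeros, nonvanishing at `i∞`, and `G` vanishes at every zero of
`g`, then `G / g` is again a modular form. -/
theorem exists_isMF_quotient {Γ : Subgroup SL(2, ℤ)} {K w : ℤ} {G g : ℍ → ℂ}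
    (hG : IsMF Γ K G) (hg : IsMF ⊤ w g)
    (hsimple : ∀ z : ℍ, g z = 0 → analyticOrderAt (g ∘ ofComplex) (z : ℂ) = 1)
    (hzero : ∀ z : ℍ, g z = 0 → G z = 0)
    (hlim : ∃ c : ℂ, c ≠ 0 ∧ Tendsto g atImInfty (𝓝 c)) :
    ∃ u : ℍ → ℂ, IsMF Γ (K - w) u ∧ G = u * g := by
  -- order comparison
  have hord : ∀ z : ℍ, analyticOrderAt (g ∘ ofComplex) (z : ℂ) ≤
      analyticOrderAt (G ∘ ofComplex) (z : ℂ) := by
    intro z
    by_cases hgz : g z = 0
    · rw [hsimple z hgz]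
      have : analyticOrderAt (G ∘ ofComplex) (z : ℂ) ≠ 0 := by
        rw [analyticOrderAt_ne_zero]
        exact ⟨analyticAt_comp_ofComplex hG.holo z, by
          rw [comp_ofComplex_apply]; exact hzero z hgz⟩
      exact Order.one_le_iff_ne_zero.mpr this
    · have : analyticOrderAt (g ∘ ofComplex) (z : ℂ) = 0 := by
        rw [(analyticAt_comp_ofComplex hg.holo z).analyticOrderAt_eq_zero, comp_ofComplex_apply]
        exact hgz
      rw [this]
      exact zero_le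
  obtain ⟨u, hu, hmul⟩ := Fermat.Agent.M2.HolDiv.exists_mdiff_of_order_le G g hG.holo hg.holo hord
  have hGug : G = u * g := funext hmul
  obtain ⟨c, hc0, hc⟩ := hlim
  -- `g` is not the zero function
  have hgne : ∀ᶠ z in atImInfty, g z ≠ 0 := hc.eventually_ne hc0
  have hg0 : g ≠ 0 := by
    obtain ⟨z, hz⟩ := hgne.exists
    intro h
    exact hz (by rw [h]; rfl)
  -- the key identity for translates
  have hslash : ∀ γ : SL(2, ℤ), G ∣[K] γ = (u ∣[K - w] γ) * g := by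
    intro γ
    have hK : K = (K - w) + w := by ring
    conv_lhs => rw [hGug, hK]
    rw [ModularForm.mul_slash_SL2, hg.inv γ (Subgroup.mem_top γ)]
  refine ⟨u, ⟨hu, fun γ hγ => ?_, fun γ => ?_⟩, hGug⟩
  · have h1 : (u ∣[K - w] γ - u) * g = 0 := by
      rw [sub_mul, ← hslash γ, hG.inv γ hγ, hGug, sub_self]
    have h2 := (UpperHalfPlane.mul_eq_zero_iff ((hu.slash (K - w) _).sub hu) hg.holo).mp h1
    rcases h2 with h2 | h2
    · exact sub_eq_zero.mp h2
    · exact absurd h2 hg0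
  · -- boundedness at the cusps
    have hGb := hG.bdd γ
    rw [hslash γ] at hGb
    have hinv : Tendsto (fun z => (g z)⁻¹) atImInfty (𝓝 c⁻¹) := hc.inv₀ hc0
    have hinvb : (fun z => (g z)⁻¹) =O[atImInfty] (fun _ => (1 : ℝ)) := hinv.isBigO_one ℝ
    have hGb' : ((u ∣[K - w] γ) * g) =O[atImInfty] (fun _ => (1 : ℝ)) := hGb
    have hprod := Asymptotics.IsBigO.mul hGb' hinvb
    have : (u ∣[K - w] γ) =ᶠ[atImInfty] fun z => ((u ∣[K - w] γ) * g) z * (g z)⁻¹ := by
      filter_upwards [hgne] with z hz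
      rw [Pi.mul_apply, mul_assoc, mul_inv_cancel₀ hz, mul_one]
    unfold IsBoundedAtImInfty BoundedAtFilter
    refine (Asymptotics.IsBigO.congr' hprod this.symm ?_)
    exact Eventually.of_forall fun z => by simp

end quotient

/-! ### The kernel of `Φ(z₀)` -/

/-- `g` is a level-one form of weight `w` whose zeros are simple and form exactly the
`SL(2,ℤ)`-orbit of `z₀`, and which does not vanish at `i∞`. -/
def IsOrbitDivisor (z₀ : ℍ) (w : ℤ) (g : ℍ → ℂ) : Prop :=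
  IsMF ⊤ w g ∧ (∀ z : ℍ, g z = 0 ↔ ∃ γ : SL(2, ℤ), z = γ • z₀) ∧
    (∀ z : ℍ, g z = 0 → analyticOrderAt (g ∘ ofComplex) (z : ℂ) = 1) ∧
    ∃ c : ℂ, c ≠ 0 ∧ Tendsto g atImInfty (𝓝 c)

section kernel

variable {N : ℕ} {ι : Type} [Fintype ι] {κ : ι → ℤ} {m : ι → ℍ → ℂ}

/-- **Core lemma.** A kernel vector of `Φ(z₀)` that can be interpolated by level-one forms of
the right weights vanishes. -/
theorem eq_zero_of_kernel (hb : IsHomBasis N κ m) {z₀ : ℍ} {w : ℤ} {g : ℍ → ℂ}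
    (hg : IsOrbitDivisor z₀ w g) (c : ι → ℂ)
    (hc : ∀ q : X N, ∑ j, Phi N κ m z₀ q j * c j = 0)
    (K : ℤ) (a : ι → ℍ → ℂ) (ha : ∀ j, IsMF ⊤ (K - κ j) (a j)) (haz : ∀ j, a j z₀ = c j) :
    ∀ j, c j = 0 := by
  obtain ⟨hgMF, hgzero, hgsimple, hglim⟩ := hg
  set G : ℍ → ℂ := ∑ j, a j * m j with hGdef
  have hG : IsMF (Gamma0 N) K G := isMF_sum_mul hb.mem K a ha
  -- all translates of `G` vanish at `z₀`
  have hcF : ∀ q : X N, cF (Gamma0 N) K G q z₀ = 0 := by
    intro q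
    rw [hGdef, cF_sum_mul K a ha q, Finset.sum_apply]
    rw [← hc q]
    refine Finset.sum_congr rfl fun j _ => ?_
    rw [Pi.mul_apply, haz j, mul_comm]
    rfl
  -- hence `G` vanishes on the orbit of `z₀`
  have hGorbit : ∀ γ : SL(2, ℤ), G (γ • z₀) = 0 := by
    intro γ
    have h1 := cF_smul_apply hG.inv ((1 : SL(2, ℤ)) : X N) γ z₀
    rw [cF_one hG.inv, hcF, mul_zero] at h1
    exact h1
  have hzero : ∀ z : ℍ, g z = 0 → G z = 0 := by
    intro z hz
    obtain ⟨γ, rfl⟩ := (hgzero z).mp hz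
    exact hGorbit γ
  obtain ⟨u, hu, hGu⟩ := exists_isMF_quotient hG hgMF hgsimple hzero hglim
  -- expand `u` in the basis
  obtain ⟨b, hb1, hb2⟩ := hb.gen (K - w) u hu
  -- compare coefficients
  have hfree := hb.free K (fun j => a j - g * b j) (fun j => by
    have h1 : IsMF ⊤ (w + (K - w - κ j)) (g * b j) := hgMF.mul (hb1 j)
    have h2 : w + (K - w - κ j) = K - κ j := by ring
    rw [h2] at h1
    have h3 : IsMF ⊤ (K - κ j) ((-1 : ℂ) • (g * b j)) := h1.smul (-1)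
    have h4 := (ha j).add h3
    simpa [sub_eq_add_neg] using h4) (by
    have : ∑ j, (a j - g * b j) * m j = G - g * u := by
      rw [hGdef, hb2, Finset.mul_sum, ← Finset.sum_sub_distrib]
      refine Finset.sum_congr rfl fun j _ => ?_
      ring
    rw [this, hGu]
    ring)
  intro j
  have h1 := congrFun (hfree j) z₀
  have hgz₀ : g z₀ = 0 := (hgzero z₀).mpr ⟨1, by simp⟩
  simp only [Pi.sub_apply, Pi.mul_apply, Pi.zero_apply, hgz₀, zero_mul, sub_zero] at h1
  rw [← haz j, h1]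

/-- Transport of kernel vectors along `z ↦ γ • z`. -/
theorem kernel_transport (hb : IsHomBasis N κ m) (γ : SL(2, ℤ)) (z : ℍ) (c : ι → ℂ)
    (hc : ∀ q : X N, ∑ j, Phi N κ m (γ • z) q j * c j = 0) :
    ∀ q : X N, ∑ j, Phi N κ m z q j * (denom γ z ^ κ j * c j) = 0 := by
  intro q
  rw [← hc (γ • q)]
  refine Finset.sum_congr rfl fun j _ => ?_
  have h1 : Phi N κ m (γ • z) (γ • q) j = denom γ z ^ κ j * Phi N κ m z q j := by
    show cF (Gamma0 N) (κ j) (m j) (γ • q) (γ • z) = _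
    rw [cF_smul_apply (hb.mem j).inv, inv_smul_smul]
    rfl
  rw [h1]
  ring

/-- If `δ` fixes `z₀` then the kernel of `Φ(z₀)` is stable under `diag (λ ^ κ_j)`,
`λ = denom δ z₀`. -/
theorem kernel_stable (hb : IsHomBasis N κ m) (δ : SL(2, ℤ)) (z₀ : ℍ) (hδ : δ • z₀ = z₀)
    (c : ι → ℂ) (hc : ∀ q : X N, ∑ j, Phi N κ m z₀ q j * c j = 0) (t : ℕ) :
    ∀ q : X N, ∑ j, Phi N κ m z₀ q j * ((denom δ z₀ ^ κ j) ^ t * c j) = 0 := by
  induction t with
  | zero => simpa using hc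
  | succ t ih =>
    have h := kernel_transport hb δ z₀ (fun j => (denom δ z₀ ^ κ j) ^ t * c j) (by
      rw [hδ]; exact ih)
    intro q
    rw [← h q]
    refine Finset.sum_congr rfl fun j _ => ?_
    rw [pow_succ]
    ring

lemma sum_pow_filter {lam : ℂ} {n : ℕ} (h1 : lam ^ n = 1)
    (hprim : ∀ k : ℤ, lam ^ k = 1 → (n : ℤ) ∣ k) (k : ℤ) :
    ∑ t ∈ Finset.range n, (lam ^ k) ^ t = if (n : ℤ) ∣ k then (n : ℂ) else 0 := by
  split_ifs with hdiv
  · obtain ⟨l, rfl⟩ := hdiv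
    have : lam ^ ((n : ℤ) * l) = 1 := by
      rw [zpow_mul, zpow_natCast, h1, one_zpow]
    simp [this]
  · have hne : lam ^ k ≠ 1 := fun h => hdiv (hprim k h)
    have hpow : (lam ^ k) ^ n = 1 := by
      rw [← zpow_natCast, ← zpow_mul, mul_comm, zpow_mul, zpow_natCast, h1, one_zpow]
    rw [geom_sum_eq hne, hpow, sub_self, zero_div]

/-- The components of a kernel vector along the residue classes of the weights modulo the order
of `λ = denom δ z₀` are again kernel vectors. -/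
theorem kernel_class (hb : IsHomBasis N κ m) (δ : SL(2, ℤ)) (z₀ : ℍ) (hδ : δ • z₀ = z₀)
    {n : ℕ} (hn : 0 < n) (h1 : denom δ z₀ ^ n = 1)
    (hprim : ∀ k : ℤ, denom δ z₀ ^ k = 1 → (n : ℤ) ∣ k)
    (c : ι → ℂ) (hc : ∀ q : X N, ∑ j, Phi N κ m z₀ q j * c j = 0) (r : ℤ) :
    ∀ q : X N, ∑ j, Phi N κ m z₀ q j * (if (n : ℤ) ∣ κ j - r then c j else 0) = 0 := by
  intro q
  set lam := denom δ z₀ with hlam
  have hlam0 : lam ≠ 0 := denom_ne_zero δ z₀
  have hn0 : (n : ℂ) ≠ 0 := Nat.cast_ne_zero.mpr hn.ne'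
  have key : (n : ℂ) * ∑ j, Phi N κ m z₀ q j * (if (n : ℤ) ∣ κ j - r then c j else 0) = 0 := by
    rw [Finset.mul_sum]
    have h2 : ∀ j, (n : ℂ) * (Phi N κ m z₀ q j * (if (n : ℤ) ∣ κ j - r then c j else 0)) =
        ∑ t ∈ Finset.range n, (lam ^ (-r)) ^ t * (Phi N κ m z₀ q j * ((lam ^ κ j) ^ t * c j)) := by
      intro j
      have h3 := sum_pow_filter h1 hprim (κ j - r)
      have h4 : (n : ℂ) * (if (n : ℤ) ∣ κ j - r then c j else 0) =
          (∑ t ∈ Finset.range n, (lam ^ (κ j - r)) ^ t) * c j := by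
        rw [h3]
        split_ifs <;> simp
      calc (n : ℂ) * (Phi N κ m z₀ q j * (if (n : ℤ) ∣ κ j - r then c j else 0))
          = Phi N κ m z₀ q j * ((n : ℂ) * (if (n : ℤ) ∣ κ j - r then c j else 0)) := by ring
        _ = Phi N κ m z₀ q j * ((∑ t ∈ Finset.range n, (lam ^ (κ j - r)) ^ t) * c j) := by
            rw [h4]
        _ = ∑ t ∈ Finset.range n,
              (lam ^ (-r)) ^ t * (Phi N κ m z₀ q j * ((lam ^ κ j) ^ t * c j)) := by
            rw [Finset.sum_mul, Finset.mul_sum]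
            refine Finset.sum_congr rfl fun t _ => ?_
            rw [sub_eq_add_neg, zpow_add₀ hlam0, mul_pow]
            ring
    rw [Finset.sum_congr rfl fun j _ => h2 j, Finset.sum_comm]
    refine Finset.sum_eq_zero fun t _ => ?_
    rw [← Finset.mul_sum, kernel_stable hb δ z₀ hδ c hc t q, mul_zero]
  exact (mul_eq_zero.mp key).resolve_left hn0

/-- Interpolation form of the core lemma: it suffices to have, for each `j` with `c j ≠ 0`,
some level-one form of weight `K - κ j` not vanishing at `z₀`. -/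
theorem eq_zero_of_kernel' (hb : IsHomBasis N κ m) {z₀ : ℍ} {w : ℤ} {g : ℍ → ℂ}
    (hg : IsOrbitDivisor z₀ w g) (c : ι → ℂ)
    (hc : ∀ q : X N, ∑ j, Phi N κ m z₀ q j * c j = 0) (K : ℤ)
    (hf : ∀ j, c j ≠ 0 → ∃ f : ℍ → ℂ, IsMF ⊤ (K - κ j) f ∧ f z₀ ≠ 0) :
    ∀ j, c j = 0 := by
  classical
  choose! f hf1 hf2 using hf
  refine eq_zero_of_kernel hb hg c hc K
    (fun j => if c j = 0 then 0 else (c j / f j z₀) • f j) (fun j => ?_) (fun j => ?_)
  · split_ifs with h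
    · exact isMF_zero
    · exact (hf1 j h).smul _
  · split_ifs with h
    · rw [h]; rfl
    · rw [Pi.smul_apply, smul_eq_mul, div_mul_cancel₀ _ (hf2 j h)]

end kernel

/-! ### Level-one monomials -/

section monomials

lemma isMF_top_one : IsMF ⊤ 0 (1 : ℍ → ℂ) := isMF_top_const 1

lemma isMF_top_pow {w : ℤ} {e : ℍ → ℂ} (he : IsMF ⊤ w e) (s : ℕ) : IsMF ⊤ (w * s) (e ^ s) := by
  induction s with
  | zero => simpa using isMF_top_one
  | succ s ih =>
    have h := ih.mul he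
    rw [pow_succ]
    convert h using 1
    push_cast
    ring

/-- For even `w ≥ 4` there is a monomial `E₄^a E₆^b` of weight `w`. -/
lemma exists_monomial_weight {w : ℤ} (hw : Even w) (h4 : 4 ≤ w) :
    ∃ a b : ℕ, (4 : ℤ) * a + 6 * b = w := by
  obtain ⟨t, ht⟩ := hw
  rcases Int.emod_two_eq_zero_or_one t with h | h
  · -- `t` even: `w = 4 * (t/2)`
    refine ⟨(t / 2).toNat, 0, ?_⟩
    have : 0 ≤ t / 2 := by omega
    rw [Int.toNat_of_nonneg this]
    omega
  · -- `t` odd, `t ≥ 3`: `w = 4 * ((t-3)/2) + 6`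
    refine ⟨((t - 3) / 2).toNat, 1, ?_⟩
    have : 0 ≤ (t - 3) / 2 := by omega
    rw [Int.toNat_of_nonneg this]
    omega

/-- If `E₄ z₀ ≠ 0 ≠ E₆ z₀`, every even weight `w ≥ 4` carries a level-one form not vanishing at
`z₀`. -/
lemma exists_levelOne_ne_zero {z₀ : ℍ} (h4 : E₄ z₀ ≠ 0) (h6 : E₆ z₀ ≠ 0) {w : ℤ} (hw : Even w)
    (hw4 : 4 ≤ w) : ∃ f : ℍ → ℂ, IsMF ⊤ w f ∧ f z₀ ≠ 0 := by
  obtain ⟨a, b, hab⟩ := exists_monomial_weight hw hw4
  refine ⟨(E₄ : ℍ → ℂ) ^ a * (E₆ : ℍ → ℂ) ^ b, ?_, ?_⟩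
  · have h := (isMF_top_pow isMF_E₄ a).mul (isMF_top_pow isMF_E₆ b)
    rwa [hab] at h
  · simp only [Pi.mul_apply, Pi.pow_apply]
    exact mul_ne_zero (pow_ne_zero _ h4) (pow_ne_zero _ h6)

end monomials

/-! ### The kernel of `Φ(z₀)` is trivial -/

section kernelZero

variable {N : ℕ} {ι : Type} [Fintype ι] {κ : ι → ℤ} {m : ι → ℍ → ℂ}

/-- Generic points: `E₄ z₀ ≠ 0 ≠ E₆ z₀`. -/
theorem kernel_eq_zero_generic (hb : IsHomBasis N κ m) {z₀ : ℍ} (h4 : E₄ z₀ ≠ 0)
    (h6 : E₆ z₀ ≠ 0) {w : ℤ} {g : ℍ → ℂ} (hg : IsOrbitDivisor z₀ w g) (c : ι → ℂ)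
    (hc : ∀ q : X N, ∑ j, Phi N κ m z₀ q j * c j = 0) : ∀ j, c j = 0 := by
  classical
  set M : ℤ := ∑ i, |κ i| with hM
  refine eq_zero_of_kernel' hb hg c hc (2 * M + 4) fun j _ => ?_
  have hle : |κ j| ≤ M := Finset.single_le_sum (f := fun i => |κ i|)
    (fun i _ => abs_nonneg _) (Finset.mem_univ j)
  have hM0 : 0 ≤ M := Finset.sum_nonneg fun i _ => abs_nonneg _
  have hκ : κ j ≤ |κ j| := le_abs_self _
  refine exists_levelOne_ne_zero h4 h6 ?_ (by omega)
  have hev : Even (κ j) := even_weight_of_isHomBasis hb j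
  have : Even (2 * M + 4) := by
    refine Even.add (even_two_mul M) ⟨2, by norm_num⟩
  exact this.sub hev

/-- Elliptic points: `δ` fixes `z₀`, `λ = denom δ z₀` is a primitive `n`-th root of unity and
some level-one form of weight `n` does not vanish at `z₀`. -/
theorem kernel_eq_zero_elliptic (hb : IsHomBasis N κ m) (δ : SL(2, ℤ)) (z₀ : ℍ)
    (hδ : δ • z₀ = z₀) {n : ℕ} (hn : 0 < n) (h1 : denom δ z₀ ^ n = 1)
    (hprim : ∀ k : ℤ, denom δ z₀ ^ k = 1 → (n : ℤ) ∣ k)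
    {e : ℍ → ℂ} (he : IsMF ⊤ n e) (hez : e z₀ ≠ 0)
    {w : ℤ} {g : ℍ → ℂ} (hg : IsOrbitDivisor z₀ w g) (c : ι → ℂ)
    (hc : ∀ q : X N, ∑ j, Phi N κ m z₀ q j * c j = 0) : ∀ j, c j = 0 := by
  classical
  intro j₀
  set r : ℤ := κ j₀ with hr
  have hcr := kernel_class hb δ z₀ hδ hn h1 hprim c hc r
  set M : ℤ := ∑ i, |κ i| + |r| with hM
  have hzero := eq_zero_of_kernel' hb hg (fun j => if (n : ℤ) ∣ κ j - r then c j else 0) hcr
    (r + n * M) (fun j hj => by
      have hdiv : (n : ℤ) ∣ κ j - r := by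
        by_contra h
        simp only [if_neg h] at hj
        exact hj rfl
      obtain ⟨t, ht⟩ := hdiv
      have hle : |κ j| ≤ ∑ i, |κ i| := Finset.single_le_sum (f := fun i => |κ i|)
        (fun i _ => abs_nonneg _) (Finset.mem_univ j)
      have hnpos : (1 : ℤ) ≤ n := by exact_mod_cast hn
      have htle : t ≤ M := by
        have h1 : |t| ≤ |(n : ℤ) * t| := by
          rw [abs_mul]
          have : (1 : ℤ) ≤ |(n : ℤ)| := by rw [abs_of_pos (by omega)]; exact hnpos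
          calc |t| = 1 * |t| := (one_mul _).symm
            _ ≤ |(n : ℤ)| * |t| := mul_le_mul_of_nonneg_right this (abs_nonneg _)
        have h2 : |κ j - r| ≤ |κ j| + |r| := abs_sub _ _
        have h3 : t ≤ |t| := le_abs_self _
        rw [← ht] at h1
        omega
      refine ⟨e ^ (M - t).toNat, ?_, ?_⟩
      · have h := isMF_top_pow he (M - t).toNat
        convert h using 1
        rw [Int.toNat_of_nonneg (by omega)]
        have : κ j = r + n * t := by omega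
        rw [this]
        ring
      · rw [Pi.pow_apply]
        exact pow_ne_zero _ hez)
  have := hzero j₀
  simpa [hr] using this

end kernelZero

/-! ### Invertibility of `Φ(z)` -/

section main

open scoped Classical

variable {N : ℕ} [NeZero N] {κ : X N → ℤ} {m : X N → ℍ → ℂ}

/-- The level-one input needed for the invertibility of `Φ`. -/
structure LevelOneZeros : Prop where
  generic : ∀ z₀ : ℍ, E₄ z₀ ≠ 0 → E₆ z₀ ≠ 0 → ∃ (w : ℤ) (g : ℍ → ℂ), IsOrbitDivisor z₀ w g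
  atI : ∃ (zi : ℍ) (δ : SL(2, ℤ)), δ • zi = zi ∧ denom δ zi ^ 4 = 1 ∧
    (∀ k : ℤ, denom δ zi ^ k = 1 → (4 : ℤ) ∣ k) ∧ E₄ zi ≠ 0 ∧ IsOrbitDivisor zi 6 E₆
  atRho : ∃ (zr : ℍ) (δ : SL(2, ℤ)), δ • zr = zr ∧ denom δ zr ^ 6 = 1 ∧
    (∀ k : ℤ, denom δ zr ^ k = 1 → (6 : ℤ) ∣ k) ∧ E₆ zr ≠ 0 ∧ IsOrbitDivisor zr 4 E₄

/-- The kernel of `Φ(z)` is trivial for every `z`. -/
theorem kernel_eq_zero (hb : IsHomBasis N κ m) (H : LevelOneZeros) (z : ℍ) (c : X N → ℂ)
    (hc : ∀ q : X N, ∑ j, Phi N κ m z q j * c j = 0) : ∀ j, c j = 0 := by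
  by_cases h6 : E₆ z = 0
  · obtain ⟨zi, δ, hδ, h1, hprim, he, hg⟩ := H.atI
    obtain ⟨γ, rfl⟩ := (hg.2.1 z).mp h6
    have h := kernel_transport hb γ zi c hc
    have h0 := kernel_eq_zero_elliptic hb δ zi hδ (by norm_num : 0 < 4) h1 hprim
      (by exact_mod_cast isMF_E₄) he hg _ h
    intro j
    have := h0 j
    exact (mul_eq_zero.mp this).resolve_left (zpow_ne_zero _ (denom_ne_zero γ zi))
  by_cases h4 : E₄ z = 0
  · obtain ⟨zr, δ, hδ, h1, hprim, he, hg⟩ := H.atRho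
    obtain ⟨γ, rfl⟩ := (hg.2.1 z).mp h4
    have h := kernel_transport hb γ zr c hc
    have h0 := kernel_eq_zero_elliptic hb δ zr hδ (by norm_num : 0 < 6) h1 hprim
      (by exact_mod_cast isMF_E₆) he hg _ h
    intro j
    have := h0 j
    exact (mul_eq_zero.mp this).resolve_left (zpow_ne_zero _ (denom_ne_zero γ zr))
  · obtain ⟨w, g, hg⟩ := H.generic z h4 h6
    exact kernel_eq_zero_generic hb h4 h6 hg c hc

/-- **F6**: `Φ(z)` is invertible for every `z`, given the level-one zeros package. -/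
theorem det_Phi_ne_zero_of_levelOneZeros (hb : IsHomBasis N κ m) (H : LevelOneZeros) (z : ℍ) :
    (Phi N κ m z).det ≠ 0 := by
  intro hdet
  obtain ⟨c, hc0, hc⟩ := Matrix.exists_mulVec_eq_zero_iff.mpr hdet
  apply hc0
  funext j
  refine kernel_eq_zero hb H z c (fun q => ?_) j
  have := congrFun hc q
  simpa [Matrix.mulVec, dotProduct] using this

/-- Primitivity of `Complex.I` as a fourth root of unity, in `zpow` form. -/
lemma four_dvd_of_I_zpow_eq_one (k : ℤ) (h : Complex.I ^ k = 1) : (4 : ℤ) ∣ k := by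
  have hprim : IsPrimitiveRoot Complex.I 4 := Complex.isPrimitiveRoot_I
  exact_mod_cast (hprim.zpow_eq_one_iff_dvd k).mp h

/-- `ρ + 1` is a primitive sixth root of unity. -/
lemma isPrimitiveRoot_rho_add_one : IsPrimitiveRoot ((Zeros.rho : ℂ) + 1) 6 := by
  have h2 : ((Zeros.rho : ℂ) + 1) ^ 2 = Zeros.rho := Zeros.rho_add_one_sq
  have h3 : ((Zeros.rho : ℂ) + 1) ^ 3 = -1 := by
    have := Zeros.rho_sq_add
    calc ((Zeros.rho : ℂ) + 1) ^ 3 = ((Zeros.rho : ℂ) + 1) ^ 2 * ((Zeros.rho : ℂ) + 1) := by ring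
      _ = (Zeros.rho : ℂ) * ((Zeros.rho : ℂ) + 1) := by rw [h2]
      _ = -1 := by linear_combination this
  have h6 : ((Zeros.rho : ℂ) + 1) ^ 6 = 1 := by
    calc ((Zeros.rho : ℂ) + 1) ^ 6 = (((Zeros.rho : ℂ) + 1) ^ 3) ^ 2 := by ring
      _ = 1 := by rw [h3]; norm_num
  refine IsPrimitiveRoot.mk_of_lt _ (by norm_num) h6 ?_
  intro l hl0 hl6 hl
  have hne1 : (Zeros.rho : ℂ) ≠ 1 := Zeros.rho_ne_one
  have hrho0 : (Zeros.rho : ℂ) ≠ 0 := by
    intro h0
    have := Zeros.rho_sq_add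
    rw [h0] at this
    norm_num at this
  interval_cases l
  · -- l = 1 : ρ + 1 = 1
    apply hrho0
    linear_combination hl
  · -- l = 2 : ρ = 1
    rw [h2] at hl
    exact hne1 hl
  · -- l = 3 : -1 = 1
    rw [h3] at hl
    norm_num at hl
  · -- l = 4 : ρ² = 1
    have h4 : ((Zeros.rho : ℂ) + 1) ^ 4 = (Zeros.rho : ℂ) ^ 2 := by
      calc ((Zeros.rho : ℂ) + 1) ^ 4 = (((Zeros.rho : ℂ) + 1) ^ 2) ^ 2 := by ring
        _ = _ := by rw [h2]
    rw [h4] at hl
    apply hne1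
    have h3' := Zeros.rho_cube
    calc (Zeros.rho : ℂ) = (Zeros.rho : ℂ) ^ 3 / (Zeros.rho : ℂ) ^ 2 := by
          field_simp
      _ = 1 := by rw [h3', hl]; norm_num
  · -- l = 5 : (ρ+1)^5 = 1, with (ρ+1)^6 = 1 gives ρ + 1 = 1
    apply hrho0
    have h5 : ((Zeros.rho : ℂ) + 1) ^ 6 = ((Zeros.rho : ℂ) + 1) ^ 5 * ((Zeros.rho : ℂ) + 1) := by
      ring
    rw [h6, hl, one_mul] at h5
    linear_combination -h5

/-- The level-one zeros package holds (from helper3's `LevelOneZeros.lean`). -/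
theorem levelOneZeros : LevelOneZeros where
  generic := fun z₀ h4 h6 => ⟨12, Zeros.gen z₀, Zeros.isMF_gen z₀, Zeros.gen_eq_zero_iff z₀,
    fun z hz => Zeros.ord_gen_eq_one h4 h6 hz,
    ModularForm.discriminant z₀, discriminant_ne_zero z₀, Zeros.tendsto_gen z₀⟩
  atI := by
    refine ⟨UpperHalfPlane.I, ModularGroup.S, Zeros.S_smul_I, ?_, ?_,
      Zeros.E₄_ne_zero_of_E₆_eq_zero Zeros.E₆_I, ?_⟩
    · rw [Zeros.denom_S_I]
      exact Complex.I_pow_four
    · intro k hk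
      rw [Zeros.denom_S_I] at hk
      exact four_dvd_of_I_zpow_eq_one k hk
    · refine ⟨by exact_mod_cast isMF_E₆, fun z => ⟨fun hz => Zeros.exists_smul_I_of_E₆_eq_zero hz,
        ?_⟩, fun z hz => Zeros.ord_E₆_eq_one hz, 1, one_ne_zero,
        Fermat.Agent.M2.JDeriv.tendsto_E₆_atImInfty⟩
      rintro ⟨γ, rfl⟩
      exact (Zeros.E₆_smul_eq_zero_iff γ _).mpr Zeros.E₆_I
  atRho := by
    refine ⟨Zeros.rho, Zeros.ST, Zeros.ST_smul_rho, ?_, ?_,
      Zeros.E₆_ne_zero_of_E₄_eq_zero Zeros.E₄_rho, ?_⟩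
    · rw [Zeros.denom_ST_rho]
      exact isPrimitiveRoot_rho_add_one.pow_eq_one
    · intro k hk
      rw [Zeros.denom_ST_rho] at hk
      exact_mod_cast (isPrimitiveRoot_rho_add_one.zpow_eq_one_iff_dvd k).mp hk
    · refine ⟨by exact_mod_cast isMF_E₄, fun z => ⟨fun hz => Zeros.exists_smul_rho_of_E₄_eq_zero hz,
        ?_⟩, fun z hz => Zeros.ord_E₄_eq_one hz, 1, one_ne_zero,
        Fermat.Agent.M2.LevelOnePoly.tendsto_E₄_atImInfty⟩
      rintro ⟨γ, rfl⟩
      exact (Zeros.E₄_smul_eq_zero_iff γ _).mpr Zeros.E₄_rho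

/-- **F6** (statement verbatim from the Skeleton): `Φ(z)` is invertible for every `z`. -/
theorem det_Phi_ne_zero (hb : IsHomBasis N κ m) (z : ℍ) : (Phi N κ m z).det ≠ 0 :=
  det_Phi_ne_zero_of_levelOneZeros hb levelOneZeros z

end main

end Fermat.Agent.M2F.Invertible
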