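import Fermat.Agent.M2F.CuspFree
import Fermat.Agent.M2F.CuspDFT
import Fermat.Agent.M2F.DetEquiv
import Fermat.Agent.M2F.CuspsEnd
import Fermat.Agent.M2F.Invertible

/-!
# M2F / F8(c), PART 1: the DFT-normalised matrix `B(z)`

With `U` the block DFT along the `T`-orbits on `X N = SL(2,ℤ) ⧸ Γ₀(N)` and
`θ x = expo x / width x ∈ [0,1)`, the matrix `B(z) = diag(exp(-2πi θ_x z)) · U · Φ(z)` has
`1`-periodic holomorphic entries of growth `O(exp(2π θ_x im z))`, hence a limit `Binf` at `i∞`,
and `det Binf ≠ 0` (`CuspFree.det_Binf_ne_zero`).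
-/

set_option autoImplicit false

open UpperHalfPlane ModularForm MatrixGroups CongruenceSubgroup Filter Asymptotics
open scoped Manifold Topology

namespace Fermat.Agent.M2F.CuspB

open Fermat.Agent.M2F Fermat.Agent.M2F.Cusps

variable {N : ℕ} [NeZero N] {κ : X N → ℤ} {m : X N → ℍ → ℂ}

/-- The Fourier exponent `θ x = expo x / width x ∈ [0,1)` at a coset. -/
noncomputable def theta (N : ℕ) [NeZero N] (x : X N) : ℝ :=
  (expo (Gamma0 N) ModularGroup.T x : ℝ) / (width (Gamma0 N) ModularGroup.T x : ℝ)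

lemma theta_nonneg (x : X N) : 0 ≤ theta N x := by
  unfold theta
  positivity

lemma theta_lt_one (x : X N) : theta N x < 1 := by
  unfold theta
  have hw : (0 : ℝ) < width (Gamma0 N) ModularGroup.T x := by
    exact_mod_cast width_pos (Gamma0 N) ModularGroup.T x
  rw [div_lt_one hw]
  exact_mod_cast expo_lt_width (Gamma0 N) ModularGroup.T x

lemma denom_T (z : ℍ) : denom (ModularGroup.T : SL(2, ℤ)) z = 1 := by
  rw [ModularGroup.denom_apply]
  simp [ModularGroup.T]

/-- `Φ(z+1) q j = Φ(z) (T⁻¹ q) j`. -/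
lemma Phi_vadd_one (hb : IsHomBasis N κ m) (z : ℍ) (q j : X N) :
    Phi N κ m ((1 : ℝ) +ᵥ z) q j = Phi N κ m z ((ModularGroup.T)⁻¹ • q) j := by
  rw [← UpperHalfPlane.modular_T_smul, DetEquiv.Phi_smul (fun j => (hb.mem j).inv), denom_T,
    one_zpow, one_mul]

section

variable [DecidableEq (X N)]

/-- The block DFT matrix along the `T`-orbits. -/
noncomputable def Umat (N : ℕ) [NeZero N] [DecidableEq (X N)] : Matrix (X N) (X N) ℂ :=
  dftMatrix (Gamma0 N) ModularGroup.T

lemma isUnit_det_Umat : IsUnit (Umat N).det := isUnit_det_dftMatrix _ _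

/-- `(U Φ(z)) x j` is the DFT of the `j`-th column of `Φ(z)`. -/
lemma Umat_mul_Phi (z : ℍ) (x j : X N) :
    (Umat N * Phi N κ m z) x j =
      dftEquiv (Gamma0 N) ModularGroup.T (fun q => Phi N κ m z q j) x := by
  rw [← dftMatrix_mulVec]
  rfl

/-- The effect of `z ↦ z + 1` on `U Φ(z)`. -/
lemma Umat_mul_Phi_vadd_one (hb : IsHomBasis N κ m) (z : ℍ) (x j : X N) :
    (Umat N * Phi N κ m ((1 : ℝ) +ᵥ z)) x j =
      Complex.exp (2 * Real.pi * Complex.I * theta N x) * (Umat N * Phi N κ m z) x j := by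
  rw [Umat_mul_Phi, Umat_mul_Phi]
  have : (fun q => Phi N κ m ((1 : ℝ) +ᵥ z) q j) =
      fun q => (fun q' => Phi N κ m z q' j) ((ModularGroup.T)⁻¹ • q) := by
    funext q
    exact Phi_vadd_one hb z q j
  rw [this]
  refine (dftEquiv_translate (Gamma0 N) ModularGroup.T (fun q' => Phi N κ m z q' j) x).trans ?_
  congr 2
  unfold theta
  push_cast
  ring

/-- The normalised matrix `B(z) = diag(exp(-2πi θ_x z)) U Φ(z)`. -/
noncomputable def Bmat (N : ℕ) [NeZero N] [DecidableEq (X N)] (κ : X N → ℤ) (m : X N → ℍ → ℂ)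
    (z : ℍ) : Matrix (X N) (X N) ℂ := fun x j =>
  Complex.exp (-(2 * Real.pi * Complex.I * theta N x * z)) * (Umat N * Phi N κ m z) x j

lemma hfact (z : ℍ) (x j : X N) :
    (Umat N * Phi N κ m z) x j =
      Complex.exp (2 * Real.pi * Complex.I * theta N x * z) * Bmat N κ m z x j := by
  unfold Bmat
  rw [← mul_assoc, ← Complex.exp_add, add_neg_cancel, Complex.exp_zero, one_mul]

lemma Bmat_vadd_one (hb : IsHomBasis N κ m) (z : ℍ) (x j : X N) :
    Bmat N κ m ((1 : ℝ) +ᵥ z) x j = Bmat N κ m z x j := by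
  unfold Bmat
  rw [Umat_mul_Phi_vadd_one hb, ← mul_assoc, ← Complex.exp_add]
  congr 2
  have : (((1 : ℝ) +ᵥ z : ℍ) : ℂ) = 1 + (z : ℂ) := by simp
  rw [this]
  ring

lemma mdiff_Umat_mul_Phi (hb : IsHomBasis N κ m) (x j : X N) :
    MDiff (fun z => (Umat N * Phi N κ m z) x j) := by
  have : (fun z => (Umat N * Phi N κ m z) x j) =
      ∑ q, (Umat N x q) • (cF (Gamma0 N) (κ j) (m j) q) := by
    funext z
    rw [Matrix.mul_apply, Finset.sum_apply]
    rfl
  rw [this]
  exact MDifferentiable.sum fun q _ => ((hb.mem j).cF_holo q).const_smul _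

lemma mdiff_exp_neg (θ : ℝ) :
    MDiff (fun z : ℍ => Complex.exp (-(2 * Real.pi * Complex.I * θ * z))) := by
  rw [UpperHalfPlane.mdifferentiable_iff]
  have : DifferentiableOn ℂ (fun w : ℂ => Complex.exp (-(2 * Real.pi * Complex.I * θ * w)))
      upperHalfPlaneSet := by
    apply Differentiable.differentiableOn
    fun_prop
  refine this.congr fun w hw => ?_
  simp only [Function.comp_apply]
  rw [ofComplex_apply_of_im_pos hw]

lemma mdiff_Bmat (hb : IsHomBasis N κ m) (x j : X N) : MDiff (fun z => Bmat N κ m z x j) :=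
  (mdiff_exp_neg (theta N x)).mul (mdiff_Umat_mul_Phi hb x j)

lemma norm_exp_neg (θ : ℝ) (z : ℍ) :
    ‖Complex.exp (-(2 * Real.pi * Complex.I * θ * z))‖ = Real.exp (2 * Real.pi * θ * z.im) := by
  rw [Complex.norm_exp]
  congr 1
  simp [Complex.mul_re, Complex.mul_im]

lemma isBigO_Bmat (hb : IsHomBasis N κ m) (x j : X N) :
    (fun z => Bmat N κ m z x j) =O[atImInfty]
      fun z : ℍ => Real.exp (2 * Real.pi * theta N x * z.im) := by
  have h1 : (fun z : ℍ => Complex.exp (-(2 * Real.pi * Complex.I * theta N x * z))) =O[atImInfty]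
      fun z : ℍ => Real.exp (2 * Real.pi * theta N x * z.im) :=
    IsBigO.of_bound 1 (Eventually.of_forall fun z => by
      rw [norm_exp_neg, one_mul, Real.norm_eq_abs, abs_of_pos (Real.exp_pos _)])
  have h2 : (fun z => (Umat N * Phi N κ m z) x j) =O[atImInfty] fun _ : ℍ => (1 : ℝ) := by
    have : (fun z => (Umat N * Phi N κ m z) x j) =
        ∑ q, fun z => (Umat N x q) * (cF (Gamma0 N) (κ j) (m j) q z) := by
      funext z
      rw [Matrix.mul_apply, Finset.sum_apply]
      rfl
    rw [this]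
    refine IsBigO.sum fun q _ => ?_
    have hbd : IsBoundedAtImInfty (cF (Gamma0 N) (κ j) (m j) q) := (hb.mem j).cF_bdd q
    have : (cF (Gamma0 N) (κ j) (m j) q) =O[atImInfty] fun _ : ℍ => (1 : ℝ) := hbd
    exact this.const_mul_left _
  have := h1.mul h2
  simpa [Bmat] using this

/-- The entries of `B` have limits at `i∞`. -/
lemma exists_tendsto_Bmat (hb : IsHomBasis N κ m) (x j : X N) :
    ∃ L : ℂ, Tendsto (fun z => Bmat N κ m z x j) atImInfty (𝓝 L) :=
  exists_tendsto_of_periodic_of_growth (fun z => Bmat_vadd_one hb z x j) (mdiff_Bmat hb x j)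
    (theta_lt_one x) (isBigO_Bmat hb x j)

/-- The limit matrix `B(∞)`. -/
noncomputable def Binf (hb : IsHomBasis N κ m) : Matrix (X N) (X N) ℂ := fun x j =>
  (exists_tendsto_Bmat hb x j).choose

lemma tendsto_Bmat (hb : IsHomBasis N κ m) (x j : X N) :
    Tendsto (fun z => Bmat N κ m z x j) atImInfty (𝓝 (Binf hb x j)) :=
  (exists_tendsto_Bmat hb x j).choose_spec

/-- `det B(∞) ≠ 0`. -/
theorem det_Binf_ne_zero (hb : IsHomBasis N κ m) : (Binf hb).det ≠ 0 :=
  CuspFree.det_Binf_ne_zero hb (Umat N) isUnit_det_Umat (theta N) theta_nonneg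
    (Bmat N κ m) (Binf hb) hfact (fun z x j => Bmat_vadd_one hb z x j)
    (fun x j => mdiff_Bmat hb x j) (fun x j => tendsto_Bmat hb x j)

end

/-! ### The interface of `CuspsEnd` and the two F8(c) statements -/

section final

open scoped Classical

lemma sum_theta : ∑ x, theta N x = ((Nat.card (X N) : ℝ) - (Nat.card
    (MulAction.orbitRel.Quotient (Subgroup.zpowers ModularGroup.T) (X N)) : ℝ)) / 2 := by
  have h := sum_expo_div_width (Gamma0 N) ModularGroup.T
  have h' := congrArg (fun r : ℚ => (r : ℝ)) h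
  simp only [Rat.cast_sum, Rat.cast_div, Rat.cast_natCast, Rat.cast_sub, Rat.cast_ofNat] at h'
  exact h'

/-- The block-DFT factorisation of `Φ` at `i∞` satisfies helper3's interface. -/
theorem isCuspData (hb : IsHomBasis N κ m) :
    CuspsEnd.IsCuspData N κ m (Umat N) (theta N) (Bmat N κ m) (Binf hb) where
  hU := isUnit_det_Umat
  hθ1 := theta_lt_one
  hsum := sum_theta
  hfact := hfact
  hlim := tendsto_Bmat hb
  hdet := det_Binf_ne_zero hb

/-- **F8 (c), first half** (Skeleton `sum_weights`). -/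
theorem sum_weights (hb : IsHomBasis N κ m) :
    ∑ j, κ j = 6 * ((Nat.card (X N) : ℤ) -
      Nat.card (MulAction.orbitRel.Quotient (Subgroup.zpowers ModularGroup.T) (X N))) :=
  CuspsEnd.sum_weights_of hb (fun z => Invertible.det_Phi_ne_zero hb z) (isCuspData hb)

/-- **F8 (c), second half** (Skeleton `isZeroAtImInfty_discriminant_mul_inv`). -/
theorem isZeroAtImInfty_discriminant_mul_inv (hb : IsHomBasis N κ m) (q j : X N) :
    IsZeroAtImInfty (fun z => ModularForm.discriminant z * (Phi N κ m z)⁻¹ j q) :=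
  CuspsEnd.isZeroAtImInfty_discriminant_mul_inv_of (isCuspData hb) q j

end final

end Fermat.Agent.M2F.CuspB
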