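import Fermat.Agent.M2F.LevelRaise
import Fermat.Agent.M2F.LevelOneZeros
import Fermat.Agent.M2.JN

/-!
# M2F / F4: `ψ = [SL(2,ℤ) : Γ₀(N)]` forms of one weight with non-vanishing coset determinant

With `u = E₄ ∣[4] diag(N,1)`, `v = Δ ∣[12] diag(N,1)` (forms of level `Γ₀(N)`), the forms
`f_i = u^(3i) v^(ψ-1-i)`, `0 ≤ i < ψ`, all have weight `12(ψ-1)`, and the matrix of their coset
translates at `z` is `diag(c_q) · Vandermonde(t_q)` with `t_q = N⁻² j(N σ_q z)`.  The conjugates
`j(N σ_q z)` are pairwise distinct as functions of `z` (helper15's `jN_invariant_iff`), hence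
pairwise distinct at some `z`, where the determinant does not vanish.
-/

set_option autoImplicit false

open UpperHalfPlane ModularForm MatrixGroups CongruenceSubgroup Matrix.SpecialLinearGroup
open scoped Manifold Topology

namespace Fermat.Agent.M2F.RankLower

open Fermat.Agent.M2 Fermat.Agent.M2F Fermat.Agent.M2F.LevelRaise Fermat.Agent.M2.JN

local notation "Δ" => ModularForm.discriminant

/-! ### Finitely many non-zero holomorphic functions on `ℍ` are simultaneously non-zero somewhere -/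

lemma mdiff_prod {ι : Type*} (s : Finset ι) (F : ι → ℍ → ℂ) (hF : ∀ i ∈ s, MDiff (F i)) :
    MDiff (∏ i ∈ s, F i) := by
  classical
  induction s using Finset.induction_on with
  | empty =>
    simp only [Finset.prod_empty]
    exact mdifferentiable_const
  | insert a s ha ih =>
    rw [Finset.prod_insert ha]
    exact (hF a (Finset.mem_insert_self a s)).mul
      (ih fun i hi => hF i (Finset.mem_insert_of_mem hi))

lemma exists_prod_ne_zero {ι : Type*} (s : Finset ι) (F : ι → ℍ → ℂ) (hF : ∀ i ∈ s, MDiff (F i))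
    (hne : ∀ i ∈ s, ∃ z, F i z ≠ 0) : ∃ z, (∏ i ∈ s, F i) z ≠ 0 := by
  classical
  induction s using Finset.induction_on with
  | empty => exact ⟨UpperHalfPlane.I, by simp⟩
  | insert a s ha ih =>
    rw [Finset.prod_insert ha]
    have hFa := hF a (Finset.mem_insert_self a s)
    have hP : MDiff (∏ i ∈ s, F i) :=
      mdiff_prod s F fun i hi => hF i (Finset.mem_insert_of_mem hi)
    obtain ⟨z₀, hz₀⟩ := ih (fun i hi => hF i (Finset.mem_insert_of_mem hi))
      (fun i hi => hne i (Finset.mem_insert_of_mem hi))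
    by_contra hcon
    push Not at hcon
    have h0 : F a * ∏ i ∈ s, F i = 0 := funext hcon
    have := Zeros.eq_zero_of_mul_eq_zero hFa hP h0 (hne a (Finset.mem_insert_self a s))
    exact hz₀ (by rw [this]; rfl)

lemma exists_forall_ne_zero {ι : Type*} (s : Finset ι) (F : ι → ℍ → ℂ)
    (hF : ∀ i ∈ s, MDiff (F i)) (hne : ∀ i ∈ s, ∃ z, F i z ≠ 0) :
    ∃ z, ∀ i ∈ s, F i z ≠ 0 := by
  obtain ⟨z, hz⟩ := exists_prod_ne_zero s F hF hne
  refine ⟨z, fun i hi h0 => hz ?_⟩
  rw [Finset.prod_apply]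
  exact Finset.prod_eq_zero hi h0

/-! ### The conjugates of `j(Nz)` -/

variable (N : ℕ) [NeZero N]

/-- `diag(N,1) • z = N z`. -/
lemma heckeDiag_smul_eq_scaleH (z : ℍ) : heckeDiagMatrix N • z = scaleH N z := by
  apply UpperHalfPlane.ext
  rw [coe_heckeDiag_smul, coe_scaleH]

/-- The conjugate `z ↦ j(N σ_q z)`, `σ_q = q.out⁻¹`. -/
noncomputable def jConj (q : X N) (z : ℍ) : ℂ := jN N ((q.out)⁻¹ • z)

lemma mdiff_jConj (q : X N) : MDiff (jConj N q) :=
  mdiff_comp_smul (mdiff_jN N) _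

lemma jConj_ne {q q' : X N} (h : q ≠ q') : ∃ z, jConj N q z - jConj N q' z ≠ 0 := by
  by_contra hcon
  push Not at hcon
  apply h
  have hmem : (q.out)⁻¹ * q'.out ∈ Gamma0 N := by
    rw [← jN_invariant_iff]
    intro z
    have := hcon (q'.out • z)
    rw [sub_eq_zero] at this
    simp only [jConj] at this
    rw [mul_smul, this, inv_smul_smul]
  have := QuotientGroup.eq.mpr hmem
  rwa [QuotientGroup.out_eq', QuotientGroup.out_eq'] at this

/-- There is a point where all the conjugates are pairwise distinct. -/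
lemma exists_injective_jConj : ∃ z : ℍ, Function.Injective fun q : X N => jConj N q z := by
  classical
  obtain ⟨z, hz⟩ := exists_forall_ne_zero
    ((Finset.univ : Finset (X N × X N)).filter fun p => p.1 ≠ p.2)
    (fun p z => jConj N p.1 z - jConj N p.2 z)
    (fun p _ => (mdiff_jConj N p.1).sub (mdiff_jConj N p.2))
    (fun p hp => jConj_ne N (Finset.mem_filter.mp hp).2)
  refine ⟨z, fun q q' hqq' => ?_⟩
  by_contra hne
  exact hz (q, q') (Finset.mem_filter.mpr ⟨Finset.mem_univ _, hne⟩) (sub_eq_zero.mpr hqq')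

/-! ### The forms and the determinant -/

/-- `N³ E₄(Nz)`, a modular form of weight 4 on `Γ₀(N)`. -/
noncomputable def uF : ℍ → ℂ := (E₄ : ℍ → ℂ) ∣[(4 : ℤ)] heckeDiagMatrix N

/-- `N¹¹ Δ(Nz)`, a cusp form of weight 12 on `Γ₀(N)`. -/
noncomputable def vF : ℍ → ℂ := (Δ : ℍ → ℂ) ∣[(12 : ℤ)] heckeDiagMatrix N

lemma isMF_uF : IsMF (Gamma0 N) 4 (uF N) := isMF_slash_heckeDiag N isMF_E₄

lemma isCF_vF : IsCF (Gamma0 N) 12 (vF N) := isCF_slash_heckeDiag N isCF_discriminant

lemma isMF_vF : IsMF (Gamma0 N) 12 (vF N) := (isCF_vF N).isMF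

lemma uF_apply (z : ℍ) : uF N z = (N : ℂ) ^ 3 * E₄ (scaleH N z) := by
  rw [uF, slash_heckeDiag_apply, heckeDiag_smul_eq_scaleH]
  norm_num

lemma vF_apply (z : ℍ) : vF N z = (N : ℂ) ^ 11 * Δ (scaleH N z) := by
  rw [vF, slash_heckeDiag_apply, heckeDiag_smul_eq_scaleH]
  norm_num

lemma natCast_ne_zero' : (N : ℂ) ≠ 0 := Nat.cast_ne_zero.mpr (NeZero.ne N)

lemma vF_ne_zero (z : ℍ) : vF N z ≠ 0 := by
  rw [vF_apply]
  exact mul_ne_zero (pow_ne_zero _ (natCast_ne_zero' N)) (discriminant_ne_zero _)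

lemma uF_cube_div_vF (z : ℍ) : uF N z ^ 3 / vF N z = ((N : ℂ) ^ 2)⁻¹ * jN N z := by
  rw [uF_apply, vF_apply, jN, jInv_def]
  have h1 := natCast_ne_zero' N
  have h2 := discriminant_ne_zero (scaleH N z)
  field_simp



lemma slash_monomial_apply (σ : SL(2, ℤ)) (z : ℍ) (k : ℤ) {a m : ℕ} (ha : a ≤ m) :
    ((uF N ^ (3 * a) * vF N ^ (m - a)) ∣[k] σ) z =
      (vF N (σ • z) ^ m * denom σ z ^ (-k)) * (uF N (σ • z) ^ 3 / vF N (σ • z)) ^ a := by
  have hv := vF_ne_zero N (σ • z)
  rw [ModularForm.SL_slash_apply]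
  simp only [Pi.mul_apply, Pi.pow_apply]
  rw [pow_sub₀ _ hv ha, div_pow, pow_mul]
  field_simp

/-- **F4.**  There are `ψ = [SL(2,ℤ) : Γ₀(N)]` modular forms of one weight on `Γ₀(N)` whose matrix
of coset translates is invertible at some point. -/
theorem exists_forms_det_ne_zero [DecidableEq (X N)] : ∃ (k : ℤ) (f : X N → ℍ → ℂ),
    (∀ i, IsMF (Gamma0 N) k (f i)) ∧
      ∃ z, (Matrix.of fun q i => cF (Gamma0 N) k (f i) q z).det ≠ 0 := by
  let e : X N ≃ Fin (Fintype.card (X N)) := Fintype.equivFin (X N)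
  set m : ℕ := Fintype.card (X N) - 1 with hm
  have hem : ∀ i, (e i : ℕ) ≤ m := fun i => by
    have := (e i).2
    omega
  refine ⟨12 * (m : ℤ), fun i => uF N ^ (3 * (e i : ℕ)) * vF N ^ (m - (e i : ℕ)),
    fun i => ?_, ?_⟩
  · refine (((isMF_uF N).pow _).mul ((isMF_vF N).pow _)).of_weight_eq ?_
    have := hem i
    push_cast [Nat.cast_sub this]
    ring
  · obtain ⟨z, hz⟩ := exists_injective_jConj N
    refine ⟨z, ?_⟩
    set k : ℤ := 12 * (m : ℤ) with hk
    let σ : X N → SL(2, ℤ) := fun q => (q.out)⁻¹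
    set c : X N → ℂ := fun q => vF N (σ q • z) ^ m * denom (σ q) z ^ (-k) with hc
    set t : X N → ℂ := fun q => uF N (σ q • z) ^ 3 / vF N (σ q • z) with ht
    have hmat : (Matrix.of fun q i =>
        cF (Gamma0 N) k (uF N ^ (3 * (e i : ℕ)) * vF N ^ (m - (e i : ℕ))) q z) =
        Matrix.of fun q i =>
          c q * ((Matrix.vandermonde fun j => t (e.symm j)).submatrix e e) q i := by
      ext q i
      simp only [Matrix.of_apply, Matrix.submatrix_apply, Matrix.vandermonde_apply,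
        Equiv.symm_apply_apply]
      exact slash_monomial_apply N (σ q) z k (hem i)
    rw [hmat, Matrix.det_mul_column, Matrix.det_submatrix_equiv_self]
    refine mul_ne_zero (Finset.prod_ne_zero_iff.mpr fun q _ => ?_)
      (Matrix.det_vandermonde_ne_zero_iff.mpr ?_)
    · exact mul_ne_zero (pow_ne_zero _ (vF_ne_zero N _))
        (zpow_ne_zero _ (denom_ne_zero _ z))
    · intro j j' hjj'
      simp only [ht, uF_cube_div_vF] at hjj'
      have h2 : ((N : ℂ) ^ 2)⁻¹ ≠ 0 := inv_ne_zero (pow_ne_zero _ (natCast_ne_zero' N))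
      have := hz (mul_left_cancel₀ h2 hjj')
      exact e.symm.injective this

end Fermat.Agent.M2F.RankLower
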