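import Mathlib

/-!
# M2F / F8 (b): periodic holomorphic functions of moderate growth at `i∞`

A `1`-periodic holomorphic function on `ℍ` with `f = O(exp(2π θ Im z))`, `θ < 1`, has a limit at
`i∞`; if the limit is `0` it decays like `exp(-2π Im z)`.
-/

set_option autoImplicit false

open UpperHalfPlane Filter Topology Function Complex
open scoped Manifold Real

namespace Fermat.Agent.M2F.Cusps

local notation "𝕢" => Periodic.qParam

lemma periodic_comp_ofComplex {f : ℍ → ℂ} (hper : ∀ z : ℍ, f ((1 : ℝ) +ᵥ z) = f z) :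
    Periodic (f ∘ ofComplex) (1 : ℝ) := by
  intro w
  simp only [comp_apply]
  by_cases hw : 0 < w.im
  · have hw' : 0 < (w + (1 : ℝ)).im := by simpa using hw
    rw [ofComplex_apply_of_im_pos hw', ofComplex_apply_of_im_pos hw, ← hper ⟨w, hw⟩]
    congr 1
    ext
    simp [add_comm]
  · have hw' : (w + (1 : ℝ)).im ≤ 0 := by simpa using not_lt.mp hw
    rw [ofComplex_apply_of_im_nonpos hw', ofComplex_apply_of_im_nonpos (not_lt.mp hw)]

lemma norm_qParam_one (z : ℍ) : ‖𝕢 1 (z : ℂ)‖ = Real.exp (-2 * π * z.im) := by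
  rw [Periodic.norm_qParam]; simp

/-- A bounded `1`-periodic holomorphic function on `ℍ` has a limit at `i∞`. -/
theorem exists_tendsto_of_periodic_of_bounded {f : ℍ → ℂ}
    (hper : ∀ z : ℍ, f ((1 : ℝ) +ᵥ z) = f z) (hhol : MDiff f) (hbdd : IsBoundedAtImInfty f) :
    Tendsto f atImInfty (𝓝 (cuspFunction 1 f 0)) := by
  have hp := periodic_comp_ofComplex hper
  have han := analyticAt_cuspFunction_zero one_pos hp hhol hbdd
  have : (cuspFunction 1 f ∘ fun τ : ℍ ↦ 𝕢 1 τ : ℍ → ℂ) = f := by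
    funext τ
    simpa using eq_cuspFunction τ one_ne_zero hp
  simpa [this] using han.continuousAt.tendsto.comp (qParam_tendsto_atImInfty one_pos)

/-- **F8 (b)**: a `1`-periodic holomorphic function on `ℍ` with growth `O(exp(2π θ Im z))`,
`θ < 1`, has a limit at `i∞`. -/
theorem exists_tendsto_of_periodic_of_growth {f : ℍ → ℂ}
    (hper : ∀ z : ℍ, f ((1 : ℝ) +ᵥ z) = f z) (hhol : MDiff f) {θ : ℝ} (hθ : θ < 1)
    (hgrowth : f =O[atImInfty] fun z : ℍ => Real.exp (2 * π * θ * z.im)) :
    ∃ L : ℂ, Tendsto f atImInfty (𝓝 L) := by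
  -- `g = f * q` is periodic, holomorphic and tends to zero
  set g : ℍ → ℂ := fun z => f z * 𝕢 1 (z : ℂ) with hg
  have hqper : ∀ z : ℍ, 𝕢 1 (((1 : ℝ) +ᵥ z : ℍ) : ℂ) = 𝕢 1 (z : ℂ) := by
    intro z
    have : (((1 : ℝ) +ᵥ z : ℍ) : ℂ) = (z : ℂ) + (1 : ℝ) := by simp [add_comm]
    rw [this]
    simp only [Periodic.qParam, ofReal_one, div_one]
    rw [mul_add, Complex.exp_add]
    have : Complex.exp (2 * π * Complex.I * 1) = 1 := by
      rw [mul_one]; exact Complex.exp_two_pi_mul_I
    rw [this, mul_one]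
  have hgper : ∀ z : ℍ, g ((1 : ℝ) +ᵥ z) = g z := by
    intro z; simp only [hg, hper z, hqper z]
  have hqhol : MDiff (fun z : ℍ => 𝕢 1 (z : ℂ)) := by
    intro z
    rw [UpperHalfPlane.mdifferentiableAt_iff]
    have h1 : DifferentiableAt ℂ (fun w : ℂ => 𝕢 1 w) (z : ℂ) := by
      unfold Periodic.qParam
      fun_prop
    refine h1.congr_of_eventuallyEq ?_
    filter_upwards [isOpen_upperHalfPlaneSet.mem_nhds z.2] with w hw
    simp [comp_apply, ofComplex_apply_of_im_pos hw]
  have hghol : MDiff g := hhol.mul hqhol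
  have hgzero : IsZeroAtImInfty g := by
    -- `‖g z‖ ≤ C exp(-2π(1-θ) Im z)`
    have h1 : g =O[atImInfty] fun z : ℍ => Real.exp (-(2 * π * (1 - θ)) * z.im) := by
      have hq : (fun z : ℍ => 𝕢 1 (z : ℂ)) =O[atImInfty]
          fun z : ℍ => Real.exp (-2 * π * z.im) := by
        refine Asymptotics.IsBigO.of_bound 1 (Eventually.of_forall fun z => ?_)
        rw [norm_qParam_one, one_mul, Real.norm_of_nonneg (Real.exp_pos _).le]
      refine (hgrowth.mul hq).congr_right fun z => ?_
      rw [← Real.exp_add]; congr 1; ring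
    have h2 : Tendsto (fun z : ℍ => Real.exp (-(2 * π * (1 - θ)) * z.im)) atImInfty (𝓝 0) := by
      have hc : 0 < 2 * π * (1 - θ) := by
        have := Real.pi_pos
        have : 0 < 1 - θ := by linarith
        positivity
      have h3 : Tendsto (fun z : ℍ => (2 * π * (1 - θ)) * z.im) atImInfty atTop :=
        (tendsto_comap (f := UpperHalfPlane.im) (x := atTop)).const_mul_atTop hc
      refine (Real.tendsto_exp_neg_atTop_nhds_zero.comp h3).congr fun z => ?_
      simp [comp_apply]
    exact h1.trans_tendsto h2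
  have hgbdd : IsBoundedAtImInfty g := hgzero.isBoundedAtImInfty
  have hgp := periodic_comp_ofComplex hgper
  have han : AnalyticAt ℂ (cuspFunction 1 g) 0 :=
    analyticAt_cuspFunction_zero one_pos hgp hghol hgbdd
  have hG0 : cuspFunction 1 g 0 = 0 := hgzero.cuspFunction_apply_zero one_pos
  -- `f z = dslope G 0 (q z)`
  refine ⟨dslope (cuspFunction 1 g) 0 0, ?_⟩
  have hcont : ContinuousAt (dslope (cuspFunction 1 g) 0) 0 :=
    continuousAt_dslope_same.mpr han.differentiableAt
  have hfeq : f = (dslope (cuspFunction 1 g) 0) ∘ fun z : ℍ => 𝕢 1 (z : ℂ) := by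
    funext z
    have hq0 : 𝕢 1 (z : ℂ) ≠ 0 := Periodic.qParam_ne_zero _
    rw [comp_apply, dslope_of_ne _ hq0, slope_def_field, hG0, sub_zero, sub_zero,
      eq_cuspFunction z one_ne_zero hgp]
    simp only [hg]
    field_simp
  rw [hfeq]
  exact hcont.tendsto.comp (qParam_tendsto_atImInfty one_pos)

/-- A `1`-periodic holomorphic function tending to `0` at `i∞` decays like `exp(-2π Im z)`. -/
theorem isBigO_exp_of_periodic_of_tendsto_zero {f : ℍ → ℂ}
    (hper : ∀ z : ℍ, f ((1 : ℝ) +ᵥ z) = f z) (hhol : MDiff f) (hzero : IsZeroAtImInfty f) :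
    f =O[atImInfty] fun z : ℍ => Real.exp (-2 * π * z.im) := by
  have := hzero.exp_decay_atImInfty one_pos (periodic_comp_ofComplex hper) hhol
    hzero.isBoundedAtImInfty
  simpa using this

end Fermat.Agent.M2F.Cusps
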