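import Fermat.Agent.M2F.Regular
import Fermat.Agent.M2F.Traces
import Fermat.Agent.M2F.CuspAnalysis

/-!
# M2F / F8(c), DFT-independent half of step (ii)

For a homogeneous basis `m_j` (weights `κ_j`) of `M_*(Γ₀(N))` over the level-one forms:

* `exists_unit_forms`: there are a weight `K0` and level-one forms `e_j` of weight `K0 - κ_j` with
  `e_j → 1` at `i∞`;
* `coeff_eq_zero_of_cuspidal`: if all coset translates of `G = ∑ c_j e_j m_j` are
  `O(exp (-2π im z))` at `i∞`, then `c = 0` (divide by `Δ`, expand in the basis, use freeness and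
  take the limit at `i∞`);
* `cF_comb_apply`: `cF G q z = ∑ j, Φ(z) q j * (c_j * e_j z)`;
* `det_Binf_ne_zero` (PART 2 of F8(c)): if `U Φ(z) = diag(exp(2πi θ_x z)) B(z)` with `U` invertible,
  `θ ≥ 0`, and the entries of `B` are `1`-periodic, holomorphic with limit `Binf` at `i∞`, then
  `det Binf ≠ 0`.
-/

set_option autoImplicit false

open UpperHalfPlane ModularForm MatrixGroups CongruenceSubgroup Filter Asymptotics
open scoped Manifold Topology

namespace Fermat.Agent.M2F.CuspFree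

open Fermat.Agent.M2F

local notation "Δ" => ModularForm.discriminant

variable {N : ℕ} [NeZero N] {κ : X N → ℤ} {m : X N → ℍ → ℂ}

/-- Level-one forms of weights `K0 - κ_j` with value `1` at `i∞`. -/
theorem exists_unit_forms (hb : IsHomBasis N κ m) :
    ∃ (K0 : ℤ) (e : X N → ℍ → ℂ), (∀ j, IsMF ⊤ (K0 - κ j) (e j)) ∧
      ∀ j, Tendsto (e j) atImInfty (𝓝 1) := by
  classical
  set K0 : ℤ := 4 + 2 * ∑ j, |κ j| with hK0
  have hle : ∀ j, κ j + 4 ≤ K0 := by
    intro j
    have h1 : |κ j| ≤ ∑ i, |κ i| :=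
      Finset.single_le_sum (f := fun i => |κ i|) (fun i _ => abs_nonneg (κ i)) (Finset.mem_univ j)
    have h2 : κ j ≤ |κ j| := le_abs_self _
    have h3 : 0 ≤ ∑ i, |κ i| := Finset.sum_nonneg fun i _ => abs_nonneg (κ i)
    omega
  have hev : ∀ j, Even (K0 - κ j) := by
    intro j
    have h1 : Even K0 := by
      rw [hK0]
      exact Even.add (by decide) (even_two_mul _)
    exact h1.sub (Traces.even_weight hb j)
  have hex : ∀ j, ∃ e : ℍ → ℂ, IsMF ⊤ (K0 - κ j) e ∧ Tendsto e atImInfty (𝓝 1) := by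
    intro j
    have hpos : 0 < K0 - κ j := by have := hle j; omega
    have hne : K0 - κ j ≠ 2 := by have := hle j; omega
    obtain ⟨b, c, hb', hc', hlim⟩ := Regular.exists_monomial hpos (hev j) hne
    refine ⟨(E₄ : ℍ → ℂ) * b + (E₆ : ℍ → ℂ) * c, ?_, hlim⟩
    exact ((isMF_E₄.mul hb').of_weight_eq (by ring)).add ((isMF_E₆.mul hc').of_weight_eq (by ring))
  choose e he he1 using hex
  exact ⟨K0, e, he, he1⟩

/-- `cF` pulls out a level-one factor (weights given up to a propositional equality). -/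
lemma cF_mul_of_eq {Γ : Subgroup SL(2, ℤ)} {K l k : ℤ} {a : ℍ → ℂ} (ha : IsMF ⊤ l a)
    (hK : K = l + k) (f : ℍ → ℂ) (q : SL(2, ℤ) ⧸ Γ) : cF Γ K (a * f) q = a * cF Γ k f q := by
  subst hK
  exact cF_mul (fun γ => ha.inv γ (Subgroup.mem_top γ)) f q

/-- The coset translates of `∑ c_j e_j m_j` are the entries of `Φ(z) (c ⊙ e(z))`. -/
theorem cF_comb_apply (K0 : ℤ) (e : X N → ℍ → ℂ) (he : ∀ j, IsMF ⊤ (K0 - κ j) (e j))
    (c : X N → ℂ) (q : X N) (z : ℍ) :
    cF (Gamma0 N) K0 (∑ j, c j • (e j * m j)) q z = ∑ j, Phi N κ m z q j * (c j * e j z) := by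
  rw [cF_sum, Finset.sum_apply]
  refine Finset.sum_congr rfl fun j _ => ?_
  rw [cF_smul, cF_mul_of_eq (he j) (by ring : K0 = (K0 - κ j) + κ j)]
  simp only [Pi.smul_apply, Pi.mul_apply, smul_eq_mul, Phi]
  ring

/-- The combination `∑ c_j e_j m_j` is a modular form of weight `K0` on `Γ₀(N)`. -/
lemma isMF_comb (hb : IsHomBasis N κ m) (K0 : ℤ) (e : X N → ℍ → ℂ)
    (he : ∀ j, IsMF ⊤ (K0 - κ j) (e j)) (c : X N → ℂ) :
    IsMF (Gamma0 N) K0 (∑ j, c j • (e j * m j)) :=
  IsMF.sum _ fun j _ =>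
    ((((he j).mono le_top).mul (hb.mem j)).of_weight_eq (by ring)).smul (c j)

/-- **No cuspidal combinations.**  If all coset translates of `∑ c_j e_j m_j` (with `e_j → 1`)
decay like `exp (-2π im z)`, then `c = 0`. -/
theorem coeff_eq_zero_of_cuspidal (hb : IsHomBasis N κ m) (K0 : ℤ) (e : X N → ℍ → ℂ)
    (he : ∀ j, IsMF ⊤ (K0 - κ j) (e j)) (he1 : ∀ j, Tendsto (e j) atImInfty (𝓝 1))
    (c : X N → ℂ)
    (hdecay : ∀ q, (cF (Gamma0 N) K0 (∑ j, c j • (e j * m j)) q) =O[atImInfty]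
      fun z : ℍ => Real.exp (-2 * Real.pi * z.im)) : c = 0 := by
  classical
  set G : ℍ → ℂ := ∑ j, c j • (e j * m j) with hG
  have hGmf : IsMF (Gamma0 N) K0 G := isMF_comb hb K0 e he c
  -- divide by `Δ`
  obtain ⟨h, hh, hGh⟩ := Regular.div_discriminant hGmf (fun γ => by
    have := hdecay ((γ⁻¹ : SL(2, ℤ)) : X N)
    rwa [cF_mk hGmf.inv, inv_inv] at this)
  -- expand `h` in the basis
  obtain ⟨a, ha, hha⟩ := hb.gen (K0 - 12) h hh
  -- the relation
  have hrel : ∑ j, (c j • e j - Δ * a j) * m j = 0 := by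
    have h1 : ∑ j, (c j • e j - Δ * a j) * m j = G - Δ * h := by
      rw [hG, hha, Finset.mul_sum, ← Finset.sum_sub_distrib]
      refine Finset.sum_congr rfl fun j _ => ?_
      funext z
      simp only [Pi.mul_apply, Pi.sub_apply, Pi.smul_apply, smul_eq_mul]
      ring
    rw [h1, hGh, sub_self]
  have hcoef : ∀ j, IsMF ⊤ (K0 - κ j) (c j • e j - Δ * a j) := fun j =>
    ((he j).smul (c j)).sub ((isCF_discriminant.isMF.mul (ha j)).of_weight_eq (by ring))
  have hzero := hb.free K0 _ hcoef hrel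
  funext j
  -- take the limit at `i∞`
  have h1 : Tendsto (c j • e j) atImInfty (𝓝 (c j)) := by
    have := (he1 j).const_smul (c j)
    rw [smul_eq_mul, mul_one] at this
    exact this
  have h2 : Tendsto ((Δ : ℍ → ℂ) * a j) atImInfty (𝓝 0) := by
    have hbd : IsBoundedAtImInfty (a j) := (isMF_top_iff.mp (ha j)).2.2
    have hz : IsZeroAtImInfty (Δ : ℍ → ℂ) := discriminant_isZeroAtImInfty
    have := hbd.mul_zeroAtFilter hz
    rw [mul_comm]
    exact this
  have h3 : c j • e j = Δ * a j := sub_eq_zero.mp (hzero j)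
  rw [h3] at h1
  exact tendsto_nhds_unique h1 h2

/-! ### PART 2 of F8(c): the limit matrix is invertible -/

/-- level-one forms are `1`-periodic on `ℍ` -/
lemma vadd_one_of_isMF_top {k : ℤ} {a : ℍ → ℂ} (ha : IsMF ⊤ k a) (z : ℍ) :
    a ((1 : ℝ) +ᵥ z) = a z := by
  have h := Regular.periodic_of_isMF_top ha (z : ℂ)
  simp only [Function.comp_apply] at h
  rw [ofComplex_apply] at h
  rw [← h]
  congr 1
  apply UpperHalfPlane.ext
  have him : 0 < ((z : ℂ) + (1 : ℝ)).im := by simpa using z.im_pos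
  rw [ofComplex_apply_of_im_pos him]
  simp [add_comm]

/-- `‖exp(2πi θ z)‖ ≤ 1` for `θ ≥ 0`. -/
lemma norm_exp_le_one {θ : ℝ} (hθ : 0 ≤ θ) (z : ℍ) :
    ‖Complex.exp (2 * Real.pi * Complex.I * θ * z)‖ ≤ 1 := by
  rw [Complex.norm_exp]
  have : (2 * Real.pi * Complex.I * θ * z).re = -(2 * Real.pi * θ * z.im) := by
    simp [Complex.mul_re, Complex.mul_im]
  rw [this, Real.exp_le_one_iff]
  have := z.im_pos
  have hpi := Real.pi_pos
  nlinarith [mul_nonneg (mul_nonneg (by positivity : (0:ℝ) ≤ 2 * Real.pi) hθ) this.le]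


/-- **F8(c), PART 2.**  For the DFT-normalised matrix `B(z)` (`U Φ(z) = diag(exp(2πi θ z)) B(z)`,
entries `1`-periodic, holomorphic, with limit `Binf` at `i∞`), the limit matrix is invertible. -/
theorem det_Binf_ne_zero [DecidableEq (X N)] (hb : IsHomBasis N κ m) (U : Matrix (X N) (X N) ℂ)
    (hU : IsUnit U.det) (θ : X N → ℝ) (hθ0 : ∀ x, 0 ≤ θ x)
    (B : ℍ → Matrix (X N) (X N) ℂ) (Binf : Matrix (X N) (X N) ℂ)
    (hfact : ∀ z x j, (U * Phi N κ m z) x j =
      Complex.exp (2 * Real.pi * Complex.I * θ x * z) * B z x j)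
    (hper : ∀ z x j, B ((1 : ℝ) +ᵥ z) x j = B z x j)
    (hholo : ∀ x j, MDiff (fun z => B z x j))
    (hlim : ∀ x j, Tendsto (fun z => B z x j) atImInfty (𝓝 (Binf x j))) : Binf.det ≠ 0 := by
  intro hdet
  obtain ⟨c, hc0, hc⟩ := Matrix.exists_mulVec_eq_zero_iff.mpr hdet
  apply hc0
  obtain ⟨K0, e, he, he1⟩ := exists_unit_forms hb
  refine coeff_eq_zero_of_cuspidal hb K0 e he he1 c fun q => ?_
  -- the periodic functions `β_x`
  set β : X N → ℍ → ℂ := fun x z => ∑ j, B z x j * (c j * e j z) with hβ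
  have hβper : ∀ x z, β x ((1 : ℝ) +ᵥ z) = β x z := by
    intro x z
    simp only [hβ]
    refine Finset.sum_congr rfl fun j _ => ?_
    rw [hper, vadd_one_of_isMF_top (he j)]
  have hβholo : ∀ x, MDiff (β x) := by
    intro x
    have : β x = ∑ j, (fun z => B z x j) * (c j • e j) := by
      funext z
      simp only [hβ, Finset.sum_apply, Pi.mul_apply, Pi.smul_apply, smul_eq_mul]
    rw [this]
    refine MDifferentiable.sum fun j _ => ?_
    exact (hholo x j).mul ((he j).holo.const_smul (c j))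
  have hβzero : ∀ x, IsZeroAtImInfty (β x) := by
    intro x
    have h1 : Tendsto (β x) atImInfty (𝓝 (∑ j, Binf x j * (c j * 1))) := by
      simp only [hβ]
      refine tendsto_finsetSum _ fun j _ => ?_
      exact (hlim x j).mul ((he1 j).const_mul (c j))
    have h2 : ∑ j, Binf x j * (c j * 1) = 0 := by
      have := congrFun hc x
      simpa [Matrix.mulVec, dotProduct] using this
    rw [h2] at h1
    exact h1
  have hβO : ∀ x, β x =O[atImInfty] fun z : ℍ => Real.exp (-2 * Real.pi * z.im) := fun x =>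
    Cusps.isBigO_exp_of_periodic_of_tendsto_zero (hβper x) (hβholo x) (hβzero x)
  -- `y_x(z) = ((U Φ(z)) (c ⊙ e(z)))_x = exp(2πi θ_x z) β_x(z)`
  set y : X N → ℍ → ℂ := fun x z => ∑ j, (U * Phi N κ m z) x j * (c j * e j z) with hy
  have hyO : ∀ x, y x =O[atImInfty] fun z : ℍ => Real.exp (-2 * Real.pi * z.im) := by
    intro x
    have hyx : y x = fun z : ℍ => Complex.exp (2 * Real.pi * Complex.I * θ x * z) * β x z := by
      funext z
      simp only [hy, hβ, Finset.mul_sum]
      refine Finset.sum_congr rfl fun j _ => ?_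
      rw [hfact]
      ring
    rw [hyx]
    have h1 : (fun z : ℍ => Complex.exp (2 * Real.pi * Complex.I * θ x * z)) =O[atImInfty]
        fun _ : ℍ => (1 : ℝ) :=
      IsBigO.of_bound 1 (Eventually.of_forall fun z => by
        simpa using norm_exp_le_one (hθ0 x) z)
    have := h1.mul (hβO x)
    simpa using this
  -- `cF G q z = (U⁻¹ y(z))_q`
  have hcF : (cF (Gamma0 N) K0 (∑ j, c j • (e j * m j)) q) =
      fun z => ∑ x, U⁻¹ q x * y x z := by
    funext z
    rw [cF_comb_apply K0 e he c q z]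
    have hUinv : U⁻¹ * U = 1 := Matrix.nonsing_inv_mul U hU
    have h1 : ∀ j, Phi N κ m z q j = ∑ x, U⁻¹ q x * (U * Phi N κ m z) x j := by
      intro j
      have : Phi N κ m z = U⁻¹ * (U * Phi N κ m z) := by
        rw [← Matrix.mul_assoc, hUinv, Matrix.one_mul]
      conv_lhs => rw [this]
      rw [Matrix.mul_apply]
    simp only [hy, Finset.mul_sum]
    rw [Finset.sum_comm]
    refine Finset.sum_congr rfl fun j _ => ?_
    rw [h1 j, Finset.sum_mul]
    refine Finset.sum_congr rfl fun x _ => ?_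
    ring
  rw [hcF]
  have : (fun z => ∑ x, U⁻¹ q x * y x z) = ∑ x, fun z => U⁻¹ q x * y x z := by
    funext z
    rw [Finset.sum_apply]
  rw [this]
  refine IsBigO.sum fun x _ => ?_
  exact (hyO x).const_mul_left _

end Fermat.Agent.M2F.CuspFree
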