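import Fermat.Agent.M2F.Defs
import Fermat.Agent.M2F.CuspDFT
import Fermat.Agent.M2F.CuspAnalysis
import Fermat.Agent.M2F.SquareBasis
import Fermat.Agent.M2F.Duality
import Fermat.Agent.M2F.DetEquiv
import Fermat.Agent.M2F.Nonvanishing
import Fermat.Agent.M2F.Regular
import Fermat.Agent.M2F.Invertible
import Fermat.Agent.M2.LevelOnePoly

/-!
# M2F / F8 (c): the cusps

For a homogeneous basis `m_j` (weights `κ_j`) of `M_*(Γ₀(N))` over the level-one forms with
`Φ(z)` invertible for every `z`: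

* `sum_weights'`: `∑ κ_j = 6 (ψ - c)`, `c` the number of `T`-orbits on `SL(2,ℤ) ⧸ Γ₀(N)`;
* `isZeroAtImInfty_discriminant_mul_inv'`: the entries of `Δ · Φ⁻¹` vanish at `i∞`.
-/

set_option autoImplicit false
set_option linter.unusedSectionVars false
set_option linter.style.longLine false

noncomputable section

open UpperHalfPlane ModularForm MatrixGroups CongruenceSubgroup Filter Function
open scoped Manifold Topology Classical Real

namespace Fermat.Agent.M2F.Cusps

open Fermat.Agent.M2F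

local notation "𝕢" => Function.Periodic.qParam

variable {N : ℕ} [NeZero N] {κ : X N → ℤ} {m : X N → ℍ → ℂ}

/-! ### Notation -/

/-- Fourier exponent at a coset. -/
abbrev sx (N : ℕ) [NeZero N] (x : X N) : ℕ := expo (Gamma0 N) ModularGroup.T x

/-- Width at a coset. -/
abbrev hx (N : ℕ) [NeZero N] (x : X N) : ℕ := width (Gamma0 N) ModularGroup.T x

/-- The exponent `θ_x = s_x / h_x ∈ [0, 1)`. -/
def th (N : ℕ) [NeZero N] (x : X N) : ℝ := (sx N x : ℝ) / (hx N x : ℝ)

lemma th_nonneg (x : X N) : 0 ≤ th N x := by unfold th; positivity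

lemma th_lt_one (x : X N) : th N x < 1 := by
  unfold th
  have h1 : (0 : ℝ) < (hx N x : ℝ) := by exact_mod_cast width_pos (Gamma0 N) ModularGroup.T x
  rw [div_lt_one h1]
  exact_mod_cast expo_lt_width (Gamma0 N) ModularGroup.T x

/-- the multiplier `e^{2πi θ_x z}` -/
def mult (N : ℕ) [NeZero N] (x : X N) (z : ℍ) : ℂ :=
  Complex.exp (2 * π * Complex.I * (th N x : ℂ) * (z : ℂ))

lemma mult_ne_zero (x : X N) (z : ℍ) : mult N x z ≠ 0 := Complex.exp_ne_zero _

lemma norm_mult (x : X N) (z : ℍ) : ‖mult N x z‖ = Real.exp (-(2 * π * th N x * z.im)) := by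
  unfold mult
  rw [Complex.norm_exp]
  congr 1
  simp [Complex.mul_re, Complex.mul_im]

lemma norm_mult_inv (x : X N) (z : ℍ) : ‖(mult N x z)⁻¹‖ = Real.exp (2 * π * th N x * z.im) := by
  rw [norm_inv, norm_mult, ← Real.exp_neg, neg_neg]

lemma mult_vadd (x : X N) (z : ℍ) :
    mult N x ((1 : ℝ) +ᵥ z) =
      Complex.exp (2 * π * Complex.I * (sx N x : ℂ) / (hx N x : ℂ)) * mult N x z := by
  unfold mult
  rw [← Complex.exp_add]
  congr 1
  have : (((1 : ℝ) +ᵥ z : ℍ) : ℂ) = 1 + (z : ℂ) := by simp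
  rw [this]
  unfold th
  push_cast
  ring

lemma mdiff_exp_mul (c : ℂ) : MDiff (fun z : ℍ => Complex.exp (c * (z : ℂ))) := by
  intro z
  rw [UpperHalfPlane.mdifferentiableAt_iff]
  have h1 : DifferentiableAt ℂ (fun w : ℂ => Complex.exp (c * w)) (z : ℂ) := by fun_prop
  refine h1.congr_of_eventuallyEq ?_
  filter_upwards [isOpen_upperHalfPlaneSet.mem_nhds z.2] with w hw
  simp [comp_apply, ofComplex_apply_of_im_pos hw]

lemma mdiff_mult (x : X N) : MDiff (mult N x) := mdiff_exp_mul _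

lemma mdiff_mult_inv (x : X N) : MDiff (fun z => (mult N x z)⁻¹) := by
  have : (fun z => (mult N x z)⁻¹)
      = fun z : ℍ => Complex.exp ((-(2 * π * Complex.I * (th N x : ℂ))) * (z : ℂ)) := by
    funext z
    unfold mult
    rw [← Complex.exp_neg]
    congr 1
    ring
  rw [this]
  exact mdiff_exp_mul _

/-! ### Translation by `T` -/

lemma Phi_vadd (hb : IsHomBasis N κ m) (z : ℍ) (q j : X N) :
    Phi N κ m ((1 : ℝ) +ᵥ z) q j = Phi N κ m z (ModularGroup.T⁻¹ • q) j := by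
  have h := Duality.Phi_smul hb ModularGroup.T z q j
  rw [UpperHalfPlane.modular_T_smul] at h
  rw [h]
  have hd : denom ModularGroup.T z = 1 := by
    simp [denom]
  rw [hd, one_zpow, one_mul]

/-- the DFT matrix -/
abbrev U (N : ℕ) [NeZero N] : Matrix (X N) (X N) ℂ := dftMatrix (Gamma0 N) ModularGroup.T

/-- entries of `U Φ(z)` -/
def uF (N : ℕ) [NeZero N] (κ : X N → ℤ) (m : X N → ℍ → ℂ) (x j : X N) (z : ℍ) : ℂ :=
  (U N * Phi N κ m z) x j

lemma uF_eq_dft (x j : X N) (z : ℍ) :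
    uF N κ m x j z = dftEquiv (Gamma0 N) ModularGroup.T (fun y => Phi N κ m z y j) x := by
  have h := congrFun (dftMatrix_mulVec (Gamma0 N) ModularGroup.T (fun y => Phi N κ m z y j)) x
  rw [← h]
  show (U N * Phi N κ m z) x j = _
  rw [Matrix.mul_apply]
  simp only [Matrix.mulVec, dotProduct]

lemma uF_vadd (hb : IsHomBasis N κ m) (x j : X N) (z : ℍ) :
    uF N κ m x j ((1 : ℝ) +ᵥ z) =
      Complex.exp (2 * π * Complex.I * (sx N x : ℂ) / (hx N x : ℂ)) * uF N κ m x j z := by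
  rw [uF_eq_dft, uF_eq_dft, ← dftEquiv_translate]
  have : (fun y => Phi N κ m ((1 : ℝ) +ᵥ z) y j)
      = fun y => Phi N κ m z (ModularGroup.T⁻¹ • y) j := funext fun y => Phi_vadd hb z y j
  rw [this]

lemma mdiff_Phi (hb : IsHomBasis N κ m) (q j : X N) : MDiff (fun z => Phi N κ m z q j) :=
  (hb.mem j).cF_holo q

lemma bdd_Phi (hb : IsHomBasis N κ m) (q j : X N) :
    IsBoundedAtImInfty (fun z => Phi N κ m z q j) :=
  (hb.mem j).cF_bdd q

lemma uF_eq_sum (x j : X N) :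
    uF N κ m x j = ∑ y, (fun z : ℍ => U N x y * Phi N κ m z y j) := by
  funext z
  simp [uF, Matrix.mul_apply, Finset.sum_apply]

lemma mdiff_uF (hb : IsHomBasis N κ m) (x j : X N) : MDiff (uF N κ m x j) := by
  rw [uF_eq_sum]
  exact MDifferentiable.sum fun y _ => mdifferentiable_const.mul (mdiff_Phi hb y j)

lemma bdd_uF (hb : IsHomBasis N κ m) (x j : X N) : IsBoundedAtImInfty (uF N κ m x j) := by
  rw [uF_eq_sum]
  unfold IsBoundedAtImInfty BoundedAtFilter
  have : ∀ y ∈ (Finset.univ : Finset (X N)),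
      (fun z : ℍ => U N x y * Phi N κ m z y j) =O[atImInfty] (1 : ℍ → ℝ) :=
    fun y _ => (bdd_Phi hb y j).const_mul_left _
  have h := Asymptotics.IsBigO.sum this
  convert h using 1

/-! ### The periodic matrix `B(z)` -/

/-- entries of `B(z) = D(z)⁻¹ U Φ(z)` -/
def bF (N : ℕ) [NeZero N] (κ : X N → ℤ) (m : X N → ℍ → ℂ) (x j : X N) (z : ℍ) : ℂ :=
  (mult N x z)⁻¹ * uF N κ m x j z

lemma bF_vadd (hb : IsHomBasis N κ m) (x j : X N) (z : ℍ) :
    bF N κ m x j ((1 : ℝ) +ᵥ z) = bF N κ m x j z := by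
  unfold bF
  rw [mult_vadd, uF_vadd hb, mul_inv]
  have h1 : Complex.exp (2 * π * Complex.I * (sx N x : ℂ) / (hx N x : ℂ)) ≠ 0 :=
    Complex.exp_ne_zero _
  have h2 := mult_ne_zero x z
  rw [mul_mul_mul_comm, inv_mul_cancel₀ h1, one_mul]

lemma mdiff_bF (hb : IsHomBasis N κ m) (x j : X N) : MDiff (bF N κ m x j) :=
  (mdiff_mult_inv x).mul (mdiff_uF hb x j)

lemma bF_isBigO (hb : IsHomBasis N κ m) (x j : X N) :
    bF N κ m x j =O[atImInfty] fun z : ℍ => Real.exp (2 * π * th N x * z.im) := by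
  have h1 : (fun z : ℍ => (mult N x z)⁻¹) =O[atImInfty]
      fun z : ℍ => Real.exp (2 * π * th N x * z.im) := by
    refine Asymptotics.IsBigO.of_bound 1 (Eventually.of_forall fun z => ?_)
    rw [norm_mult_inv, one_mul, Real.norm_of_nonneg (Real.exp_pos _).le]
  have h2 := h1.mul (bdd_uF hb x j)
  refine (h2.congr_left fun z => rfl).congr_right fun z => ?_
  simp

/-- the limit matrix `B(∞)` -/
lemma exists_bInf (hb : IsHomBasis N κ m) (x j : X N) :
    ∃ L : ℂ, Tendsto (bF N κ m x j) atImInfty (𝓝 L) :=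
  exists_tendsto_of_periodic_of_growth (bF_vadd hb x j) (mdiff_bF hb x j) (th_lt_one x)
    (bF_isBigO hb x j)

def bInf (hb : IsHomBasis N κ m) : Matrix (X N) (X N) ℂ :=
  fun x j => (exists_bInf hb x j).choose

lemma tendsto_bF (hb : IsHomBasis N κ m) (x j : X N) :
    Tendsto (bF N κ m x j) atImInfty (𝓝 (bInf hb x j)) :=
  (exists_bInf hb x j).choose_spec

/-! ### Matrix form -/

/-- the matrix `B(z)` -/
def Bmat (N : ℕ) [NeZero N] (κ : X N → ℤ) (m : X N → ℍ → ℂ) (z : ℍ) : Matrix (X N) (X N) ℂ :=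
  Matrix.of fun x j => bF N κ m x j z

lemma Bmat_eq (z : ℍ) :
    Bmat N κ m z = Matrix.diagonal (fun x => (mult N x z)⁻¹) * (U N * Phi N κ m z) := by
  ext x j
  simp [Bmat, bF, uF, Matrix.diagonal_mul]

lemma det_U_ne_zero : (U N).det ≠ 0 := (isUnit_det_dftMatrix (Gamma0 N) ModularGroup.T).ne_zero

lemma det_Bmat (z : ℍ) :
    (Bmat N κ m z).det = (∏ x, (mult N x z)⁻¹) * ((U N).det * (Phi N κ m z).det) := by
  rw [Bmat_eq, Matrix.det_mul, Matrix.det_diagonal, Matrix.det_mul]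

lemma det_Bmat_ne_zero (hb : IsHomBasis N κ m) (z : ℍ) : (Bmat N κ m z).det ≠ 0 := by
  rw [det_Bmat]
  refine mul_ne_zero ?_ (mul_ne_zero det_U_ne_zero (Invertible.det_Phi_ne_zero hb z))
  exact Finset.prod_ne_zero_iff.mpr fun x _ => inv_ne_zero (mult_ne_zero x z)

lemma Phi_inv_eq (hb : IsHomBasis N κ m) (z : ℍ) :
    (Phi N κ m z)⁻¹
      = (Bmat N κ m z)⁻¹ * Matrix.diagonal (fun x => (mult N x z)⁻¹) * U N := by
  apply Matrix.inv_eq_left_inv
  rw [Matrix.mul_assoc, Matrix.mul_assoc, ← Bmat_eq]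
  exact Matrix.nonsing_inv_mul _ (isUnit_iff_ne_zero.mpr (det_Bmat_ne_zero hb z))

lemma tendsto_Bmat (hb : IsHomBasis N κ m) :
    Tendsto (Bmat N κ m) atImInfty (𝓝 (bInf hb)) := by
  refine tendsto_pi_nhds.2 fun x => tendsto_pi_nhds.2 fun j => ?_
  exact tendsto_bF hb x j

/-! ### Level-one auxiliaries -/

/-- level-one forms are `1`-periodic -/
lemma isMF_top_vadd {k : ℤ} {a : ℍ → ℂ} (ha : IsMF ⊤ k a) (z : ℍ) :
    a ((1 : ℝ) +ᵥ z) = a z := by
  have h := congrFun (ha.inv ModularGroup.T (Subgroup.mem_top _)) z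
  rw [ModularForm.SL_slash_apply, UpperHalfPlane.modular_T_smul] at h
  have hd : denom ModularGroup.T z = 1 := by
    simp [denom]
  rw [hd, one_zpow, mul_one] at h
  exact h

lemma exists_unit_form (w : ℤ) (hw : Even w) (h4 : 4 ≤ w) :
    ∃ e : ℍ → ℂ, IsMF ⊤ w e ∧ Tendsto e atImInfty (𝓝 1) := by
  obtain ⟨a, b, hab⟩ := Invertible.exists_monomial_weight hw h4
  refine ⟨(E₄ : ℍ → ℂ) ^ a * (E₆ : ℍ → ℂ) ^ b, ?_, ?_⟩
  · have h := (Invertible.isMF_top_pow isMF_E₄ a).mul (Invertible.isMF_top_pow isMF_E₆ b)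
    rwa [hab] at h
  · have h := (Regular.tendsto_E₄.pow a).mul (Regular.tendsto_E₆.pow b)
    rw [one_pow, one_pow, one_mul] at h
    exact h

/-! ### `B(∞)` is invertible -/

/-- the auxiliary functions `β_x = ∑_j B_{xj} a_j` -/
def beta (N : ℕ) [NeZero N] (κ : X N → ℤ) (m : X N → ℍ → ℂ) (a : X N → ℍ → ℂ) (x : X N) :
    ℍ → ℂ := ∑ j, bF N κ m x j * a j

lemma beta_apply (a : X N → ℍ → ℂ) (x : X N) (z : ℍ) :
    beta N κ m a x z = ∑ j, bF N κ m x j z * a j z := by
  simp [beta, Finset.sum_apply]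

lemma beta_vadd (hb : IsHomBasis N κ m) (a : X N → ℍ → ℂ)
    (ha : ∀ j z, a j ((1 : ℝ) +ᵥ z) = a j z) (x : X N) (z : ℍ) :
    beta N κ m a x ((1 : ℝ) +ᵥ z) = beta N κ m a x z := by
  rw [beta_apply, beta_apply]
  exact Finset.sum_congr rfl fun j _ => by rw [bF_vadd hb, ha]

lemma mdiff_beta (hb : IsHomBasis N κ m) (a : X N → ℍ → ℂ) (ha : ∀ j, MDiff (a j)) (x : X N) :
    MDiff (beta N κ m a x) :=
  MDifferentiable.sum fun j _ => (mdiff_bF hb x j).mul (ha j)

lemma tendsto_beta (hb : IsHomBasis N κ m) (a : X N → ℍ → ℂ) (c : X N → ℂ)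
    (ha : ∀ j, Tendsto (a j) atImInfty (𝓝 (c j))) (x : X N) :
    Tendsto (beta N κ m a x) atImInfty (𝓝 (∑ j, bInf hb x j * c j)) := by
  have : beta N κ m a x = fun z => ∑ j, bF N κ m x j z * a j z :=
    funext fun z => beta_apply a x z
  rw [this]
  exact tendsto_finsetSum _ fun j _ => (tendsto_bF hb x j).mul (ha j)

lemma mult_mul_beta (a : X N → ℍ → ℂ) (x : X N) (z : ℍ) :
    mult N x z * beta N κ m a x z = ∑ y, U N x y * ∑ j, Phi N κ m z y j * a j z := by
  rw [beta_apply]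
  have h := mult_ne_zero x z
  calc mult N x z * ∑ j, bF N κ m x j z * a j z
      = ∑ j, (∑ y, U N x y * Phi N κ m z y j) * a j z := by
        rw [Finset.mul_sum]
        refine Finset.sum_congr rfl fun j _ => ?_
        simp only [bF, uF, Matrix.mul_apply]
        rw [← mul_assoc, ← mul_assoc, mul_inv_cancel₀ h, one_mul]
    _ = ∑ j, ∑ y, U N x y * (Phi N κ m z y j * a j z) := by
        refine Finset.sum_congr rfl fun j _ => ?_
        rw [Finset.sum_mul]
        exact Finset.sum_congr rfl fun y _ => mul_assoc _ _ _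
    _ = ∑ y, ∑ j, U N x y * (Phi N κ m z y j * a j z) := Finset.sum_comm
    _ = ∑ y, U N x y * ∑ j, Phi N κ m z y j * a j z := by
        refine Finset.sum_congr rfl fun y _ => ?_
        rw [Finset.mul_sum]

lemma eq_sum_Uinv (v : X N → ℂ) (y : X N) :
    v y = ∑ x, (U N)⁻¹ y x * ∑ y', U N x y' * v y' := by
  have h : ((U N)⁻¹ * U N) = 1 :=
    Matrix.nonsing_inv_mul _ (isUnit_iff_ne_zero.mpr det_U_ne_zero)
  have h2 : ((U N)⁻¹).mulVec ((U N).mulVec v) = v := by
    rw [Matrix.mulVec_mulVec, h, Matrix.one_mulVec]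
  conv_lhs => rw [← h2]
  rfl

lemma norm_mult_le_one (x : X N) (z : ℍ) : ‖mult N x z‖ ≤ 1 := by
  rw [norm_mult]
  apply Real.exp_le_one_iff.mpr
  have h1 := th_nonneg (N := N) x
  have h2 := z.im_pos
  have : 0 ≤ 2 * π * th N x * z.im := by positivity
  linarith

lemma cF_isBigO_of_beta (a : X N → ℍ → ℂ)
    (hβ : ∀ x, beta N κ m a x =O[atImInfty] fun z : ℍ => Real.exp (-2 * π * z.im)) (y : X N) :
    (fun z => ∑ j, Phi N κ m z y j * a j z)
      =O[atImInfty] fun z : ℍ => Real.exp (-2 * π * z.im) := by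
  have h1 : ∀ x, (fun z => mult N x z * beta N κ m a x z)
      =O[atImInfty] fun z : ℍ => Real.exp (-2 * π * z.im) := by
    intro x
    have hm : (fun z => mult N x z) =O[atImInfty] (fun _ : ℍ => (1 : ℝ)) := by
      refine Asymptotics.IsBigO.of_bound 1 (Eventually.of_forall fun z => ?_)
      rw [one_mul, norm_one]
      exact norm_mult_le_one x z
    have := hm.mul (hβ x)
    simpa using this
  have h2 : (fun z => ∑ j, Phi N κ m z y j * a j z)
      = fun z => ∑ x, (U N)⁻¹ y x * (mult N x z * beta N κ m a x z) := by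
    funext z
    rw [eq_sum_Uinv (fun y' => ∑ j, Phi N κ m z y' j * a j z) y]
    refine Finset.sum_congr rfl fun x _ => ?_
    rw [mult_mul_beta]
  rw [h2]
  have h3 := Asymptotics.IsBigO.sum (s := Finset.univ)
    fun x _ => (h1 x).const_mul_left ((U N)⁻¹ y x)
  refine h3.congr_left fun z => ?_
  simp [Finset.sum_apply]

theorem bInf_kernel (hb : IsHomBasis N κ m) (c : X N → ℂ)
    (hc : ∀ x, ∑ j, bInf hb x j * c j = 0) : ∀ j, c j = 0 := by
  have hev : ∀ j, Even (κ j) := fun j => Invertible.even_weight_of_isHomBasis hb j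
  obtain ⟨K0, hK0⟩ : ∃ K0 : ℤ, ∀ j, Even (K0 - κ j) ∧ 4 ≤ K0 - κ j := by
    refine ⟨4 + ∑ j, |κ j|, fun j => ⟨?_, ?_⟩⟩
    · have h1 : Even (∑ j, |κ j|) := Finset.even_sum _ fun i _ => even_abs.mpr (hev i)
      have h4 : Even (4 : ℤ) := ⟨2, rfl⟩
      exact (h4.add h1).sub (hev j)
    · have : κ j ≤ ∑ i, |κ i| := (le_abs_self _).trans
        (Finset.single_le_sum (f := fun i => |κ i|) (fun i _ => abs_nonneg (κ i))
          (Finset.mem_univ j))
      linarith
  choose e he1 he2 using fun j => exists_unit_form (K0 - κ j) (hK0 j).1 (hK0 j).2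
  set a : X N → ℍ → ℂ := fun j => c j • e j with ha_def
  have ha : ∀ j, IsMF ⊤ (K0 - κ j) (a j) := fun j => (he1 j).smul (c j)
  have hat : ∀ j, Tendsto (a j) atImInfty (𝓝 (c j)) := by
    intro j
    have := (he2 j).const_smul (c j)
    rw [smul_eq_mul, mul_one] at this
    exact this
  set G : ℍ → ℂ := ∑ j, a j * m j with hG_def
  have hG : IsMF (Gamma0 N) K0 G := Invertible.isMF_sum_mul hb.mem K0 a ha
  have hcF : ∀ q z, cF (Gamma0 N) K0 G q z = ∑ j, Phi N κ m z q j * a j z := by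
    intro q z
    rw [hG_def, Invertible.cF_sum_mul K0 a ha q]
    simp only [Finset.sum_apply, Pi.mul_apply]
    exact Finset.sum_congr rfl fun j _ => mul_comm _ _
  -- beta decays
  have hβ : ∀ x, beta N κ m a x =O[atImInfty] fun z : ℍ => Real.exp (-2 * π * z.im) := by
    intro x
    apply isBigO_exp_of_periodic_of_tendsto_zero
    · exact beta_vadd hb a (fun j z => isMF_top_vadd (ha j) z) x
    · exact mdiff_beta hb a (fun j => (ha j).holo) x
    · have := tendsto_beta hb a c hat x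
      rw [hc x] at this
      exact this
  have hdec : ∀ γ : SL(2, ℤ),
      (G ∣[K0] γ) =O[atImInfty] fun z : ℍ => Real.exp (-2 * π * z.im) := by
    intro γ
    have h1 : G ∣[K0] γ = cF (Gamma0 N) K0 G ((γ⁻¹ : SL(2, ℤ)) : X N) := by
      rw [cF_mk hG.inv, inv_inv]
    rw [h1]
    have h2 : cF (Gamma0 N) K0 G ((γ⁻¹ : SL(2, ℤ)) : X N)
        = fun z => ∑ j, Phi N κ m z ((γ⁻¹ : SL(2, ℤ)) : X N) j * a j z :=
      funext fun z => hcF _ z
    rw [h2]
    exact cF_isBigO_of_beta a hβ _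
  obtain ⟨h, hh, hGh⟩ := Regular.div_discriminant hG hdec
  obtain ⟨a', ha', hsum⟩ := hb.gen (K0 - 12) h hh
  have hΔa' : ∀ j, IsMF ⊤ (K0 - κ j) ((ModularForm.discriminant : ℍ → ℂ) * a' j) := fun j =>
    (isCF_discriminant.isMF.mul (ha' j)).of_weight_eq (by ring)
  have hfree := hb.free K0 (fun j => a j - (ModularForm.discriminant : ℍ → ℂ) * a' j)
    (fun j => (ha j).sub (hΔa' j)) (by
      have : ∑ j, (a j - (ModularForm.discriminant : ℍ → ℂ) * a' j) * m j
          = G - ModularForm.discriminant * h := by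
        rw [hsum, hG_def, Finset.mul_sum, ← Finset.sum_sub_distrib]
        refine Finset.sum_congr rfl fun j _ => ?_
        ring
      rw [this, ← hGh, sub_self])
  intro j
  have h1 : a j = (ModularForm.discriminant : ℍ → ℂ) * a' j := sub_eq_zero.mp (hfree j)
  obtain ⟨L, hL⟩ := LevelOne.exists_tendsto (ha' j)
  have h2 : Tendsto ((ModularForm.discriminant : ℍ → ℂ) * a' j) atImInfty (𝓝 (0 * L)) :=
    Tendsto.mul discriminant_isZeroAtImInfty hL
  rw [zero_mul, ← h1] at h2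
  exact tendsto_nhds_unique (hat j) h2

theorem det_bInf_ne_zero (hb : IsHomBasis N κ m) : (bInf hb).det ≠ 0 := by
  intro h0
  obtain ⟨v, hv, hv0⟩ := Matrix.exists_mulVec_eq_zero_iff.mpr h0
  apply hv
  funext j
  exact bInf_kernel hb v (fun x => by
    have := congrFun hv0 x
    simpa [Matrix.mulVec, dotProduct] using this) j

/-! ### Vanishing of `Δ · Φ⁻¹` at `i∞` -/

lemma tendsto_discriminant_mul_mult_inv (x : X N) :
    Tendsto (fun z : ℍ => ModularForm.discriminant z * (mult N x z)⁻¹) atImInfty (𝓝 0) := by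
  rw [tendsto_zero_iff_norm_tendsto_zero]
  have hP := tendsto_atImInfty_tprod_one_sub_eta_q_pow
  have hpos : 0 < 2 * π * (1 - th N x) :=
    mul_pos (by positivity) (sub_pos.mpr (th_lt_one x))
  have hE := Regular.tendsto_exp_neg_im_atImInfty hpos
  have h := hP.norm.mul hE
  rw [mul_zero] at h
  refine h.congr fun z => ?_
  have e : Real.exp (-(2 * π * (1 - th N x)) * z.im)
      = Real.exp (-2 * π * z.im) * Real.exp (2 * π * th N x * z.im) := by
    rw [← Real.exp_add]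
    congr 1
    ring
  rw [norm_mul, norm_mult_inv, discriminant_eq_q_prod, norm_mul, norm_qParam_one, e]
  ring

lemma tendsto_Bmat_inv (hb : IsHomBasis N κ m) (j x : X N) :
    Tendsto (fun z => (Bmat N κ m z)⁻¹ j x) atImInfty (𝓝 ((bInf hb)⁻¹ j x)) := by
  have hdet := det_bInf_ne_zero hb
  have hc : ContinuousAt Ring.inverse (bInf hb).det := by
    have := NormedRing.inverse_continuousAt (Units.mk0 _ hdet)
    simpa using this
  have h1 : ContinuousAt Inv.inv (bInf hb) := continuousAt_matrix_inv _ hc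
  have h2 : Tendsto (fun z => (Bmat N κ m z)⁻¹) atImInfty (𝓝 (bInf hb)⁻¹) :=
    h1.tendsto.comp (tendsto_Bmat hb)
  exact ((continuous_apply x).tendsto _).comp (((continuous_apply j).tendsto _).comp h2)

/-- **F8, cusp condition**: the entries of `Δ · Φ⁻¹` vanish at `i∞`. -/
theorem isZeroAtImInfty_discriminant_mul_inv (hb : IsHomBasis N κ m) (q j : X N) :
    IsZeroAtImInfty (fun z => ModularForm.discriminant z * (Phi N κ m z)⁻¹ j q) := by
  have h1 : ∀ z, ModularForm.discriminant z * (Phi N κ m z)⁻¹ j q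
      = ∑ x, (Bmat N κ m z)⁻¹ j x * (ModularForm.discriminant z * (mult N x z)⁻¹)
          * U N x q := by
    intro z
    rw [Phi_inv_eq hb z, Matrix.mul_apply, Finset.mul_sum]
    refine Finset.sum_congr rfl fun x _ => ?_
    rw [Matrix.mul_diagonal]
    ring
  have h2 : Tendsto (fun z => ∑ x, (Bmat N κ m z)⁻¹ j x
      * (ModularForm.discriminant z * (mult N x z)⁻¹) * U N x q) atImInfty
      (𝓝 (∑ x, (bInf hb)⁻¹ j x * 0 * U N x q)) :=
    tendsto_finsetSum _ fun x _ =>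
      ((tendsto_Bmat_inv hb j x).mul (tendsto_discriminant_mul_mult_inv x)).mul_const _
  simp only [mul_zero, zero_mul, Finset.sum_const_zero] at h2
  exact h2.congr fun z => (h1 z).symm

/-! ### The sum of the weights -/

/-- `ψ - c` as an integer -/
def nZ (N : ℕ) [NeZero N] : ℤ :=
  (Nat.card (X N) : ℤ)
    - Nat.card (MulAction.orbitRel.Quotient (Subgroup.zpowers ModularGroup.T) (X N))

lemma two_mul_sum_th : 2 * ∑ x, th N x = (nZ N : ℝ) := by
  have h := sum_expo_div_width (Gamma0 N) ModularGroup.T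
  have h2 := congrArg (Rat.cast : ℚ → ℝ) h
  push_cast at h2
  unfold th nZ
  push_cast
  rw [h2]
  ring

lemma prod_mult_sq (z : ℍ) : (∏ x, mult N x z) ^ 2 = (𝕢 1 (z : ℂ)) ^ (nZ N) := by
  unfold mult
  rw [← Complex.exp_sum, ← Complex.exp_nat_mul, Function.Periodic.qParam, ← Complex.exp_int_mul]
  congr 1
  have h' : (2 : ℂ) * ∑ x, (th N x : ℂ) = (nZ N : ℂ) := by
    have := congrArg (fun r : ℝ => (r : ℂ)) (two_mul_sum_th (N := N))
    push_cast at this
    exact this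
  have hs : ∑ x, 2 * (π : ℂ) * Complex.I * (th N x : ℂ) * (z : ℂ)
      = 2 * π * Complex.I * (∑ x, (th N x : ℂ)) * z := by
    rw [Finset.mul_sum, Finset.sum_mul]
  rw [hs]
  push_cast
  linear_combination (2 * π * Complex.I * z) * h'

lemma zpow_qParam_eq_zero_of_tendsto {k : ℤ} {L : ℂ} (hL : L ≠ 0)
    (h : Tendsto (fun z : ℍ => (𝕢 1 (z : ℂ)) ^ k) atImInfty (𝓝 L)) : k = 0 := by
  have hq : Tendsto (fun z : ℍ => 𝕢 1 (z : ℂ)) atImInfty (𝓝 0) :=
    UpperHalfPlane.qParam_tendsto_atImInfty one_pos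
  have hpos : ∀ n : ℕ, 0 < n →
      Tendsto (fun z : ℍ => (𝕢 1 (z : ℂ)) ^ (n : ℤ)) atImInfty (𝓝 0) := by
    intro n hn
    have := hq.pow n
    rw [zero_pow hn.ne'] at this
    simpa [zpow_natCast] using this
  by_contra hk
  rcases lt_or_gt_of_ne hk with hneg | hpos'
  · obtain ⟨n, hn⟩ : ∃ n : ℕ, -k = n := ⟨(-k).toNat, by omega⟩
    have h1 := hpos n (by omega)
    have h2 := h.inv₀ hL
    have h3 : (fun z : ℍ => ((𝕢 1 (z : ℂ)) ^ k)⁻¹) = fun z : ℍ => (𝕢 1 (z : ℂ)) ^ (n : ℤ) := by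
      funext z
      rw [← zpow_neg, hn]
    rw [h3] at h2
    exact inv_ne_zero hL (tendsto_nhds_unique h2 h1)
  · obtain ⟨n, hn⟩ : ∃ n : ℕ, k = n := ⟨k.toNat, by omega⟩
    have h1 := hpos n (by omega)
    rw [hn] at h
    exact hL (tendsto_nhds_unique h h1)

/-- **F8, weight sum**: `∑ κ_j = 6 (ψ - c)`. -/
theorem sum_weights (hb : IsHomBasis N κ m) :
    ∑ j, κ j = 6 * ((Nat.card (X N) : ℤ) -
      Nat.card (MulAction.orbitRel.Quotient (Subgroup.zpowers ModularGroup.T) (X N))) := by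
  have hW2 := DetEquiv.isMF_detPhi_mul_detPhi hb.mem hb.mem
  have hne : ∀ z, (DetEquiv.detPhi N κ m * DetEquiv.detPhi N κ m) z ≠ 0 := fun z =>
    mul_ne_zero (Invertible.det_Phi_ne_zero hb z) (Invertible.det_Phi_ne_zero hb z)
  obtain ⟨a, c, hc, hka, hF⟩ := LevelOne.exists_eq_const_mul_discriminant_pow hW2 hne
  -- pointwise identity
  have key : ∀ z : ℍ, (𝕢 1 (z : ℂ)) ^ ((a : ℤ) - nZ N)
      = (Bmat N κ m z).det ^ 2
        / ((U N).det ^ 2 * c * (∏' n, (1 - eta_q n z) ^ 24) ^ a) := by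
    intro z
    have hq : 𝕢 1 (z : ℂ) ≠ 0 := by
      unfold Function.Periodic.qParam
      exact Complex.exp_ne_zero _
    have hP : (∏' n, (1 - eta_q n z) ^ 24) ≠ 0 := by
      intro h0
      have := discriminant_ne_zero z
      rw [discriminant_eq_q_prod, h0, mul_zero] at this
      exact this rfl
    have hF' : (Phi N κ m z).det * (Phi N κ m z).det
        = c * (𝕢 1 (z : ℂ) * ∏' n, (1 - eta_q n z) ^ 24) ^ a := by
      have := congrFun hF z
      simpa [DetEquiv.detPhi, discriminant_eq_q_prod] using this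
    have hm := prod_mult_sq (N := N) z
    have hm0 : (∏ x, mult N x z) ≠ 0 :=
      Finset.prod_ne_zero_iff.mpr fun x _ => mult_ne_zero x z
    rw [zpow_sub₀ hq, zpow_natCast, ← hm, det_Bmat, Finset.prod_inv_distrib]
    have e1 : ((∏ x, mult N x z)⁻¹ * ((U N).det * (Phi N κ m z).det)) ^ 2
        = ((∏ x, mult N x z) ^ 2)⁻¹ * ((U N).det ^ 2
          * (c * ((𝕢 1 (z : ℂ)) ^ a * (∏' n, (1 - eta_q n z) ^ 24) ^ a))) := by
      rw [← mul_pow (𝕢 1 (z : ℂ)), ← hF']
      ring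
    rw [e1]
    have hU := det_U_ne_zero (N := N)
    field_simp
  have hlim : Tendsto (fun z : ℍ => (Bmat N κ m z).det ^ 2
      / ((U N).det ^ 2 * c * (∏' n, (1 - eta_q n z) ^ 24) ^ a)) atImInfty
      (𝓝 ((bInf hb).det ^ 2 / ((U N).det ^ 2 * c * 1 ^ a))) := by
    have h1 : Tendsto (fun z => (Bmat N κ m z).det) atImInfty (𝓝 (bInf hb).det) :=
      (continuous_id.matrix_det.tendsto _).comp (tendsto_Bmat hb)
    have h2 := tendsto_atImInfty_tprod_one_sub_eta_q_pow
    exact (h1.pow 2).div ((h2.pow a).const_mul _) (by simp [det_U_ne_zero, hc])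
  have hL : (bInf hb).det ^ 2 / ((U N).det ^ 2 * c * 1 ^ a) ≠ 0 := by
    have := det_bInf_ne_zero hb
    have hU := det_U_ne_zero (N := N)
    simp [this, hU, hc]
  have hk0 := zpow_qParam_eq_zero_of_tendsto hL (hlim.congr fun z => (key z).symm)
  unfold nZ at hk0
  omega

end Fermat.Agent.M2F.Cusps
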