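import Fermat.Agent.M2F.Defs
import Fermat.Prelude.Def_ModularForm_HeckeOperator

/-!
# M2F / F4 (a): level raising `f(z) ↦ f(Nz)`

For a level-one modular form `f` of weight `k`, the function `f ∣[k] diag(N,1)`
(`= N^(k-1) f(Nz)`) is a modular form of weight `k` on `Γ₀(N)`: holomorphic, invariant, and bounded
at all cusps.  The matrix `diag(N,1)` is the prelude's `ModularForm.heckeDiagMatrix N`.
-/

set_option autoImplicit false

open UpperHalfPlane ModularForm MatrixGroups CongruenceSubgroup Matrix.SpecialLinearGroup OnePoint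
open scoped Manifold Topology

namespace Fermat.Agent.M2F.LevelRaise

/-- `f ∣[k] γ` for `γ : SL(2,ℤ)` is the slash by the image of `γ` in `GL(2,ℝ)`. -/
theorem slash_SL_eq (k : ℤ) (f : ℍ → ℂ) (γ : SL(2, ℤ)) : f ∣[k] γ = f ∣[k] (mapGL ℝ γ) := rfl

theorem mapGL_mk_apply (M : Matrix (Fin 2) (Fin 2) ℤ) (h : M.det = 1) (i j : Fin 2) :
    (mapGL ℝ (⟨M, h⟩ : SL(2, ℤ)) : GL (Fin 2) ℝ) i j = ((M i j : ℤ) : ℝ) := rfl

theorem mapGL_apply (γ : SL(2, ℤ)) (i j : Fin 2) :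
    (mapGL ℝ γ : GL (Fin 2) ℝ) i j = ((γ i j : ℤ) : ℝ) := rfl

/-- conjugation of `Γ₀(N)` by `diag(N,1)` lands in `SL(2,ℤ)` -/
theorem exists_conj (N : ℕ) [NeZero N] {γ : SL(2, ℤ)} (hγ : γ ∈ Gamma0 N) :
    ∃ γ' : SL(2, ℤ), heckeDiagMatrix N * mapGL ℝ γ = mapGL ℝ γ' * heckeDiagMatrix N := by
  have hN : N ≠ 0 := NeZero.ne N
  have hc : (N : ℤ) ∣ γ 1 0 :=
    (ZMod.intCast_zmod_eq_zero_iff_dvd _ _).mp (Gamma0_mem.mp hγ)
  obtain ⟨c', hc'⟩ := hc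
  have hdet : γ 0 0 * γ 1 1 - γ 0 1 * γ 1 0 = 1 := by
    have := γ.det_coe
    rwa [Matrix.det_fin_two] at this
  refine ⟨⟨!![γ 0 0, N * γ 0 1; c', γ 1 1], ?_⟩, ?_⟩
  · rw [Matrix.det_fin_two_of]
    rw [hc'] at hdet
    linear_combination hdet
  · ext i j
    fin_cases i <;> fin_cases j <;>
      simp [Matrix.mul_apply, Fin.sum_univ_two, val_heckeDiagMatrix hN, hc'] <;>
      ring

/-- A real matrix whose first column is rational sends `∞` to a cusp of `SL(2,ℤ)`. -/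
theorem isCusp_of_rat (g : GL (Fin 2) ℝ) (p q : ℚ)
    (hp : (g : Matrix (Fin 2) (Fin 2) ℝ) 0 0 = p) (hq : (g : Matrix (Fin 2) (Fin 2) ℝ) 1 0 = q) :
    IsCusp (g • (∞ : OnePoint ℝ)) 𝒮ℒ := by
  rw [isCusp_SL2Z_iff]
  classical
  rw [OnePoint.smul_infty_eq_ite, hp, hq]
  split_ifs with h
  · exact ⟨∞, rfl⟩
  · refine ⟨((p / q : ℚ) : OnePoint ℚ), ?_⟩
    simp [OnePoint.map_some]

theorem isCusp_heckeDiag_mul (N : ℕ) [NeZero N] (γ : SL(2, ℤ)) :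
    IsCusp ((heckeDiagMatrix N * mapGL ℝ γ) • (∞ : OnePoint ℝ)) 𝒮ℒ := by
  have hN : N ≠ 0 := NeZero.ne N
  refine isCusp_of_rat _ ((N : ℚ) * (γ 0 0 : ℤ)) ((γ 1 0 : ℤ) : ℚ) ?_ ?_
  · simp [Matrix.mul_apply, Fin.sum_univ_two, val_heckeDiagMatrix hN]
  · simp [Matrix.mul_apply, Fin.sum_univ_two, val_heckeDiagMatrix hN]

/-- **Level raising.**  If `f` is a level-one modular form of weight `k`, then
`f ∣[k] diag(N,1) = N^(k-1) f(N·)` is a modular form of weight `k` on `Γ₀(N)`. -/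
theorem isMF_slash_heckeDiag (N : ℕ) [NeZero N] {k : ℤ} {f : ℍ → ℂ} (hf : IsMF ⊤ k f) :
    IsMF (Gamma0 N) k (f ∣[k] heckeDiagMatrix N) where
  holo := hf.holo.slash k _
  inv := fun γ hγ => by
    obtain ⟨γ', h⟩ := exists_conj N hγ
    rw [slash_SL_eq, ← SlashAction.slash_mul, h, SlashAction.slash_mul, ← slash_SL_eq,
      hf.inv γ' (Subgroup.mem_top _)]
  bdd := fun γ => by
    rw [slash_SL_eq, ← SlashAction.slash_mul]
    exact ModularFormClass.bdd_at_cusps (toLevelOne hf) (isCusp_heckeDiag_mul N γ) _ rfl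

/-- **Level raising, cuspidal version.** -/
theorem isCF_slash_heckeDiag (N : ℕ) [NeZero N] {k : ℤ} {f : ℍ → ℂ} (hf : IsCF ⊤ k f) :
    IsCF (Gamma0 N) k (f ∣[k] heckeDiagMatrix N) where
  holo := hf.holo.slash k _
  inv := fun γ hγ => by
    obtain ⟨γ', h⟩ := exists_conj N hγ
    rw [slash_SL_eq, ← SlashAction.slash_mul, h, SlashAction.slash_mul, ← slash_SL_eq,
      hf.inv γ' (Subgroup.mem_top _)]
  zero := fun γ => by
    rw [slash_SL_eq, ← SlashAction.slash_mul]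
    have hc := (Subgroup.IsArithmetic.isCusp_iff_isCusp_SL2Z
      (((⊤ : Subgroup SL(2, ℤ)) : Subgroup (GL (Fin 2) ℝ)))).mpr (isCusp_heckeDiag_mul N γ)
    exact CuspFormClass.zero_at_cusps (hf.toCuspForm ⊤ k) hc _ rfl

/-- Pointwise formula: `(f ∣[k] diag(N,1)) z = N^(k-1) f(diag(N,1) • z)`. -/
theorem slash_heckeDiag_apply (N : ℕ) [NeZero N] (k : ℤ) (f : ℍ → ℂ) (z : ℍ) :
    (f ∣[k] heckeDiagMatrix N) z = (N : ℂ) ^ (k - 1) * f (heckeDiagMatrix N • z) :=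
  slash_heckeDiagMatrix_apply k (NeZero.ne N) f z

theorem coe_heckeDiag_smul (N : ℕ) [NeZero N] (z : ℍ) :
    ((heckeDiagMatrix N • z : ℍ) : ℂ) = (N : ℂ) * z :=
  coe_heckeDiagMatrix_smul (NeZero.ne N) z

end Fermat.Agent.M2F.LevelRaise
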